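/-
MLT / L1 / Three (helper4), part 5: **the Atkin–Lehner involutions `w_3` of `X₀(3N'')`, `w_9` of
`X₀(9N'')` and the middle degeneracy map**: `B_3 = w_9 ∘ α ∘ w_3` on the function field of `X₀(3N'')`
(`3 ∤ N''`), where `α` is the inclusion and `B_3 : q ↦ q³`.
-/
import Mathlib
import Fermat.Agent.Lib.T4.Inst.ALMain

set_option autoImplicit false
set_option linter.unusedSectionVars false
set_option linter.unusedVariables false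
set_option linter.style.haveILetI false

namespace Fermat.Agent.MLT

open Fermat.Agent.S24Lib Fermat.Agent.T1 Fermat.Agent.T1.KMod Fermat.Agent.T2 Fermat.Agent.T4
open ModularCurve HahnSeries

section AL

variable (𝕜 : Type) [Field 𝕜] [IsAlgClosed 𝕜] [Algebra 𝕜 ℂ] [Algebra ℚ 𝕜]
variable (N'' : ℕ) [NeZero N''] (hcop : Nat.Coprime 3 N'')

theorem mlt3_level_eq : N'' * 3 * 3 = N'' * 9 := by ring

include hcop in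
theorem mlt3_coprime_nine : Nat.Coprime 9 N'' := by
  have : (9 : ℕ) = 3 ^ 2 := by norm_num
  rw [this]
  exact Nat.Coprime.pow_left 2 hcop

/-- the Atkin–Lehner involution `w_3` of the function field of `X₀(3N'')` -/
noncomputable def mlt3W3 : ↥(barField 𝕜 (N'' * 3)) ≃ₐ[𝕜] ↥(barField 𝕜 (N'' * 3)) :=
  t4w 𝕜 (N'' * 3) N'' 3 rfl hcop

/-- the Atkin–Lehner involution `w_9` of the function field of `X₀(9N'')` -/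
noncomputable def mlt3W9 : ↥(barField 𝕜 (N'' * 3 * 3)) ≃ₐ[𝕜] ↥(barField 𝕜 (N'' * 3 * 3)) :=
  t4w 𝕜 (N'' * 3 * 3) N'' 9 (mlt3_level_eq N'') (mlt3_coprime_nine N'' hcop)

theorem mlt3W3_symm : (mlt3W3 𝕜 N'' hcop).symm = mlt3W3 𝕜 N'' hcop := t4w_symm 𝕜 _ _ _ _ _

theorem mlt3W9_symm : (mlt3W9 𝕜 N'' hcop).symm = mlt3W9 𝕜 N'' hcop := t4w_symm 𝕜 _ _ _ _ _

theorem mlt3W3_W3 (x : ↥(barField 𝕜 (N'' * 3))) :
    mlt3W3 𝕜 N'' hcop (mlt3W3 𝕜 N'' hcop x) = x := t4w_t4w 𝕜 _ _ _ _ _ x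

theorem mlt3W9_W9 (x : ↥(barField 𝕜 (N'' * 3 * 3))) :
    mlt3W9 𝕜 N'' hcop (mlt3W9 𝕜 N'' hcop x) = x := t4w_t4w 𝕜 _ _ _ _ _ x

/-- `w_3 (j(q^{d e})) = j(q^{d e'})`, `d ∣ N''`, `e e' = 3` -/
theorem mlt3W3_jd {d e e' : ℕ} (hd : d ∣ N'') (he : e * e' = 3) :
    mlt3W3 𝕜 N'' hcop (t2wJd 𝕜 (N'' * 3) (d * e) (t4w_dvd (N'' * 3) N'' 3 rfl hd he))
      = t2wJd 𝕜 (N'' * 3) (d * e') (t4w_dvd' (N'' * 3) N'' 3 rfl hd he) :=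
  t4w_jd 𝕜 _ _ _ _ _ hd he

/-- `w_9 (j(q^{d e})) = j(q^{d e'})`, `d ∣ N''`, `e e' = 9` -/
theorem mlt3W9_jd {d e e' : ℕ} (hd : d ∣ N'') (he : e * e' = 9) :
    mlt3W9 𝕜 N'' hcop (t2wJd 𝕜 (N'' * 3 * 3) (d * e)
        (t4w_dvd (N'' * 3 * 3) N'' 9 (mlt3_level_eq N'') hd he))
      = t2wJd 𝕜 (N'' * 3 * 3) (d * e')
        (t4w_dvd' (N'' * 3 * 3) N'' 9 (mlt3_level_eq N'') hd he) :=
  t4w_jd 𝕜 _ _ _ _ _ hd he

/-- `B_3 (j(q^D)) = j(q^{3D})` -/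
theorem mlt3_beta_jd (N : ℕ) [NeZero N] (D : ℕ) (hD : D ∣ N) :
    heckeBetaBar 𝕜 N 3 (t2wJd 𝕜 N D hD)
      = t2wJd 𝕜 (N * 3) (D * 3) (Nat.mul_dvd_mul_right hD 3) := by
  haveI : NeZero D := t2w_neZero_of_dvd N hD
  apply Subtype.ext
  show qExpand 𝕜 3 (qExpand 𝕜 D (jqModC 𝕜)) = qExpand 𝕜 (D * 3) (jqModC 𝕜)
  rw [qExpand_qExpand]
  exact qExpand_congr (mul_comm 3 D) _

theorem mlt3_alpha_jd' (N : ℕ) [NeZero N] (D : ℕ) (hD : D ∣ N) :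
    heckeAlphaBar 𝕜 N 3 (t2wJd 𝕜 N D hD) = t2wJd 𝕜 (N * 3) D (hD.mul_right 3) :=
  Subtype.ext rfl

/-- **`B_3 = w_9 ∘ α ∘ w_3`** -/
theorem mlt3_beta_eq (x : ↥(barField 𝕜 (N'' * 3))) :
    heckeBetaBar 𝕜 (N'' * 3) 3 x
      = mlt3W9 𝕜 N'' hcop (heckeAlphaBar 𝕜 (N'' * 3) 3 (mlt3W3 𝕜 N'' hcop x)) := by
  have key : (heckeBetaBar 𝕜 (N'' * 3) 3 : ↥(barField 𝕜 (N'' * 3)) →+* ↥(barField 𝕜 (N'' * 3 * 3)))
      = ((mlt3W9 𝕜 N'' hcop : ↥(barField 𝕜 (N'' * 3 * 3)) →+* ↥(barField 𝕜 (N'' * 3 * 3))).comp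
          (heckeAlphaBar 𝕜 (N'' * 3) 3 : ↥(barField 𝕜 (N'' * 3)) →+* ↥(barField 𝕜 (N'' * 3 * 3)))).comp
          (mlt3W3 𝕜 N'' hcop : ↥(barField 𝕜 (N'' * 3)) →+* ↥(barField 𝕜 (N'' * 3))) := by
    apply t2w_ringHom_ext
    · intro c
      show heckeBetaBar 𝕜 (N'' * 3) 3 (algebraMap 𝕜 _ c)
        = mlt3W9 𝕜 N'' hcop (heckeAlphaBar 𝕜 (N'' * 3) 3 (mlt3W3 𝕜 N'' hcop (algebraMap 𝕜 _ c)))
      rw [AlgHom.commutes, AlgEquiv.commutes, AlgHom.commutes, AlgEquiv.commutes]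
    · intro D hD
      show heckeBetaBar 𝕜 (N'' * 3) 3 (t2wJd 𝕜 (N'' * 3) D hD)
        = mlt3W9 𝕜 N'' hcop (heckeAlphaBar 𝕜 (N'' * 3) 3
            (mlt3W3 𝕜 N'' hcop (t2wJd 𝕜 (N'' * 3) D hD)))
      obtain ⟨d, e, e', hd, he, rfl⟩ := t4w_dvd_cases (N'' * 3) N'' 3 rfl hD
      have he9 : e' * (e * 3) = 9 := by
        calc e' * (e * 3) = (e * e') * 3 := by ring
          _ = 9 := by rw [he]
      rw [mlt3W3_jd 𝕜 N'' hcop hd he, mlt3_alpha_jd', mlt3_beta_jd]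
      have h1 := mlt3W9_jd 𝕜 N'' hcop hd he9
      rw [h1]
      exact t4w_jd_congr 𝕜 _ _ _ (by ring)
  exact RingHom.congr_fun key x

end AL

end Fermat.Agent.MLT
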