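/-
MLT (project S59) / [L1], `p = 3` core, sub-task (D2) of helper4's h4-m14 (lead): **the `β₃`-pull-back on
Jacobians** `J₀(A) → J₀(3 A)`, `[D] ↦ [β₃^* D]` (`β₃ : q ↦ q³`), port of `Lib/T3/Pull/{Modular,HeckeComm,Final}.lean`
with `heckeAlphaBar` replaced by `heckeBetaBar`.

* `mlt3PullB A : JZero A →+ JZero (A * 3)`;
* `mlt3PullB_galois` : Galois equivariance;
* `mlt3PullB_hecke`  : commutation with `T_ℓ`, `ℓ ∤ 3 A` prime;
* `mlt3PullB_class`  : the pull-back of a Kummer class `[div(y)/m]` is the Kummer class of `y(q³)`;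
* `mlt3_redTo_qExpand` : reduction up to a constant commutes with `q ↦ q³`.
-/
import Mathlib
import Fermat.Agent.Lib.T3.Pull.Final
import Fermat.Agent.Lib.Delta.Wire.PullDvd
import Fermat.Agent.Lib.Delta.Slope.Theta
import Fermat.Prelude.Thm_ModularCurve_coeffMap_qExpand

set_option autoImplicit false
set_option linter.unusedSectionVars false
set_option linter.unusedVariables false
set_option linter.style.haveILetI false

namespace Fermat.Agent.MLT

open AlgebraicCurve ModularCurve Fermat.Agent.Curve HahnSeries Fermat.Agent.T1 Fermat.Agent.T3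
  Fermat.Agent.Delta Fermat.Agent.Alpha

local notation "Qb" => AlgebraicClosure ℚ
local notation "GQ" => (AlgebraicClosure ℚ ≃ₐ[ℚ] AlgebraicClosure ℚ)

noncomputable section

section Def

variable (A : ℕ) [NeZero A]

/-- **the `β₃`-pull-back `J₀(A) → J₀(3 A)`** -/
def mlt3PullB : JZero A →+ JZero (A * 3) :=
  t3pPullAlong (heckeBetaBar Qb A 3) (t3h_betaIntegral A 3) (t3h_betaFundamental A 3)

theorem mlt3PullB_mk (D : Divisor.degZero (K := Qb) (F := ↥(modularFunctionFieldBar A))) :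
    mlt3PullB A (Pic0.mk D)
      = Pic0.mk ⟨Divisor.pullbackAlong (heckeBetaBar Qb A 3) (t3h_betaIntegral A 3)
          (D : Divisor Qb _),
          Divisor.pullbackAlong_mem_degZero _ _ (t3h_betaFundamental A 3) D.2⟩ :=
  rfl

/-- `β₃ : F_A → F_{3A}` intertwines the arithmetic Galois actions -/
theorem mlt3b_intertwines (σ : GQ) :
    SemilinearAut.IntertwinesAlong (heckeBetaBar Qb A 3).toRingHom
      (arithmeticGalois (modularFunctionFieldFull A) σ)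
      (arithmeticGalois (modularFunctionFieldFull (A * 3)) σ) := by
  intro y
  apply Subtype.ext
  rw [coe_arithmeticGalois_smul]
  show _ = ((heckeBetaBar Qb A 3 (arithmeticGalois (modularFunctionFieldFull A) σ • y) :
    ↥(modularFunctionFieldBar (A * 3))) : LaurentSeries Qb)
  rw [coe_heckeBetaBar, coe_arithmeticGalois_smul]
  show coeffMap _ ((heckeBetaBar Qb A 3 y : ↥(modularFunctionFieldBar (A * 3))) :
    LaurentSeries Qb) = _
  rw [coe_heckeBetaBar, ModularCurve.coeffMap_qExpand]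

/-- **the `β₃`-pull-back is Galois equivariant** -/
theorem mlt3PullB_galois (σ : GQ) (x : JZero A) : mlt3PullB A (σ • x) = σ • mlt3PullB A x := by
  rw [galois_smul_pic0_def, galois_smul_pic0_def]
  exact t3pPullAlong_smul _ _ _ (mlt3b_intertwines A σ) x

/-- **the `β₃`-pull-back of a Kummer class is the Kummer class of `y(q³)`** -/
theorem mlt3PullB_class {m : ℕ} (hm : m ≠ 0) (y : (↥(modularFunctionFieldBar A))ˣ)
    (hy : ∀ v : Place Qb ↥(modularFunctionFieldBar A), (m : ℤ) ∣ v.ord (y : ↥(modularFunctionFieldBar A))) :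
    mlt3PullB A (alpfClass hm y hy)
      = alpfClass hm (Units.map ((heckeBetaBar Qb A 3 : ↥(modularFunctionFieldBar A) →ₐ[Qb]
          ↥(modularFunctionFieldBar (A * 3))) : ↥(modularFunctionFieldBar A) →*
          ↥(modularFunctionFieldBar (A * 3))) y)
        (dlw_dvd_ord_map (heckeBetaBar Qb A 3) (t3h_betaIntegral A 3) y hy) :=
  dlwPullAlong_class (heckeBetaBar Qb A 3) (t3h_betaIntegral A 3) (t3h_betaFundamental A 3) hm y hy

end Def

/-! ### Commutation with `T_ℓ` -/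

section Psi

variable (A ℓ : ℕ) [NeZero A] [NeZero ℓ]

theorem mlt3b_bar_le : modularFunctionFieldBar (A * ℓ * 3) ≤ modularFunctionFieldBar (A * 3 * ℓ) := by
  rw [mul_right_comm]

/-- `β₃ : F_{A ℓ} → F_{3 A ℓ}` -/
def mlt3bPsi : ↥(modularFunctionFieldBar (A * ℓ)) →ₐ[Qb] ↥(modularFunctionFieldBar (A * 3 * ℓ)) :=
  (IntermediateField.inclusion (mlt3b_bar_le A ℓ)).comp (heckeBetaBar Qb (A * ℓ) 3)

@[simp]
theorem coe_mlt3bPsi (y : ↥(modularFunctionFieldBar (A * ℓ))) :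
    ((mlt3bPsi A ℓ y : ↥(modularFunctionFieldBar (A * 3 * ℓ))) : LaurentSeries Qb)
      = qExpand Qb 3 (y : LaurentSeries Qb) := by
  rw [mlt3bPsi, AlgHom.comp_apply, IntermediateField.coe_inclusion, coe_heckeBetaBar]

theorem mlt3bPsi_integral : (mlt3bPsi A ℓ).toRingHom.IsIntegral :=
  t3h_isIntegralAlong (t3h_gen (A * ℓ)) (t3h_gen (A * 3 * ℓ)) (mlt3bPsi A ℓ)

theorem mlt3b_square_alpha :
    (mlt3bPsi A ℓ).comp (heckeAlphaBar Qb A ℓ)
      = (heckeAlphaBar Qb (A * 3) ℓ).comp (heckeBetaBar Qb A 3) := by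
  apply AlgHom.ext
  intro y
  apply Subtype.ext
  rw [AlgHom.comp_apply, AlgHom.comp_apply, coe_mlt3bPsi, coe_heckeAlphaBar, coe_heckeAlphaBar,
    coe_heckeBetaBar]

theorem mlt3b_square_beta :
    (mlt3bPsi A ℓ).comp (heckeBetaBar Qb A ℓ)
      = (heckeBetaBar Qb (A * 3) ℓ).comp (heckeBetaBar Qb A 3) := by
  apply AlgHom.ext
  intro y
  apply Subtype.ext
  rw [AlgHom.comp_apply, AlgHom.comp_apply, coe_mlt3bPsi, coe_heckeBetaBar, coe_heckeBetaBar,
    coe_heckeBetaBar, qExpand_qExpand, qExpand_qExpand]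
  exact qExpand_congr (mul_comm 3 ℓ) _

end Psi

section Main

variable (A : ℕ) [NeZero A]

/-- the functional Hecke operator commutes with `q ↦ q³` -/
theorem mlt3b_tkrHecke_beta {ℓ : ℕ} (hℓ : ℓ.Prime) (hℓN : ¬ ℓ ∣ A * 3)
    (y : ↥(modularFunctionFieldBar A)) :
    heckeBetaBar Qb A 3 (tkrHecke A ℓ y) = tkrHecke (A * 3) ℓ (heckeBetaBar Qb A 3 y) := by
  haveI : NeZero ℓ := ⟨hℓ.ne_zero⟩
  have hℓN' : ¬ ℓ ∣ A := fun h => hℓN (h.mul_right 3)
  have hℓ3 : Nat.Coprime 3 ℓ := by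
    rw [Nat.coprime_primes Nat.prime_three hℓ]
    rintro rfl
    exact hℓN (Dvd.intro_left A rfl)
  obtain ⟨ζ', hζ', -⟩ := tkr_exists_zeta ℓ
  have hζ : IsPrimitiveRoot (((ζ' ^ 3 : Qbˣ) : Qbˣ) : Qb) ℓ := by
    rw [Units.val_pow_eq_pow_val]
    exact hζ'.pow_of_coprime 3 hℓ3
  symm
  refine tkrHecke_eq_of_spec hℓ hℓN hζ' _ _ ?_
  rw [coe_heckeBetaBar, coe_heckeBetaBar, qExpand_qExpand, qExpand_qExpand,
    qExpand_congr (mul_comm ℓ 3), ← qExpand_qExpand, tkrHecke_spec hℓ hℓN' hζ y, map_mul, map_prod,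
    qExpand_qExpand, qExpand_congr (mul_comm 3 (ℓ * ℓ))]
  congr 1
  refine Finset.prod_congr rfl (fun b _ => ?_)
  rw [tkrTw_qExpand, ← pow_mul, ← pow_mul, mul_comm]

/-- **the `β₃`-pull-back commutes with `T_ℓ`, on divisors** -/
theorem mlt3b_pull_heckeDiv {ℓ : ℕ} [NeZero ℓ] (hℓ : ℓ.Prime) (hℓN : ¬ ℓ ∣ A * 3)
    (D : Divisor Qb ↥(modularFunctionFieldBar A)) :
    Divisor.pullbackAlong (heckeBetaBar Qb A 3) (t3h_betaIntegral A 3)
        (heckeDivBar (t3h_alphaIntegral A ℓ) (t3h_betaIntegral A ℓ) D)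
      = heckeDivBar (t3h_alphaIntegral (A * 3) ℓ) (t3h_betaIntegral (A * 3) ℓ)
          (Divisor.pullbackAlong (heckeBetaBar Qb A 3) (t3h_betaIntegral A 3) D) := by
  have hℓN' : ¬ ℓ ∣ A := fun h => hℓN (h.mul_right 3)
  have hK : T3kNorm A ℓ := t3p_norm_of_K1 A ℓ hℓ hℓN'
  have hK' : T3kNorm (A * 3) ℓ := t3p_norm_of_K1 (A * 3) ℓ hℓ hℓN
  have hnorm : ∀ f : ↥(modularFunctionFieldBar A), f ≠ 0 →
      heckeBetaBar Qb A 3 (t3pNormAlong (heckeAlphaBar Qb A ℓ) (heckeBetaBar Qb A ℓ f))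
        = t3pNormAlong (heckeAlphaBar Qb (A * 3) ℓ)
            (heckeBetaBar Qb (A * 3) ℓ (heckeBetaBar Qb A 3 f)) := by
    intro f _
    rw [hK f, hK' (heckeBetaBar Qb A 3 f)]
    exact mlt3b_tkrHecke_beta A hℓ hℓN f
  have key := t3p_pull_correspondence (K := Qb) (A := ↥(modularFunctionFieldBar A))
    (B := ↥(modularFunctionFieldBar (A * ℓ))) (A' := ↥(modularFunctionFieldBar (A * 3)))
    (B' := ↥(modularFunctionFieldBar (A * 3 * ℓ))) (t3h_gen A)
    (heckeAlphaBar Qb A ℓ) (heckeBetaBar Qb A ℓ)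
    (heckeAlphaBar Qb (A * 3) ℓ) (heckeBetaBar Qb (A * 3) ℓ) (heckeBetaBar Qb A 3)
    (mlt3bPsi A ℓ) (mlt3b_square_alpha A ℓ) (mlt3b_square_beta A ℓ)
    (t3h_alphaIntegral A ℓ) (t3h_betaIntegral A ℓ) (t3h_alphaIntegral (A * 3) ℓ)
    (t3h_betaIntegral (A * 3) ℓ) (t3h_betaIntegral A 3) (mlt3bPsi_integral A ℓ)
    (t3h_alphaFinite A ℓ) (t3h_alphaNorm A ℓ) (t3h_alphaFinite (A * 3) ℓ)
    (t3h_alphaNorm (A * 3) ℓ) hnorm D
  exact key

/-- **the `β₃`-pull-back `J₀(A) → J₀(3 A)` commutes with `T_ℓ`, `ℓ ∤ 3 A` prime** -/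
theorem mlt3PullB_hecke {ℓ : ℕ} (hℓ : ℓ.Prime) (hℓN : ¬ ℓ ∣ A * 3) (x : JZero A) :
    mlt3PullB A (heckeOperatorBar A ⟨ℓ, hℓ⟩ x)
      = heckeOperatorBar (A * 3) ⟨ℓ, hℓ⟩ (mlt3PullB A x) := by
  haveI : NeZero ℓ := ⟨hℓ.ne_zero⟩
  obtain ⟨D, rfl⟩ := Pic0.mk_surjective x
  have h1 : heckeOperatorBar A ⟨ℓ, hℓ⟩ (Pic0.mk D) = heckeOperatorAlong Qb A ℓ (Pic0.mk D) := rfl
  have h2 : ∀ y : JZero (A * 3),
      heckeOperatorBar (A * 3) ⟨ℓ, hℓ⟩ y = heckeOperatorAlong Qb (A * 3) ℓ y := fun _ => rfl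
  rw [h1, h2]
  rw [t3h_heckeOperatorAlong_mk, mlt3PullB_mk]
  have h3 := mlt3PullB_mk A D
  rw [h3]
  have h4 := t3h_heckeOperatorAlong_mk (A * 3) ℓ
    ⟨Divisor.pullbackAlong (heckeBetaBar Qb A 3) (t3h_betaIntegral A 3) (D : Divisor Qb _),
      Divisor.pullbackAlong_mem_degZero _ _ (t3h_betaFundamental A 3) D.2⟩
  rw [h4]
  apply congrArg Pic0.mk
  apply Subtype.ext
  have h5 := mlt3b_pull_heckeDiv A hℓ hℓN (D : Divisor Qb _)
  dsimp only
  exact h5

end Main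

/-! ### Reduction up to a constant -/

/-- **reduction up to a constant commutes with `q ↦ q^d`** -/
theorem mlt3_redTo_qExpand {K : Type*} [Field K] (V : ValuationSubring K) {k : Type*} [Field k]
    (π : ↥V →+* k) (d : ℕ) [NeZero d] {x : LaurentSeries K} {y : LaurentSeries k}
    (h : DlsRedTo V π x y) : DlsRedTo V π (qExpand K d x) (qExpand k d y) := by
  obtain ⟨c, a, b, hc, ha, hb, e, e'⟩ := h
  refine ⟨c, qExpand ↥V d a, qExpand ↥V d b, hc, ?_, ?_, ?_, ?_⟩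
  · rw [tbRed, ModularCurve.coeffMap_qExpand]
    intro h0
    exact ha ((map_eq_zero_iff _ (qExpand_injective (R := k) d)).1 h0)
  · rw [tbRed, ModularCurve.coeffMap_qExpand]
    intro h0
    exact hb ((map_eq_zero_iff _ (qExpand_injective (R := k) d)).1 h0)
  · rw [tbInc, ModularCurve.coeffMap_qExpand, ModularCurve.coeffMap_qExpand, ← map_mul]
    have := congrArg (qExpand K d) e
    rw [tbInc, map_mul (qExpand K d) (HahnSeries.C c), qExpand_C] at this
    exact this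
  · rw [tbRed, ModularCurve.coeffMap_qExpand, ModularCurve.coeffMap_qExpand, ← map_mul]
    exact congrArg (qExpand k d) e'

end

end Fermat.Agent.MLT
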