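/-
MLT / L1 / Three (helper4), part 1: **the reduction map of places is canonical**.

`d : TbBase K F k Fb` with good reduction `hg : T3aGood d ℓ x`.  Every map of places
`r : Place K F → Place k Fb` which satisfies the conservation law
`∑_{r P = Q} ord_P f = ord_Q (res f)` (all Gauss units `f`) equals `t3aR hg` (`mlt3_can`).
Consequence (`mlt3_red_smul`): the reduction map is equivariant for EVERY pair of automorphisms
`σ` of `F / K`, `σb` of `Fb / k` compatible with the Gauss ring and the residue map — no hypothesis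
`σ x = x` on the coordinate (`T3bCompat` needs it).

Proof of `mlt3_can`: if `r P₀ ≠ r' P₀`, then for every `f` with poles only at `P₀` all zeros of `f`
reduce under `r` to `r P₀`; by Riemann's inequality every place `P₁ ≠ P₀` is such a zero, so `r` is
constant, which contradicts the conservation law for the coordinate `x`.
-/
import Mathlib
import Fermat.Agent.Lib.T3.Red.Cons2
import Fermat.Agent.Lib.T3.Red.Pic
import Fermat.Agent.Lib.T3.Gal.Abs

set_option autoImplicit false
set_option linter.unusedSectionVars false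
set_option linter.unusedVariables false
set_option linter.style.haveILetI false

namespace Fermat.Agent.MLT

open AlgebraicCurve Fermat.Agent.Curve Fermat.Agent.Curve.PlaceAux Fermat.Agent.T1 Fermat.Agent.T3
  IntermediateField

variable {K F k Fb : Type*} [Field K] [Field F] [Algebra K F] [Field k] [Field Fb] [Algebra k Fb]
variable [IsAlgClosed K] [IsAlgClosed k]

/-- the conservation law for a map of places -/
def Mlt3Cons (d : TbBase K F k Fb) (r : Place K F → Place k Fb) : Prop :=
  ∀ (f : F) (hf : f ∈ d.Ov), d.res ⟨f, hf⟩ ≠ 0 → ∀ D : Divisor K F,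
    (∀ P : Place K F, D P = P.ord f) → ∀ Q : Place k Fb,
      Finsupp.mapDomain r D Q = Q.ord (d.res ⟨f, hf⟩)

variable {d : TbBase K F k Fb} {ℓ : ℕ} {x : F}

theorem mlt3_cons_t3aR (hg : T3aGood d ℓ x) : Mlt3Cons d (t3aR hg) :=
  fun f hf hres D hD Q => t3a_conservation hg hf hres D hD Q

/-- two maps of places with the conservation law agree on principal divisors -/
theorem mlt3_cons_principal {r r' : Place K F → Place k Fb} (hr : Mlt3Cons d r)
    (hr' : Mlt3Cons d r') {f : F} (hf0 : f ≠ 0) (D : Divisor K F)
    (hD : ∀ P : Place K F, D P = P.ord f) :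
    Finsupp.mapDomain r D = Finsupp.mapDomain r' D := by
  obtain ⟨c, hc0, hcf, hres⟩ := d.normalize f hf0
  have hD' : ∀ P : Place K F, D P = P.ord (c • f) := fun P => by
    rw [hD P, t3a_ord_smul P hc0 hf0]
  ext Q
  rw [hr (c • f) hcf hres D hD' Q, hr' (c • f) hcf hres D hD' Q]

section RR

variable (hx : IsFunctionFieldGen K F x) [Algebra.IsSeparable K⟮x⟯ F]

include hx in
/-- Riemann's inequality: a function with poles only at `P₀` and a zero at `P₁` -/
theorem mlt3_exists_fun (P₀ P₁ : Place K F) (h01 : P₁ ≠ P₀) :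
    ∃ f : F, f ≠ 0 ∧ (∀ P : Place K F, P ≠ P₀ → 0 ≤ P.ord f) ∧ 1 ≤ P₁.ord f := by
  classical
  set g : ℕ := CurveP.genusR K F with hgdef
  set D₀ : Divisor K F := Finsupp.single P₀ ((g : ℤ) + 1) - Finsupp.single P₁ 1 with hD₀
  have hdeg : Divisor.degree D₀ = g := by
    rw [hD₀, map_sub, Divisor.degree_single, Divisor.degree_single, deg_eq_one hx P₀,
      deg_eq_one hx P₁]
    push_cast
    ring
  have h1 := CurveP.le_ell hx D₀
  rw [hdeg] at h1
  have h2 : 0 < Module.finrank K ↥(riemannRochSpace D₀) := by
    have : (1 : ℤ) ≤ (CurveP.ell D₀ : ℤ) := by linarith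
    have h3 : 1 ≤ CurveP.ell D₀ := by exact_mod_cast this
    exact h3
  haveI : Nontrivial ↥(riemannRochSpace D₀) := Module.nontrivial_of_finrank_pos h2
  obtain ⟨⟨f, hf⟩, hne⟩ := exists_ne (0 : ↥(riemannRochSpace D₀))
  have hf0 : f ≠ 0 := fun h => hne (Subtype.ext h)
  rw [mem_riemannRochSpace_iff] at hf
  refine ⟨f, hf0, fun P hP => ?_, ?_⟩
  · rcases hf P with h | h
    · exact absurd h hf0
    · by_cases hP1 : P = P₁
      · subst hP1
        rw [hD₀, Finsupp.sub_apply, Finsupp.single_apply, Finsupp.single_apply,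
          if_neg (Ne.symm h01), if_pos rfl] at h
        omega
      · rw [hD₀, Finsupp.sub_apply, Finsupp.single_apply, Finsupp.single_apply,
          if_neg (Ne.symm hP), if_neg (Ne.symm hP1)] at h
        omega
  · rcases hf P₁ with h | h
    · exact absurd h hf0
    · rw [hD₀, Finsupp.sub_apply, Finsupp.single_apply, Finsupp.single_apply,
        if_neg (Ne.symm h01), if_pos rfl] at h
      omega

end RR

/-- an effective divisor whose value at `Q` is its degree is supported at `Q` -/
theorem mlt3_eff_apply_eq_zero {xb : Fb} (hxb : IsFunctionFieldGen k Fb xb) {E : Divisor k Fb}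
    (hE : 0 ≤ E) (Q : Place k Fb) (hQ : Divisor.degree E ≤ E Q) (Q' : Place k Fb) (hQ' : Q' ≠ Q) :
    E Q' = 0 := by
  classical
  by_contra hne
  have hpos : 0 < E Q' := lt_of_le_of_ne (hE Q') (Ne.symm hne)
  -- `E - E Q • [Q] - E Q' • [Q']` is effective
  set E' : Divisor k Fb := E - Finsupp.single Q (E Q) - Finsupp.single Q' (E Q') with hE'
  have hE'0 : 0 ≤ E' := by
    intro P
    rw [Finsupp.zero_apply, hE', Finsupp.sub_apply, Finsupp.sub_apply, Finsupp.single_apply,
      Finsupp.single_apply]
    by_cases h1 : Q = P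
    · subst h1
      rw [if_pos rfl, if_neg hQ']
      simp
    · by_cases h2 : Q' = P
      · subst h2
        rw [if_neg h1, if_pos rfl]
        simp
      · rw [if_neg h1, if_neg h2]
        simpa using hE P
  have hdeg : Divisor.degree E' = Divisor.degree E - E Q - E Q' := by
    rw [hE', map_sub, map_sub, Divisor.degree_single, Divisor.degree_single, deg_eq_one hxb Q,
      deg_eq_one hxb Q']
    push_cast
    ring
  have hnn : 0 ≤ Divisor.degree E' := by
    have h := CurveP.RRAux.degree_mono hE'0
    rwa [map_zero] at h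
  rw [hdeg] at hnn
  omega

/-- **the reduction map of places is canonical** -/
theorem mlt3_can (hg : T3aGood d ℓ x) {r' : Place K F → Place k Fb} (hr' : Mlt3Cons d r') :
    r' = t3aR hg := by
  classical
  haveI := hg.sep
  haveI := hg.sepb'
  set r := t3aR hg with hrdef
  have hr : Mlt3Cons d r := mlt3_cons_t3aR hg
  by_contra hne
  obtain ⟨P₀, hP₀⟩ : ∃ P₀, r' P₀ ≠ r P₀ := by
    by_contra h
    push Not at h
    exact hne (funext h)
  -- `r` is constant
  have hconst : ∀ P₁ : Place K F, r P₁ = r P₀ := by
    intro P₁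
    by_cases h01 : P₁ = P₀
    · rw [h01]
    obtain ⟨f, hf0, hfP, hf1⟩ := mlt3_exists_fun hg.gen P₀ P₁ h01
    set D := CurveP.divOf hg.gen f with hD
    have hDP : ∀ P : Place K F, D P = P.ord f := fun P => CurveP.divOf_apply hg.gen hf0 P
    have heq := mlt3_cons_principal hr hr' hf0 D hDP
    -- split off `P₀`
    set a : ℤ := D P₀ with ha
    set D' : Divisor K F := D - Finsupp.single P₀ a with hD'
    have hD'0 : 0 ≤ D' := by
      intro P
      rw [Finsupp.zero_apply, hD', Finsupp.sub_apply, Finsupp.single_apply]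
      by_cases hP : P₀ = P
      · subst hP
        rw [if_pos rfl, ha, sub_self]
      · rw [if_neg hP, sub_zero, hDP]
        exact hfP P (Ne.symm hP)
    have hDsplit : D = D' + Finsupp.single P₀ a := by rw [hD', sub_add_cancel]
    have hdegD' : Divisor.degree D' = -a := by
      have h0 : Divisor.degree D = 0 := CurveP.degree_divOf hg.gen f
      rw [hDsplit, map_add, Divisor.degree_single, deg_eq_one hg.gen P₀] at h0
      push_cast at h0
      linarith
    set Q := r P₀ with hQ
    have h1 : Finsupp.mapDomain r D Q = Finsupp.mapDomain r D' Q + a := by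
      rw [hDsplit, Finsupp.mapDomain_add, Finsupp.add_apply, Finsupp.mapDomain_single,
        Finsupp.single_apply, if_pos rfl]
    have h2 : Finsupp.mapDomain r' D Q = Finsupp.mapDomain r' D' Q := by
      rw [hDsplit, Finsupp.mapDomain_add, Finsupp.add_apply, Finsupp.mapDomain_single,
        Finsupp.single_apply, if_neg hP₀, add_zero]
    have h3 : 0 ≤ Finsupp.mapDomain r' D' Q := t3a_mapDomain_nonneg r' hD'0 Q
    have h4 : Divisor.degree (Finsupp.mapDomain r D') ≤ Finsupp.mapDomain r D' Q := by
      rw [t3a_degree_mapDomain hg.gen hg.genb', hdegD']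
      have hQQ : Finsupp.mapDomain r D Q = Finsupp.mapDomain r' D Q := by rw [heq]
      rw [h1, h2] at hQQ
      linarith
    have hE0 : 0 ≤ Finsupp.mapDomain r D' := t3a_mapDomain_nonneg r hD'0
    by_contra hP₁
    have h5 := mlt3_eff_apply_eq_zero hg.genb' hE0 Q h4 (r P₁) hP₁
    have h6 : Finsupp.single P₁ (D' P₁) ≤ D' := by
      intro P
      rw [Finsupp.single_apply]
      split_ifs with h
      · rw [h]
      · exact hD'0 P
    have h7 := t3a_mapDomain_mono r h6 (r P₁)
    rw [Finsupp.mapDomain_single, Finsupp.single_apply, if_pos rfl, h5] at h7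
    have h8 : D' P₁ = P₁.ord f := by
      rw [hD', Finsupp.sub_apply, Finsupp.single_apply, if_neg (Ne.symm h01), sub_zero, hDP]
    rw [h8] at h7
    omega
  -- contradiction with the conservation law for `x`
  have hx0 : x ≠ 0 := hg.x_ne_zero
  have hres : d.res ⟨x, hg.hxO⟩ ≠ 0 := hg.xb_ne_zero
  have hall : ∀ Q : Place k Fb, Q.ord hg.xb = 0 := by
    intro Q
    have h1 := hr x hg.hxO hres (CurveP.divOf hg.gen x)
      (fun P => CurveP.divOf_apply hg.gen hx0 P) Q
    have h2 : Finsupp.mapDomain r (CurveP.divOf hg.gen x) = 0 := by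
      have hfun : r = fun _ => r P₀ := funext hconst
      have h3 : ∀ D : Divisor K F, Finsupp.mapDomain r D
          = Finsupp.single (r P₀) (Divisor.degree D) := by
        intro D
        induction D using Finsupp.induction with
        | zero => simp
        | single_add P n D _ _ ih =>
          rw [Finsupp.mapDomain_add, ih, Finsupp.mapDomain_single, hconst P, map_add,
            Finsupp.single_add, Divisor.degree_single, deg_eq_one hg.gen P]
          simp
      rw [h3, CurveP.degree_divOf, Finsupp.single_zero]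
    rw [h2, Finsupp.zero_apply] at h1
    exact h1.symm
  obtain ⟨c, hc⟩ := t3a_const_of_ord_eq_zero hg.genb' hall
  apply hg.genb'.transcendental
  rw [← hc]
  exact isAlgebraic_algebraMap c

/-- **equivariance of the reduction map of places** for a compatible pair of automorphisms
(no hypothesis on the coordinate) -/
theorem mlt3_red_smul (hg : T3aGood d ℓ x) (σ : F ≃ₐ[K] F) (σb : Fb ≃ₐ[k] Fb)
    (hOv : ∀ f : F, f ∈ d.Ov → σ f ∈ d.Ov)
    (hres : ∀ (f : F) (hf : f ∈ d.Ov), d.res ⟨σ f, hOv f hf⟩ = σb (d.res ⟨f, hf⟩))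
    (P : Place K F) : t3aR hg (σ • P) = σb • t3aR hg P := by
  set r := t3aR hg with hrdef
  have hr : Mlt3Cons d r := mlt3_cons_t3aR hg
  set r' : Place K F → Place k Fb := fun P => σb⁻¹ • r (σ • P) with hr'def
  have hr' : Mlt3Cons d r' := by
    intro f hf hres0 D hD Q
    have h1 : Finsupp.mapDomain r' D = σb⁻¹ • Finsupp.mapDomain r (σ • D) := by
      rw [Divisor.smul_def, Divisor.smul_def, ← Finsupp.mapDomain_comp, ← Finsupp.mapDomain_comp]
      rfl
    rw [h1, Divisor.smul_apply, inv_inv]
    have hσD : ∀ P : Place K F, (σ • D) P = P.ord (σ f) := by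
      intro P
      rw [Divisor.smul_apply, hD]
      have h := Place.ord_smul σ (σ⁻¹ • P) f
      rw [smul_inv_smul] at h
      exact h.symm
    have hres1 : d.res ⟨σ f, hOv f hf⟩ ≠ 0 := by
      rw [hres f hf]
      exact (map_ne_zero_iff _ σb.injective).mpr hres0
    rw [hr (σ f) (hOv f hf) hres1 (σ • D) hσD (σb • Q), hres f hf, Place.ord_smul]
  have h2 : σb⁻¹ • r (σ • P) = r P := congrFun (mlt3_can hg hr') P
  rw [← h2, smul_inv_smul]

end Fermat.Agent.MLT
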