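/-
MLT / L1 / Three (helper4), part 2: **abstract lemmas on cyclic cubic coverings**.

* `mlt3_orbit_sum` : a sum of an invariant function over a finite set with a free action of `ℤ/3` is
  divisible by `3`;
* `mlt3_not_dvd_ord_of_fixed` : a place fixed by an automorphism `σ` of order `3` and an eigenfunction
  `s`, `σ s = ζ s`, `ζ ≠ 1`: `3 ∤ ord_Q s` (any characteristic);
* `mlt3_ram_eq_one` : for a covering of degree `3` with an automorphism `σ` of order `3` over the
  base, a place which is not fixed by `σ` is unramified;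
* `mlt3_fpl` : **lifting of fixed places**: under good reduction, a place of the reduction fixed by
  `σ̄` is the reduction of a place fixed by `σ` (if `σ` has an eigenfunction which is a Gauss unit,
  with an eigenvalue whose reduction is `≠ 1`).
-/
import Mathlib
import Fermat.Agent.Lib.MLT.L1.Three.Can
import Fermat.Agent.Lib.Ihara.B.Tau.Quad
import Fermat.Agent.Lib.T3.Hecke.Fund

set_option autoImplicit false
set_option linter.unusedSectionVars false
set_option linter.unusedVariables false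
set_option linter.style.haveILetI false

namespace Fermat.Agent.MLT

open AlgebraicCurve Fermat.Agent.Curve Fermat.Agent.Curve.PlaceAux Fermat.Agent.T1 Fermat.Agent.T3
  IntermediateField Fermat.Agent.Ihara

/-- a sum of an invariant function over a finite set with a free action of `ℤ/3` -/
theorem mlt3_orbit_sum {α : Type*} [DecidableEq α] (f : α → α) (g : α → ℤ) :
    ∀ (n : ℕ) (S : Finset α), S.card = n → (∀ x ∈ S, f x ∈ S) → (∀ x ∈ S, f (f (f x)) = x) →
      (∀ x ∈ S, f x ≠ x) → (∀ x ∈ S, g (f x) = g x) → (3 : ℤ) ∣ ∑ x ∈ S, g x := by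
  intro n
  induction n using Nat.strong_induction_on with
  | _ n ih =>
    intro S hcard hfS hf3 hfree hg
    rcases S.eq_empty_or_nonempty with rfl | ⟨x, hx⟩
    · simp
    have hfx : f x ∈ S := hfS x hx
    have hffx : f (f x) ∈ S := hfS _ hfx
    have h1 : f x ≠ x := hfree x hx
    have h2 : f (f x) ≠ f x := hfree _ hfx
    have h3 : f (f x) ≠ x := by
      intro h
      apply h1
      have := hf3 x hx
      rw [h] at this
      exact this
    set O : Finset α := {x, f x, f (f x)} with hO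
    have hOS : O ⊆ S := by
      intro y hy
      rw [hO, Finset.mem_insert, Finset.mem_insert, Finset.mem_singleton] at hy
      rcases hy with rfl | rfl | rfl
      · exact hx
      · exact hfx
      · exact hffx
    have hOsum : ∑ y ∈ O, g y = 3 * g x := by
      rw [hO, Finset.sum_insert, Finset.sum_insert, Finset.sum_singleton, hg _ hfx, hg x hx]
      · ring
      · rw [Finset.mem_singleton]
        exact fun h => h2 h.symm
      · rw [Finset.mem_insert, Finset.mem_singleton]
        rintro (h | h)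
        · exact h1 h.symm
        · exact h3 h.symm
    have hOcard : 0 < O.card := Finset.card_pos.mpr ⟨x, by rw [hO]; exact Finset.mem_insert_self _ _⟩
    have hS' : ∀ y ∈ S \ O, f y ∈ S \ O := by
      intro y hy
      rw [Finset.mem_sdiff] at hy ⊢
      refine ⟨hfS y hy.1, fun hfy => hy.2 ?_⟩
      rw [hO, Finset.mem_insert, Finset.mem_insert, Finset.mem_singleton] at hfy ⊢
      have hy3 := hf3 y hy.1
      rcases hfy with h | h | h
      · right; right
        rw [← hy3, h]
      · left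
        rw [← hy3, h]
        exact hf3 x hx
      · right; left
        rw [← hy3, h, hf3 x hx]
    have hlt : (S \ O).card < n := by
      rw [Finset.card_sdiff_of_subset hOS, ← hcard]
      have := Finset.card_le_card hOS
      omega
    have hrec := ih _ hlt (S \ O) rfl hS' (fun y hy => hf3 y (Finset.mem_sdiff.mp hy).1)
      (fun y hy => hfree y (Finset.mem_sdiff.mp hy).1)
      (fun y hy => hg y (Finset.mem_sdiff.mp hy).1)
    rw [← Finset.sum_sdiff hOS, hOsum]
    exact dvd_add hrec (Dvd.intro _ rfl)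

section Fixed

variable {K F : Type*} [Field K] [Field F] [Algebra K F]

/-- for a fixed place, `ord_Q (σ f) = ord_Q f` -/
theorem mlt3_ord_apply_of_fixed (σ : F ≃ₐ[K] F) (Q : Place K F) (hQ : σ • Q = Q) (f : F) :
    Q.ord (σ f) = Q.ord f := by
  have h := Place.ord_smul σ Q f
  rwa [hQ] at h

variable [IsAlgClosed K]

/-- **a fixed place and an eigenfunction with eigenvalue `≠ 1`**: the order is prime to `3` -/
theorem mlt3_not_dvd_ord_of_fixed {x : F} (hx : IsFunctionFieldGen K F x) (σ : F ≃ₐ[K] F)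
    (hσ3 : ∀ f : F, σ (σ (σ f)) = f) (Q : Place K F) (hQ : σ • Q = Q) (s : F) (hs0 : s ≠ 0)
    (ζ : K) (hζ : ζ ≠ 1) (hσs : σ s = ζ • s) : ¬ (3 : ℤ) ∣ Q.ord s := by
  rintro ⟨m, hm⟩
  obtain ⟨π, hπ0, hπ⟩ := t3p_exists_ord_eq_one Q
  have hσπ0 : σ π ≠ 0 := (map_ne_zero σ).mpr hπ0
  have hσσπ0 : σ (σ π) ≠ 0 := (map_ne_zero σ).mpr hσπ0
  set w : F := π * σ π * σ (σ π) with hw
  have hw0 : w ≠ 0 := mul_ne_zero (mul_ne_zero hπ0 hσπ0) hσσπ0
  have e1 : Q.ord (σ π) = 1 := by rw [mlt3_ord_apply_of_fixed σ Q hQ, hπ]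
  have e2 : Q.ord (σ (σ π)) = 1 := by rw [mlt3_ord_apply_of_fixed σ Q hQ, e1]
  have hword : Q.ord w = 3 := by
    rw [hw, Q.ord_mul (mul_ne_zero hπ0 hσπ0) hσσπ0, Q.ord_mul hπ0 hσπ0, e1, e2, hπ]
    norm_num
  have hσw : σ w = w := by
    rw [hw, map_mul, map_mul, hσ3 π]
    ring
  set s' : F := s * w ^ (-m) with hs'
  have hwm0 : w ^ (-m) ≠ 0 := zpow_ne_zero _ hw0
  have hs'0 : s' ≠ 0 := mul_ne_zero hs0 hwm0
  have hs'ord : Q.ord s' = 0 := by
    rw [hs', Q.ord_mul hs0 hwm0, Q.ord_zpow, hword, hm]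
    ring
  have hσs' : σ s' = ζ • s' := by
    rw [hs', map_mul, map_zpow₀, hσw, hσs, smul_mul_assoc]
  have hmem : s' ∈ Q.toValuationSubring := mem_of_ord_nonneg Q (le_of_eq hs'ord.symm)
  obtain ⟨c, hc⟩ := exists_const_ordGE_one hx Q hmem
  have hc' : OrdGE Q (σ (s' - algebraMap K F c)) 1 := by
    rw [ordGE_iff] at hc ⊢
    rcases hc with h | h
    · left
      rw [h, map_zero]
    · right
      rw [mlt3_ord_apply_of_fixed σ Q hQ]
      exact h
  rw [map_sub, AlgEquiv.commutes, hσs'] at hc'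
  have h3 := hc'.sub Q hc
  have h4 : ζ • s' - algebraMap K F c - (s' - algebraMap K F c) = (ζ - 1) • s' := by
    rw [sub_smul, one_smul]
    ring
  rw [h4, ordGE_iff] at h3
  have hζ1 : ζ - 1 ≠ 0 := sub_ne_zero.mpr hζ
  rcases h3 with h | h
  · exact (smul_ne_zero hζ1 hs'0) h
  · rw [t3a_ord_smul Q hζ1 hs'0, hs'ord] at h
    omega

end Fixed

section Ram

variable {K F F' : Type*} [Field K] [Field F] [Field F'] [Algebra K F] [Algebra K F']

/-- the two actions of an automorphism on places agree -/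
theorem mlt3_ofAlgAut_smul_place (σ : F' ≃ₐ[K] F') (v : Place K F') :
    SemilinearAut.ofAlgAut σ • v = σ • v := by
  apply Place.ext
  ext x
  rw [SemilinearAut.smul_toValuationSubring, Place.smul_toValuationSubring,
    ValuationSubring.mem_pointwise_smul_iff_inv_smul_mem,
    ValuationSubring.mem_pointwise_smul_iff_inv_smul_mem]
  rfl

/-- the restriction of places is invariant under automorphisms over the base -/
theorem mlt3_restrictAlong_smul (φ : F →ₐ[K] F') (hφ : φ.toRingHom.IsIntegral)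
    (σ : F' ≃ₐ[K] F') (hσφ : ∀ y : F, σ (φ y) = φ y) (Q : Place K F') :
    (σ • Q).restrictAlong φ hφ = Q.restrictAlong φ hφ := by
  have hinter : SemilinearAut.IntertwinesAlong φ.toRingHom (1 : SemilinearAut K F)
      (SemilinearAut.ofAlgAut σ) := by
    intro y
    rw [one_smul]
    exact hσφ y
  have h := t3p_restrictAlong_smul φ hφ hinter Q
  rw [one_smul, mlt3_ofAlgAut_smul_place] at h
  exact h

theorem mlt3_ramificationIndexAlong_smul (φ : F →ₐ[K] F') (hφ : φ.toRingHom.IsIntegral)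
    (σ : F' ≃ₐ[K] F') (hσφ : ∀ y : F, σ (φ y) = φ y) (Q : Place K F') :
    (σ • Q).ramificationIndexAlong φ = Q.ramificationIndexAlong φ := by
  have hinter : SemilinearAut.IntertwinesAlong φ.toRingHom (1 : SemilinearAut K F)
      (SemilinearAut.ofAlgAut σ) := by
    intro y
    rw [one_smul]
    exact hσφ y
  have h := t3p_ramificationIndexAlong_smul φ hφ hinter Q
  rw [mlt3_ofAlgAut_smul_place] at h
  exact h

variable [HasPrincipalDivisors K F']

/-- **a place which is not fixed by the automorphism of order `3` is unramified** -/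
theorem mlt3_ram_eq_one (φ : F →ₐ[K] F') (hφ : φ.toRingHom.IsIntegral)
    (hFI : FundamentalIdentityAlong K φ hφ) (h3 : finrankAlong K φ = 3)
    (hdeg' : ∀ w : Place K F', w.deg = 1) (hdeg : ∀ v : Place K F, v.deg = 1)
    (σ : F' ≃ₐ[K] F') (hσφ : ∀ y : F, σ (φ y) = φ y) (hσ3 : ∀ f : F', σ (σ (σ f)) = f)
    (Q : Place K F') (hQ : σ • Q ≠ Q) : Q.ramificationIndexAlong φ = 1 := by
  classical
  set v := Q.restrictAlong φ hφ with hv
  have hσ3' : σ • σ • σ • Q = Q := by
    rw [← mul_smul, ← mul_smul]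
    have : σ * σ * σ = 1 := by
      ext f
      exact hσ3 f
    rw [this, one_smul]
  have h1 : σ • Q ∈ Place.fiberAlong φ hφ v := by
    rw [Place.mem_fiberAlong, mlt3_restrictAlong_smul φ hφ σ hσφ]
  have h0 : Q ∈ Place.fiberAlong φ hφ v := by
    rw [Place.mem_fiberAlong]
  have h2 : σ • σ • Q ∈ Place.fiberAlong φ hφ v := by
    rw [Place.mem_fiberAlong, mlt3_restrictAlong_smul φ hφ σ hσφ,
      mlt3_restrictAlong_smul φ hφ σ hσφ]
  have hne1 : σ • σ • Q ≠ σ • Q := by
    intro h
    apply hQ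
    have := congrArg (fun P => σ⁻¹ • P) h
    simpa using this
  have hne2 : σ • σ • Q ≠ Q := by
    intro h
    apply hQ
    rw [h] at hσ3'
    exact hσ3'
  have hsub : ({Q, σ • Q, σ • σ • Q} : Finset (Place K F')) ⊆ Place.fiberAlong φ hφ v := by
    intro w hw
    rw [Finset.mem_insert, Finset.mem_insert, Finset.mem_singleton] at hw
    rcases hw with rfl | rfl | rfl
    · exact h0
    · exact h1
    · exact h2
  have hsum := ihbt_sum_ramificationIndexAlong φ hφ hFI hdeg' hdeg v
  rw [h3] at hsum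
  have hle : ∑ w ∈ ({Q, σ • Q, σ • σ • Q} : Finset (Place K F')),
      (w.ramificationIndexAlong φ : ℤ) ≤ ∑ w ∈ Place.fiberAlong φ hφ v,
      (w.ramificationIndexAlong φ : ℤ) :=
    Finset.sum_le_sum_of_subset_of_nonneg hsub (fun w _ _ => Int.natCast_nonneg _)
  rw [Finset.sum_insert, Finset.sum_insert, Finset.sum_singleton,
    mlt3_ramificationIndexAlong_smul φ hφ σ hσφ, mlt3_ramificationIndexAlong_smul φ hφ σ hσφ,
    mlt3_ramificationIndexAlong_smul φ hφ σ hσφ, hsum] at hle
  · have hpos := ihbt_ramificationIndexAlong_pos φ hφ Q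
    push_cast at hle
    omega
  · rw [Finset.mem_singleton]
    exact fun h => hne1 h.symm
  · rw [Finset.mem_insert, Finset.mem_singleton]
    rintro (h | h)
    · exact hQ h.symm
    · exact hne2 h.symm

end Ram

section FPL

variable {K F k Fb : Type*} [Field K] [Field F] [Algebra K F] [Field k] [Field Fb] [Algebra k Fb]
variable [IsAlgClosed K] [IsAlgClosed k]
variable {d : TbBase K F k Fb} {ℓ : ℕ} {x : F}

/-- **lifting of fixed places** -/
theorem mlt3_fpl (hg : T3aGood d ℓ x) (σ : F ≃ₐ[K] F) (σb : Fb ≃ₐ[k] Fb)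
    (hOv : ∀ f : F, f ∈ d.Ov → σ f ∈ d.Ov)
    (hres : ∀ (f : F) (hf : f ∈ d.Ov), d.res ⟨σ f, hOv f hf⟩ = σb (d.res ⟨f, hf⟩))
    (hσ3 : ∀ f : F, σ (σ (σ f)) = f) (hσb3 : ∀ f : Fb, σb (σb (σb f)) = f)
    (s : F) (hs : s ∈ d.Ov) (hsres : d.res ⟨s, hs⟩ ≠ 0) (ζ : K) (hζ0 : ζ ≠ 0) (hσs : σ s = ζ • s)
    (ζb : k) (hζb : ζb ≠ 1) (hσbs : σb (d.res ⟨s, hs⟩) = ζb • d.res ⟨s, hs⟩)
    (Q : Place k Fb) (hQ : σb • Q = Q) :
    ∃ P : Place K F, σ • P = P ∧ t3aR hg P = Q := by
  classical
  by_contra hcon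
  push Not at hcon
  have hs0 : s ≠ 0 := t3a_ne_zero_of_res_ne_zero d hs hsres
  haveI := hg.sep
  obtain ⟨D, hD⟩ : ∃ D : Divisor K F, ∀ P : Place K F, D P = P.ord s :=
    ⟨CurveP.divOf hg.gen s, fun P => CurveP.divOf_apply hg.gen hs0 P⟩
  have hcons := t3a_conservation hg hs hsres D hD Q
  rw [t3a_mapDomain_apply, ← Finset.sum_filter] at hcons
  -- the orbit sum
  have hDσ : ∀ P : Place K F, D (σ • P) = D P := by
    intro P
    rw [hD, hD]
    have h := Place.ord_smul σ P s
    rw [hσs, t3a_ord_smul _ hζ0 hs0] at h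
    exact h
  have hsum : (3 : ℤ) ∣ ∑ P ∈ D.support.filter (fun P => t3aR hg P = Q), D P := by
    refine mlt3_orbit_sum (fun P => σ • P) D _ _ rfl ?_ ?_ ?_ ?_
    · intro P hP
      rw [Finset.mem_filter, Finsupp.mem_support_iff] at hP ⊢
      refine ⟨by rw [hDσ]; exact hP.1, ?_⟩
      rw [mlt3_red_smul hg σ σb hOv hres, hP.2, hQ]
    · intro P _
      show σ • σ • σ • P = P
      rw [← mul_smul, ← mul_smul]
      have : σ * σ * σ = 1 := by
        ext f
        exact hσ3 f
      rw [this, one_smul]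
    · intro P hP
      rw [Finset.mem_filter] at hP
      exact fun h => hcon P h hP.2
    · intro P _
      exact hDσ P
  rw [hcons] at hsum
  exact mlt3_not_dvd_ord_of_fixed hg.genb' σb hσb3 Q hQ _ hsres ζb hζb hσbs hsum

end FPL

end Fermat.Agent.MLT
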