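/-
MLT / L1 / Three (helper4), part 7: **the cubic lemma** (abstract form) and the descent along a cover of
degree prime to `3`.

`ι : A → B` a cover of degree `3` of function fields over `k` (all places of degree one), `ḡ` an
automorphism of order `3` of `B / ι A`; `w̄` an automorphism of `A / k`; `G, H ∈ A` with `w̄ H = G`.
Assume that at every place `Q` of `B` fixed by `ḡ` the function `ι G` has a zero and `ι H` takes the
value `1`.  Then for `u ∈ A`:  `3 ∣ div_B (ι u)` and `3 ∣ div_B (ι (w̄ u))` imply `3 ∣ div_A u`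
(`mlt3_cubic_lemma`).  Indeed at a place `P` of `A` below a place which is not fixed by `ḡ` the cover is
unramified, so `3 ∣ ord_P u`; the same for `w̄ u`, i.e. `3 ∣ ord_P u` if `w̄ • P` is not below a fixed
place; and `P`, `w̄ • P` both below fixed places gives `H(P) = 1` and `H(P) = (w̄⁻¹ G)(P) = 0`.
-/
import Mathlib
import Fermat.Agent.Lib.MLT.L1.Three.Cubic

set_option autoImplicit false
set_option linter.unusedSectionVars false
set_option linter.unusedVariables false
set_option linter.style.haveILetI false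

namespace Fermat.Agent.MLT

open AlgebraicCurve Fermat.Agent.Curve Fermat.Agent.Curve.PlaceAux Fermat.Agent.Ihara

variable {k A B : Type*} [Field k] [Field A] [Field B] [Algebra k A] [Algebra k B]
  [HasPrincipalDivisors k B]

/-- every place has a place above it -/
theorem mlt3_exists_above (ι : A →ₐ[k] B) (hι : ι.toRingHom.IsIntegral)
    (hFI : FundamentalIdentityAlong k ι hι) (hpos : 0 < finrankAlong k ι)
    (hdegB : ∀ w : Place k B, w.deg = 1) (hdegA : ∀ v : Place k A, v.deg = 1) (P : Place k A) :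
    ∃ Q : Place k B, Q.restrictAlong ι hι = P := by
  have hsum := ihbt_sum_ramificationIndexAlong ι hι hFI hdegB hdegA P
  by_contra hcon
  push Not at hcon
  have hempty : Place.fiberAlong ι hι P = ∅ := by
    rw [Finset.eq_empty_iff_forall_notMem]
    intro Q hQ
    exact hcon Q (Place.mem_fiberAlong.mp hQ)
  rw [hempty, Finset.sum_empty] at hsum
  have : (0 : ℤ) < (finrankAlong k ι : ℤ) := by exact_mod_cast hpos
  omega

/-- **the cubic lemma** -/
theorem mlt3_cubic_lemma (ι : A →ₐ[k] B) (hι : ι.toRingHom.IsIntegral)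
    (hFI : FundamentalIdentityAlong k ι hι) (h3 : finrankAlong k ι = 3)
    (hdegB : ∀ w : Place k B, w.deg = 1) (hdegA : ∀ v : Place k A, v.deg = 1)
    (g : B ≃ₐ[k] B) (hgι : ∀ y : A, g (ι y) = ι y) (hg3 : ∀ f : B, g (g (g f)) = f)
    (w : A ≃ₐ[k] A) (G H : A) (hwH : w H = G)
    (hfix : ∀ Q : Place k B, g • Q = Q → 0 < Q.ord (ι G) ∧ 0 < Q.ord (ι H - 1))
    (u : A)
    (h1 : ∀ Q : Place k B, (3 : ℤ) ∣ Q.ord (ι u))
    (h2 : ∀ Q : Place k B, (3 : ℤ) ∣ Q.ord (ι (w u))) (P : Place k A) :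
    (3 : ℤ) ∣ P.ord u := by
  -- unramified places
  have hunr : ∀ (v : A) (hv : ∀ Q : Place k B, (3 : ℤ) ∣ Q.ord (ι v)) (Q : Place k B),
      g • Q ≠ Q → (3 : ℤ) ∣ (Q.restrictAlong ι hι).ord v := by
    intro v hv Q hQ
    have he := mlt3_ram_eq_one ι hι hFI h3 hdegB hdegA g hgι hg3 Q hQ
    have h := hv Q
    rw [Place.ord_restrictAlong ι hι, he, Nat.cast_one, one_mul] at h
    exact h
  -- orders of functions of `A` at the places above
  have hpos : ∀ (Q : Place k B) (f : A), 0 < Q.ord (ι f) → 0 < (Q.restrictAlong ι hι).ord f := by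
    intro Q f hf
    rw [Place.ord_restrictAlong ι hι] at hf
    have he : (0 : ℤ) < (Q.ramificationIndexAlong ι : ℤ) := by
      exact_mod_cast ihbt_ramificationIndexAlong_pos ι hι Q
    rcases lt_trichotomy ((Q.restrictAlong ι hι).ord f) 0 with h0 | h0 | h0
    · nlinarith
    · rw [h0, mul_zero] at hf; exact absurd hf (lt_irrefl _)
    · exact h0
  have h3pos : 0 < finrankAlong k ι := by rw [h3]; norm_num
  obtain ⟨Q, hQ⟩ := mlt3_exists_above ι hι hFI h3pos hdegB hdegA P
  by_cases hQfix : g • Q = Q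
  swap
  · rw [← hQ]
    exact hunr u h1 Q hQfix
  -- `P` is below a fixed place; look at `w • P`
  obtain ⟨Q', hQ'⟩ := mlt3_exists_above ι hι hFI h3pos hdegB hdegA (w • P)
  by_cases hQ'fix : g • Q' = Q'
  swap
  · have h := hunr (w u) h2 Q' hQ'fix
    rw [hQ', Place.ord_smul] at h
    exact h
  -- both are below fixed places: contradiction
  exfalso
  obtain ⟨-, hH1⟩ := hfix Q hQfix
  obtain ⟨hG0, -⟩ := hfix Q' hQ'fix
  have e1 : 0 < P.ord (H - 1) := by
    have := hpos Q (H - 1) (by rw [map_sub, map_one]; exact hH1)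
    rwa [hQ] at this
  have e2 : 0 < P.ord H := by
    have := hpos Q' G hG0
    rw [hQ', ← hwH, Place.ord_smul] at this
    exact this
  -- `ord_P 1 = ord_P (H - (H - 1)) > 0`
  have hone : (1 : A) = H - (H - 1) := by ring
  have g1 : OrdGE P H 1 := (ordGE_iff P).mpr (Or.inr (by omega))
  have g2 : OrdGE P (H - 1) 1 := (ordGE_iff P).mpr (Or.inr (by omega))
  have g3 := g1.sub P g2
  rw [← hone] at g3
  rcases (ordGE_iff P).mp g3 with h0 | h0
  · exact one_ne_zero h0
  · rw [Place.ord_one] at h0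
    omega

/-- **descent along a cover of degree prime to `3`** -/
theorem mlt3_descent (ψ : A →ₐ[k] B) (hψ : ψ.toRingHom.IsIntegral)
    (hFI : FundamentalIdentityAlong k ψ hψ) (n : ℕ) (hn : finrankAlong k ψ = n) (hn3 : ¬ 3 ∣ n)
    (hdegB : ∀ w : Place k B, w.deg = 1) (hdegA : ∀ v : Place k A, v.deg = 1)
    (u : A) (h1 : ∀ Q : Place k B, (3 : ℤ) ∣ Q.ord (ψ u)) (P : Place k A) :
    (3 : ℤ) ∣ P.ord u := by
  have hsum := ihbt_sum_ramificationIndexAlong ψ hψ hFI hdegB hdegA P
  have h2 : (3 : ℤ) ∣ ∑ Q ∈ Place.fiberAlong ψ hψ P, (Q.ramificationIndexAlong ψ : ℤ) * P.ord u := by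
    refine Finset.dvd_sum fun Q hQ => ?_
    have := h1 Q
    rw [Place.ord_restrictAlong ψ hψ, Place.mem_fiberAlong.mp hQ] at this
    exact this
  rw [← Finset.sum_mul, hsum, hn] at h2
  have hcop : IsCoprime (3 : ℤ) (n : ℤ) := by
    have : Nat.Coprime 3 n := (Nat.Prime.coprime_iff_not_dvd Nat.prime_three).mpr hn3
    exact_mod_cast Nat.isCoprime_iff_coprime.mpr this
  exact hcop.dvd_of_dvd_mul_left h2

end Fermat.Agent.MLT
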