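/-
MLT (project S59) / [L1], `p = 3` core, sub-task (I-a) of helper4's h4-m16 (helper6): **the data of the
cover `F̄_{Me} / F̄_M`** of the reduced function fields, `φ̄ = mltl9Phib 𝔓 M e`:

* `mlt3_phib_sep`         : `F̄_{Me} / φ̄ F̄_M` is separable;
* `mlt3_phib_fundamental` : the fundamental identity along `φ̄`;
* `mlt3_finrank_three`    : `[F̄_{3N} : F̄_N] = 3` for `3 ∣ N`;
* `mlt3_finrank_four`     : `[F̄_{3M} : F̄_M] = 4` for `3 ∤ M`;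
* `mlt3_place_deg_one`    : all places of `F̄_M` have degree one;
* `mlt3_inertiaDeg_one`   : all relative residue degrees along `φ̄` are one;
* `mlt3_exists_place_over`: every place of `F̄_M` is the restriction of a place of `F̄_{Me}`;
* `mlt3_sum_ramification` : `∑_{Q ∣ P} e(Q ∣ P) = [F̄_{Me} : F̄_M]`.
-/
import Mathlib
import Fermat.Agent.Lib.MLT.L1.Nine.Main

set_option autoImplicit false
set_option linter.unusedSectionVars false
set_option linter.unusedVariables false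
set_option linter.style.haveILetI false
set_option synthInstance.maxHeartbeats 400000

namespace Fermat.Agent.MLT

open ModularCurve Fermat.Agent.T1 Fermat.Agent.T3 Fermat.Agent.Delta AlgebraicCurve
  Fermat.Agent.Curve Fermat.Agent.TW Fermat.Agent.Alpha Fermat.Agent.Mazur HahnSeries
  Fermat.Agent.Ihara IntermediateField

noncomputable section

attribute [local instance 5000] dlhAlgK

variable (𝔓 : FFPlace) (M e : ℕ) [NeZero M] [NeZero e]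

/-- `F̄_{Me} / φ̄ F̄_M` is separable -/
theorem mlt3_phib_sep (hK : ¬ 𝔓.p ∣ M * e) :
    letI := algebraAlong (mltl9Phib 𝔓 M e)
    Algebra.IsSeparable ↥(tbBarF 𝔓 M) ↥(tbBarF 𝔓 (M * e)) := by
  haveI : Algebra.IsSeparable
      ↥((IsLocalRing.ResidueField ↥𝔓.P)⟮mltl9Phib 𝔓 M e (tbBarJ 𝔓 M)⟯) ↥(tbBarF 𝔓 (M * e)) := by
    have hj : mltl9Phib 𝔓 M e (tbBarJ 𝔓 M) = tbBarJ 𝔓 (M * e) := dlh_alpha_barJ 𝔓 M e
    rw [hj]
    exact tbq_bar_isSeparable hK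
  exact mzr_isSeparable_along (k := IsLocalRing.ResidueField ↥𝔓.P) (mltl9Phib 𝔓 M e) (tbBarJ 𝔓 M)

/-- **the fundamental identity along `φ̄`** -/
theorem mlt3_phib_fundamental (hK : ¬ 𝔓.p ∣ M * e)
    [HasPrincipalDivisors (IsLocalRing.ResidueField ↥𝔓.P) ↥(tbBarF 𝔓 (M * e))] :
    FundamentalIdentityAlong (IsLocalRing.ResidueField ↥𝔓.P) (mltl9Phib 𝔓 M e)
      (mltl9_phib_integral 𝔓 M e) := by
  have hM : ¬ 𝔓.p ∣ M := mltl9_not_dvd_left hK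
  haveI : IsAlgClosed (IsLocalRing.ResidueField ↥𝔓.P) := tb_isAlgClosed_residueField 𝔓.P
  haveI := tbq_bar_isSeparable (𝔓 := 𝔓) (N := M) hM
  exact mzr_fundamentalIdentityAlong (tbq_bar_isFunctionFieldGen 𝔓 M)
    (tbq_bar_isFunctionFieldGen 𝔓 (M * e)) _ _ (mlt3_phib_sep 𝔓 M e hK)

/-- `[F̄_{3N} : F̄_N] = 3` for `3 ∣ N` -/
theorem mlt3_finrank_three (N : ℕ) [NeZero N] (hK : ¬ 𝔓.p ∣ N * 3) (h3 : 3 ∣ N) :
    finrankAlong (IsLocalRing.ResidueField ↥𝔓.P) (mltl9Phib 𝔓 N 3) = 3 := by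
  have h2 := mltl9_finrank_bar 𝔓 N 3 hK
  have hpos : 0 < dedekindPsi N := Fermat.Agent.Igusa.igPsi_pos (NeZero.ne N)
  rw [Fermat.Agent.Igusa.igPsi_mul_prime_of_dvd Nat.prime_three (NeZero.ne N) h3] at h2
  exact Nat.eq_of_mul_eq_mul_left hpos h2

/-- `[F̄_{3M} : F̄_M] = 4` for `3 ∤ M` -/
theorem mlt3_finrank_four (hK : ¬ 𝔓.p ∣ M * 3) (h3 : ¬ 3 ∣ M) :
    finrankAlong (IsLocalRing.ResidueField ↥𝔓.P) (mltl9Phib 𝔓 M 3) = 4 := by
  have h2 := mltl9_finrank_bar 𝔓 M 3 hK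
  have hpos : 0 < dedekindPsi M := Fermat.Agent.Igusa.igPsi_pos (NeZero.ne M)
  rw [Fermat.Agent.Igusa.igPsi_mul_prime_of_not_dvd Nat.prime_three h3] at h2
  exact Nat.eq_of_mul_eq_mul_left hpos h2

/-- all places of `F̄_M` have degree one -/
theorem mlt3_place_deg_one (v : Place (IsLocalRing.ResidueField ↥𝔓.P) ↥(tbBarF 𝔓 M)) :
    v.deg = 1 := by
  haveI : IsAlgClosed (IsLocalRing.ResidueField ↥𝔓.P) := tb_isAlgClosed_residueField 𝔓.P
  exact PlaceAux.deg_eq_one (tbq_bar_isFunctionFieldGen 𝔓 M) v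

/-- all relative residue degrees along `φ̄` are one -/
theorem mlt3_inertiaDeg_one (W : Place (IsLocalRing.ResidueField ↥𝔓.P) ↥(tbBarF 𝔓 (M * e))) :
    W.inertiaDegAlong (mltl9Phib 𝔓 M e) (mltl9_phib_integral 𝔓 M e) = 1 := by
  haveI : IsAlgClosed (IsLocalRing.ResidueField ↥𝔓.P) := tb_isAlgClosed_residueField 𝔓.P
  exact t3h_inertiaDegAlong_eq_one (tbq_bar_isFunctionFieldGen 𝔓 (M * e)) _ _ W

/-- `∑_{Q ∣ P} e(Q ∣ P) = [F̄_{Me} : F̄_M]` -/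
theorem mlt3_sum_ramification (hK : ¬ 𝔓.p ∣ M * e)
    [HasPrincipalDivisors (IsLocalRing.ResidueField ↥𝔓.P) ↥(tbBarF 𝔓 (M * e))]
    (v : Place (IsLocalRing.ResidueField ↥𝔓.P) ↥(tbBarF 𝔓 M)) :
    ∑ W ∈ Place.fiberAlong (mltl9Phib 𝔓 M e) (mltl9_phib_integral 𝔓 M e) v,
        (W.ramificationIndexAlong (mltl9Phib 𝔓 M e) : ℤ)
      = finrankAlong (IsLocalRing.ResidueField ↥𝔓.P) (mltl9Phib 𝔓 M e) := by
  have hFI := mlt3_phib_fundamental 𝔓 M e hK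
  letI := algebraAlong (mltl9Phib 𝔓 M e)
  haveI := isScalarTower_along (mltl9Phib 𝔓 M e)
  haveI := isIntegral_along (mltl9Phib 𝔓 M e) (mltl9_phib_integral 𝔓 M e)
  haveI : FundamentalIdentity (IsLocalRing.ResidueField ↥𝔓.P) ↥(tbBarF 𝔓 M)
      ↥(tbBarF 𝔓 (M * e)) := hFI
  have h := FundamentalIdentity.sum_ramificationIndex_mul_deg
    (K := IsLocalRing.ResidueField ↥𝔓.P) (F := ↥(tbBarF 𝔓 M)) (F' := ↥(tbBarF 𝔓 (M * e))) v
  rw [mlt3_place_deg_one 𝔓 M v, Nat.cast_one, mul_one] at h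
  show ∑ W ∈ Place.fiber ↥(tbBarF 𝔓 (M * e)) v, (W.ramificationIndex ↥(tbBarF 𝔓 M) : ℤ)
    = (Module.finrank ↥(tbBarF 𝔓 M) ↥(tbBarF 𝔓 (M * e)) : ℤ)
  rw [← h]
  refine Finset.sum_congr rfl fun W _ => ?_
  rw [mlt3_place_deg_one 𝔓 (M * e) W, Nat.cast_one, mul_one]

/-- every place of `F̄_M` is the restriction of a place of `F̄_{Me}` -/
theorem mlt3_exists_place_over (hK : ¬ 𝔓.p ∣ M * e)
    [HasPrincipalDivisors (IsLocalRing.ResidueField ↥𝔓.P) ↥(tbBarF 𝔓 (M * e))]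
    (v : Place (IsLocalRing.ResidueField ↥𝔓.P) ↥(tbBarF 𝔓 M)) :
    ∃ W : Place (IsLocalRing.ResidueField ↥𝔓.P) ↥(tbBarF 𝔓 (M * e)),
      W.restrictAlong (mltl9Phib 𝔓 M e) (mltl9_phib_integral 𝔓 M e) = v := by
  have h := mlt3_sum_ramification 𝔓 M e hK v
  have hpos := mltl9_finrank_pos 𝔓 M e hK
  by_contra hne
  have hne : ∀ W : Place (IsLocalRing.ResidueField ↥𝔓.P) ↥(tbBarF 𝔓 (M * e)),
      W.restrictAlong (mltl9Phib 𝔓 M e) (mltl9_phib_integral 𝔓 M e) ≠ v :=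
    fun W hW => hne ⟨W, hW⟩
  have hempty : Place.fiberAlong (mltl9Phib 𝔓 M e) (mltl9_phib_integral 𝔓 M e) v = ∅ := by
    rw [Finset.eq_empty_iff_forall_notMem]
    intro W hW
    exact hne W (Place.mem_fiberAlong.mp hW)
  rw [hempty, Finset.sum_empty] at h
  have : (finrankAlong (IsLocalRing.ResidueField ↥𝔓.P) (mltl9Phib 𝔓 M e) : ℤ) = 0 := h.symm
  have h0 : finrankAlong (IsLocalRing.ResidueField ↥𝔓.P) (mltl9Phib 𝔓 M e) = 0 := by
    exact_mod_cast this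
  omega

end

end Fermat.Agent.MLT
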