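/-
MLT (project S59) / [L1], `p = 3` core, sub-task (E) of helper4's h4-m16 (helper6): **the endgame of the
comparison (B3) for `p = 3`, with the factor `1`**.

For `p = 3` the factor `[F̄_{Me} : F̄_M] ∈ {3, 4, 9, 12}` of helper5's `mltl9_red_pull_class` kills the
argument.  Here the divisor of `y₀ ∈ F̄_M` (with `φ̄ y₀ = ȳ`) is supposed divisible by `p` ALREADY ON `F̄_M`
(helper4's cubic lemma).  Then `D_M = div y₀ / p` is the push-forward of a divisor `D̄'` of `F̄_{Me}` (one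
chosen place over every place of `F̄_M`; all residue degrees are one), `π̄^* π̄_* D̄' = π̄^* D_M = div ȳ / p`,
and the reduction of `π^* π_*` of the lift of `D̄'` is the Kummer class of `ȳ` — with the factor `1`
(`mlt3_red_pull_class`).  The rest is as in `mltl9_cmp_zero`, `mltl9_cmp_nine`.

* `mlt3_exists_push`    : (abstract) every divisor downstairs is a push-forward;
* `mlt3_pull_divQuot`   : (abstract) `π^* (div y₀ / m) = div (φ y₀) / m`;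
* `mlt3_red_pull_class` : the reduction of `π^* z` is the Kummer class of `ȳ`, for a suitable `z ∈ J₀(M)`;
* `mlt3_cmp_zero`       : the Kummer class of `ȳ` vanishes;
* `mlt3_cmp_end`        : `ȳ` is a constant times a cube.
-/
import Mathlib
import Fermat.Agent.Lib.MLT.L1.Nine.Main
import Fermat.Agent.Lib.MLT.L1.Three.PhiB

set_option autoImplicit false
set_option linter.unusedSectionVars false
set_option linter.unusedVariables false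
set_option linter.style.haveILetI false
set_option synthInstance.maxHeartbeats 400000

namespace Fermat.Agent.MLT

open ModularCurve Fermat.Agent.T1 Fermat.Agent.T3 Fermat.Agent.Delta AlgebraicCurve
  Fermat.Agent.Curve Fermat.Agent.TW Fermat.Agent.Alpha Fermat.Agent.Mazur HahnSeries
  Fermat.Agent.Ihara

local notation "Qb" => AlgebraicClosure ℚ
local notation "GQ" => (AlgebraicClosure ℚ ≃ₐ[ℚ] AlgebraicClosure ℚ)

noncomputable section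

attribute [local instance 5000] dlhAlgK

section Abs

variable {K F F' : Type*} [Field K] [Field F] [Field F'] [Algebra K F] [Algebra K F']

/-- every divisor of `F` is a push-forward, if every place of `F` extends with residue degree one -/
theorem mlt3_exists_push (φ : F →ₐ[K] F') (hφ : φ.toRingHom.IsIntegral)
    (hex : ∀ v : Place K F, ∃ W : Place K F', W.restrictAlong φ hφ = v)
    (hf : ∀ W : Place K F', W.inertiaDegAlong φ hφ = 1) (D : Divisor K F) :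
    ∃ D' : Divisor K F', Divisor.pushforwardAlong φ hφ D' = D := by
  induction D using Finsupp.induction with
  | zero => exact ⟨0, map_zero _⟩
  | single_add v n D _ _ ih =>
    obtain ⟨D', hD'⟩ := ih
    obtain ⟨W, hW⟩ := hex v
    refine ⟨Finsupp.single W n + D', ?_⟩
    rw [map_add, hD', Divisor.pushforwardAlong_single, hf W, hW, Nat.cast_one, mul_one]

/-- `π^* (div y₀ / m) = div (φ y₀) / m` -/
theorem mlt3_pull_divQuot [HasPrincipalDivisors K F] [HasPrincipalDivisors K F']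
    (φ : F →ₐ[K] F') (hφ : φ.toRingHom.IsIntegral) (m : ℕ) (y₀ : Fˣ) (yb : F'ˣ)
    (h : φ (y₀ : F) = (yb : F')) (hy₀ : ∀ v : Place K F, (m : ℤ) ∣ v.ord (y₀ : F)) :
    Divisor.pullbackAlong φ hφ (alpfDivQuot (K := K) m y₀) = alpfDivQuot (K := K) m yb := by
  ext Q
  rw [Divisor.pullbackAlong_apply, alpfDivQuot_apply, alpfDivQuot_apply, ← h,
    Place.ord_restrictAlong φ hφ Q (y₀ : F)]
  exact (Int.mul_ediv_assoc _ (hy₀ _)).symm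

end Abs

section Red

variable (𝔓 : FFPlace) (M e : ℕ) [NeZero M] [NeZero e]
  (h49 : 4 ∣ M * e ∨ 9 ∣ M * e) (hK : ¬ 𝔓.p ∣ M * e)

/-- **the reduction of `π^* π_*` of a lift of a divisor over `div y₀ / p`: the factor is `1`** -/
theorem mlt3_red_pull_class
    [HasPrincipalDivisors (IsLocalRing.ResidueField ↥𝔓.P) ↥(tbBarF 𝔓 (M * e))]
    {p : ℕ} (hp0 : p ≠ 0) (yb : (↥(tbBarF 𝔓 (M * e)))ˣ) (y₀ : ↥(tbBarF 𝔓 M))
    (hy₀ : mltl9Phib 𝔓 M e y₀ = (yb : ↥(tbBarF 𝔓 (M * e))))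
    (hy₀p : ∀ s : Place (IsLocalRing.ResidueField ↥𝔓.P) ↥(tbBarF 𝔓 M), (p : ℤ) ∣ s.ord y₀)
    (hyb : ∀ s : Place (IsLocalRing.ResidueField ↥𝔓.P) ↥(tbBarF 𝔓 (M * e)),
      (p : ℤ) ∣ s.ord (yb : ↥(tbBarF 𝔓 (M * e)))) :
    ∃ z : JZero M,
      t3bRed (t3aOK 𝔓 (M * e) hK) (t3a_good_modular 𝔓 (M * e) h49 hK)
          (dlwPullDvd (Dvd.intro e rfl : M ∣ M * e) z)
        = alpfClass hp0 yb hyb := by
  haveI : IsAlgClosed (IsLocalRing.ResidueField ↥𝔓.P) := tb_isAlgClosed_residueField 𝔓.P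
  have hM : ¬ 𝔓.p ∣ M := mltl9_not_dvd_left hK
  haveI : HasPrincipalDivisors (IsLocalRing.ResidueField ↥𝔓.P) ↥(tbBarF 𝔓 M) :=
    ihbc_hasPrincipalDivisors 𝔓 M hM
  have hg := t3a_good_modular 𝔓 (M * e) h49 hK
  -- the function of the lower level, as a unit
  have hy₀0 : y₀ ≠ 0 := by
    rintro rfl
    rw [map_zero] at hy₀
    exact yb.ne_zero hy₀.symm
  obtain ⟨u₀, hu₀⟩ : ∃ u₀ : (↥(tbBarF 𝔓 M))ˣ, (u₀ : ↥(tbBarF 𝔓 M)) = y₀ :=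
    ⟨Units.mk0 y₀ hy₀0, rfl⟩
  have hu₀p : ∀ s : Place (IsLocalRing.ResidueField ↥𝔓.P) ↥(tbBarF 𝔓 M),
      (p : ℤ) ∣ s.ord (u₀ : ↥(tbBarF 𝔓 M)) := by
    intro s
    rw [hu₀]
    exact hy₀p s
  -- the divisor `div y₀ / p` of the lower level is a push-forward
  obtain ⟨Db, hDb⟩ := mlt3_exists_push (mltl9Phib 𝔓 M e) (mltl9_phib_integral 𝔓 M e)
    (mlt3_exists_place_over 𝔓 M e hK) (mlt3_inertiaDeg_one 𝔓 M e)
    (alpfDivQuot (K := IsLocalRing.ResidueField ↥𝔓.P) p u₀)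
  have hDbdeg : Db ∈ Divisor.degZero (K := IsLocalRing.ResidueField ↥𝔓.P)
      (F := ↥(tbBarF 𝔓 (M * e))) := by
    rw [Divisor.mem_degZero,
      ← Divisor.degree_pushforwardAlong (mltl9Phib 𝔓 M e) (mltl9_phib_integral 𝔓 M e) Db, hDb]
    exact alpfDivQuot_degree hp0 hu₀p
  have hpp : Divisor.pullbackAlong (mltl9Phib 𝔓 M e) (mltl9_phib_integral 𝔓 M e)
      (Divisor.pushforwardAlong (mltl9Phib 𝔓 M e) (mltl9_phib_integral 𝔓 M e) Db)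
      = alpfDivQuot (K := IsLocalRing.ResidueField ↥𝔓.P) p yb := by
    rw [hDb]
    exact mlt3_pull_divQuot (mltl9Phib 𝔓 M e) (mltl9_phib_integral 𝔓 M e) p u₀ yb
      (by rw [hu₀]; exact hy₀) hu₀p
  -- the lift
  have hred := alpi_red_alpiLiftDiv 𝔓 (M * e) h49 hK Db
  have hdeg : alpiLiftDiv 𝔓 (M * e) h49 hK Db
      ∈ Divisor.degZero (K := Qb) (F := ↥(modularFunctionFieldBar (M * e))) := by
    rw [Divisor.mem_degZero, ← alpr_degree_red (t3a_good_modular 𝔓 (M * e) h49 hK), hred]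
    exact hDbdeg
  obtain ⟨D, hDdef⟩ : ∃ D : Divisor Qb ↥(modularFunctionFieldBar (M * e)),
      D = alpiLiftDiv 𝔓 (M * e) h49 hK Db := ⟨_, rfl⟩
  rw [← hDdef] at hred hdeg
  rw [alprRed_apply] at hred
  refine ⟨dlwPushA M e (Pic0.mk ⟨D, hdeg⟩), ?_⟩
  -- the reduction commutes with `π^* π_*`
  have hΛ := mltl9_red_pull_push (t3a_good_modular 𝔓 (M * e) h49 hK) (mltl9_compat 𝔓 M e hK)
    (t3h_alphaIntegral M e) (mltl9_phib_integral 𝔓 M e) (t3h_alphaFinite M e) (t3h_alphaNorm M e)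
    (mltl9_phib_finite 𝔓 M e) (mltl9_phib_norm 𝔓 M e hK) (mltl9_finrank_eq 𝔓 M e hK)
    (mltl9_finrank_pos 𝔓 M e hK)
    (fun m hm y => Fermat.Agent.Mazur.mzk_divisible (M * e) hm y) D hdeg
  rw [hred, hpp] at hΛ
  -- assemble
  have h1 : dlwPullDvd (Dvd.intro e rfl : M ∣ M * e) (dlwPushA M e (Pic0.mk ⟨D, hdeg⟩))
      = Pic0.mk ⟨Divisor.pullbackAlong (heckeAlphaBar Qb M e) (t3h_alphaIntegral M e)
          (Divisor.pushforwardAlong (heckeAlphaBar Qb M e) (t3h_alphaIntegral M e) D),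
          Divisor.pullbackAlong_mem_degZero _ _ (t3h_alphaFundamental M e)
            (Divisor.pushforwardAlong_mem_degZero _ _ hdeg)⟩ := rfl
  rw [h1]
  refine (ihbc_t3bRed_mk 𝔓 (M * e) h49 hK _).trans ?_
  unfold alpfClass
  refine congrArg Pic0.mk (Subtype.ext ?_)
  refine (coe_t3aRedDiv0 (t3a_good_modular 𝔓 (M * e) h49 hK) _).trans ?_
  exact hΛ

end Red

section Main

variable (𝔓 : FFPlace) (M e : ℕ) [NeZero M] [NeZero e]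

/-- Step 2 with the factor `1`: the class of `ȳ` vanishes -/
theorem mlt3_cmp_zero (h49 : 4 ∣ M * e ∨ 9 ∣ M * e) (hK : ¬ 𝔓.p ∣ M * e)
    (S : Set Nat.Primes) (hSM : ∀ ℓ ∈ S, ¬ (ℓ : ℕ) ∣ M)
    (hS : ∀ ℓ ∈ S, ¬ (ℓ : ℕ) ∣ M * e ∧ (ℓ : ℕ) ≠ 𝔓.p)
    (p : ℕ) (hp : p.Prime)
    (a : Nat.Primes → ℤ)
    (hfin : ∀ f : ℕ, 0 < f →
      {c : Pic0 (IsLocalRing.ResidueField ↥𝔓.P) ↥(tbBarF 𝔓 (M * e)) |
        (t3bPhi 𝔓 (M * e)) ^ f • c = c}.Finite)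
    (h0 : ∀ x : JZero M, p • x = 0 → (∀ ℓ ∈ S, heckeOperatorBar M ℓ x = a ℓ • x) → x = 0)
    [HasPrincipalDivisors (IsLocalRing.ResidueField ↥𝔓.P) ↥(tbBarF 𝔓 (M * e))]
    (yb : (↥(tbBarF 𝔓 (M * e)))ˣ) (y₀ : ↥(tbBarF 𝔓 M))
    (hy₀ : mltl9Phib 𝔓 M e y₀ = (yb : ↥(tbBarF 𝔓 (M * e))))
    (hy₀p : ∀ s : Place (IsLocalRing.ResidueField ↥𝔓.P) ↥(tbBarF 𝔓 M), (p : ℤ) ∣ s.ord y₀)
    (hyb : ∀ s : Place (IsLocalRing.ResidueField ↥𝔓.P) ↥(tbBarF 𝔓 (M * e)),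
      (p : ℤ) ∣ s.ord (yb : ↥(tbBarF 𝔓 (M * e))))
    (heig : ∀ ℓ : ↥S, ihbcRhoBar 𝔓 (M * e) h49 hK S hS (FreeAlgebra.ι ℤ ℓ)
      (alpfClass hp.ne_zero yb hyb) = a ℓ.1 • alpfClass hp.ne_zero yb hyb) :
    alpfClass hp.ne_zero yb hyb = 0 := by
  haveI : IsAlgClosed (IsLocalRing.ResidueField ↥𝔓.P) := tb_isAlgClosed_residueField 𝔓.P
  obtain ⟨h, hθ, hkill⟩ := ihbc_exists_killer M S hSM p hp a h0
  have hpxb : (p : ℤ) • alpfClass hp.ne_zero yb hyb = 0 := ihbc_class_torsion hp.ne_zero yb hyb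
  have heig' := ihbc_free_eigen S (ihbcRhoBar 𝔓 (M * e) h49 hK S hS) a
    (alpfClass hp.ne_zero yb hyb) heig h
  obtain ⟨z, hz⟩ := mlt3_red_pull_class 𝔓 M e h49 hK hp.ne_zero yb y₀ hy₀ hy₀p hyb
  have h1 := ihbc_pull_zero 𝔓 (Dvd.intro e rfl : M ∣ M * e) h49 hK S (fun ℓ hℓ => (hS ℓ hℓ).1)
    hfin h hkill z
  have h2 := ihbc_red_rho 𝔓 (M * e) h49 hK S hS h (dlwPullDvd (Dvd.intro e rfl : M ∣ M * e) z)
  rw [h1, hz, heig'] at h2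
  -- conclude
  have hθZ : ¬ (p : ℤ) ∣ ihbcThetaZ S a h := by
    intro hd
    apply hθ
    rw [ihbcTheta_eq]
    exact (ZMod.intCast_zmod_eq_zero_iff_dvd _ p).mpr hd
  have hpZ : Prime (p : ℤ) := Nat.prime_iff_prime_int.mp hp
  have hcop : IsCoprime (p : ℤ) (ihbcThetaZ S a h) :=
    (Prime.coprime_iff_not_dvd hpZ).mpr hθZ
  exact ihbc_eq_zero_of_coprime _ _ _ hcop hpxb h2.symm

/-- **the endgame of (B3) for `p = 3`** (helper4's h4-m16 (E)): if the divisor of `y₀ ∈ F̄_M` is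
divisible by `3` already on `F̄_M`, then `ȳ = φ̄ y₀` is a constant times a cube -/
theorem mlt3_cmp_end (𝔓 : FFPlace) (M e : ℕ) [NeZero M] [NeZero e]
    (h𝔓 : 𝔓.p = 2) (h2 : ¬ 2 ∣ M * e) (h9 : 9 ∣ M * e) (he : e = 3 ∨ e = 9)
    (W : WeierstrassCurve ℤ) (hΔ : W.Δ ≠ 0) (hW2 : ((2 : ℕ) : ℤ) ∣ W.Δ)
    (hirr : W.ModRepIsIrreducible 3)
    (hEig : dlwEig M 3 W = ⊥)
    (yb : (↥(tbBarF 𝔓 (M * e)))ˣ) (y₀ : ↥(tbBarF 𝔓 M))
    (hy₀ : mltl9Phib 𝔓 M e y₀ = (yb : ↥(tbBarF 𝔓 (M * e))))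
    (hy₀3 : ∀ s : Place (IsLocalRing.ResidueField ↥𝔓.P) ↥(tbBarF 𝔓 M),
      ((3 : ℕ) : ℤ) ∣ s.ord y₀)
    (hyb : ∀ s : Place (IsLocalRing.ResidueField ↥𝔓.P) ↥(tbBarF 𝔓 (M * e)),
      ((3 : ℕ) : ℤ) ∣ s.ord (yb : ↥(tbBarF 𝔓 (M * e))))
    (hT : ∀ (ℓ : ℕ) [NeZero ℓ], ℓ.Prime → ¬ ℓ ∣ M * e * 𝔓.p → W.IsGoodPrimeFor ℓ → ℓ ≠ 3 →
      ∀ (ζ : (↥𝔓.P)ˣ)
        (hζK : IsPrimitiveRoot ((Units.map (𝔓.P.subtype : ↥𝔓.P →* Qb) ζ : Qbˣ) : Qb) ℓ)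
        (hζk : IsPrimitiveRoot ((Units.map ((IsLocalRing.residue ↥𝔓.P : ↥𝔓.P →+*
          IsLocalRing.ResidueField ↥𝔓.P) : ↥𝔓.P →* IsLocalRing.ResidueField ↥𝔓.P) ζ :
          (IsLocalRing.ResidueField ↥𝔓.P)ˣ) : IsLocalRing.ResidueField ↥𝔓.P) ℓ),
        ∃ (c : IsLocalRing.ResidueField ↥𝔓.P) (ub : (↥(tbBarF 𝔓 (M * e)))ˣ), c ≠ 0 ∧
          tkrTilde ℓ hζk ((yb : ↥(tbBarF 𝔓 (M * e))) :
              LaurentSeries (IsLocalRing.ResidueField ↥𝔓.P)) =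
            HahnSeries.C c *
              (((yb ^ (W.apOfModel ℓ) * ub ^ 3 : (↥(tbBarF 𝔓 (M * e)))ˣ) :
                ↥(tbBarF 𝔓 (M * e))) : LaurentSeries (IsLocalRing.ResidueField ↥𝔓.P))) :
    ∃ (c : IsLocalRing.ResidueField ↥𝔓.P) (gb : (↥(tbBarF 𝔓 (M * e)))ˣ), c ≠ 0 ∧
      ((yb : ↥(tbBarF 𝔓 (M * e))) : LaurentSeries (IsLocalRing.ResidueField ↥𝔓.P)) =
        HahnSeries.C c * (((gb ^ 3 : (↥(tbBarF 𝔓 (M * e)))ˣ) : ↥(tbBarF 𝔓 (M * e))) :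
          LaurentSeries (IsLocalRing.ResidueField ↥𝔓.P)) := by
  haveI : IsAlgClosed (IsLocalRing.ResidueField ↥𝔓.P) := tb_isAlgClosed_residueField 𝔓.P
  have hp : Nat.Prime 3 := Nat.prime_three
  have hK : ¬ 𝔓.p ∣ M * e := by
    rw [h𝔓]
    exact h2
  have h49 : 4 ∣ M * e ∨ 9 ∣ M * e := Or.inr h9
  haveI := ihbc_hasPrincipalDivisors 𝔓 (M * e) hK
  haveI := tbq_bar_isSeparable (𝔓 := 𝔓) (N := M * e) hK
  -- the index set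
  obtain ⟨S, hSdef⟩ : ∃ S : Set Nat.Primes,
      S = {ℓ : Nat.Primes | ¬ (ℓ : ℕ) ∣ M ∧ W.IsGoodPrimeFor ℓ ∧ (ℓ : ℕ) ≠ 3} :=
    ⟨_, rfl⟩
  have hSmem : ∀ ℓ : Nat.Primes,
      ℓ ∈ S ↔ (¬ (ℓ : ℕ) ∣ M ∧ W.IsGoodPrimeFor ℓ ∧ (ℓ : ℕ) ≠ 3) := by
    intro ℓ
    rw [hSdef]
    rfl
  have hSM : ∀ ℓ ∈ S, ¬ (ℓ : ℕ) ∣ M := fun ℓ hℓ => ((hSmem ℓ).mp hℓ).1
  have hSq : ∀ ℓ ∈ S, (ℓ : ℕ) ≠ 𝔓.p := by
    intro ℓ hℓ h
    apply ((hSmem ℓ).mp hℓ).2.1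
    rw [h, h𝔓]
    exact hW2
  have hSe : ∀ ℓ ∈ S, ¬ (ℓ : ℕ) ∣ e := by
    intro ℓ hℓ h1
    have h3 : (ℓ : ℕ) ∣ 3 := by
      rcases he with he | he
      · rw [he] at h1
        exact h1
      · rw [he, show (9 : ℕ) = 3 * 3 by norm_num] at h1
        rcases (Nat.Prime.dvd_mul ℓ.2).mp h1 with h | h <;> exact h
    exact ((hSmem ℓ).mp hℓ).2.2 ((Nat.prime_dvd_prime_iff_eq ℓ.2 Nat.prime_three).mp h3)
  have hSK : ∀ ℓ ∈ S, ¬ (ℓ : ℕ) ∣ M * e := by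
    intro ℓ hℓ h
    rcases (Nat.Prime.dvd_mul ℓ.2).mp h with h1 | h1
    · exact hSM ℓ hℓ h1
    · exact hSe ℓ hℓ h1
  have hS : ∀ ℓ ∈ S, ¬ (ℓ : ℕ) ∣ M * e ∧ (ℓ : ℕ) ≠ 𝔓.p := fun ℓ hℓ => ⟨hSK ℓ hℓ, hSq ℓ hℓ⟩
  have h0 : ∀ x : JZero M, 3 • x = 0 →
      (∀ ℓ ∈ S, heckeOperatorBar M ℓ x = (fun ℓ : Nat.Primes => W.apOfModel ℓ) ℓ • x) → x = 0 := by
    intro x hpx hx
    have hmem : x ∈ dlwEig M 3 W :=
      ⟨hpx, fun ℓ hℓ h1 h2 h3 => hx ⟨ℓ, hℓ⟩ ((hSmem _).mpr ⟨h1, h2, h3⟩)⟩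
    rw [hEig] at hmem
    exact (AddSubgroup.mem_bot).mp hmem
  have heig := ihbc_cmp_eigen 𝔓 (M * e) h49 hK S hS hp.ne_zero
    (fun ℓ : Nat.Primes => W.apOfModel ℓ) yb hyb (by
      intro ℓ _ hℓ hℓS ζ hζK hζk
      have hndvd : ¬ ℓ ∣ M * e * 𝔓.p := by
        intro hd
        rcases (Nat.Prime.dvd_mul hℓ).mp hd with h1 | h1
        · exact hSK _ hℓS h1
        · exact hSq _ hℓS ((Nat.prime_dvd_prime_iff_eq hℓ 𝔓.hp).mp h1)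
      exact hT ℓ hℓ hndvd ((hSmem _).mp hℓS).2.1 ((hSmem _).mp hℓS).2.2 ζ hζK hζk)
  have hxb0 := mlt3_cmp_zero 𝔓 M e h49 hK S hSM hS 3 hp
    (fun ℓ : Nat.Primes => W.apOfModel ℓ)
    (fun f hf => ihbq_fixed_finite_modular 𝔓 (M * e) hK f hf) h0 yb y₀ hy₀ hy₀3 hyb heig
  -- `ȳ` is a constant times a cube
  obtain ⟨c, g, hc, hcg⟩ := ihbc_class_eq_zero (tbq_bar_isFunctionFieldGen 𝔓 (M * e)) hp.ne_zero
    yb hyb hxb0
  refine ⟨c, g, hc, ?_⟩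
  rw [hcg, MulMemClass.coe_mul, ihbc_coe_algebraMap]

end Main

end

end Fermat.Agent.MLT
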