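/-
MLT / L1 / Three (helper4), part 9: **evaluation by conservation**.

For a good reduction `(d, x)` with the reduction map `r = t3aR hg` of places:

* `mlt3_eval_pos` : a Gauss unit `f` with a zero at `P₀` and no pole at the places reducing to `r P₀`
  has a residue `f̄` with a zero at `r P₀` (conservation law);
* `mlt3_red_pole` : a pole of `x` reduces to a pole of `x̄`;
* `mlt3_chart_of_isIntegral` : if `x` is integral over the valuation ring "value in `A` at `P`",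
  `P` is a chart place.
-/
import Mathlib
import Fermat.Agent.Lib.T3.Red.Cons2

set_option autoImplicit false
set_option linter.unusedSectionVars false
set_option linter.unusedVariables false
set_option linter.style.haveILetI false

namespace Fermat.Agent.MLT

open AlgebraicCurve IntermediateField Fermat.Agent.Curve Fermat.Agent.Curve.PlaceAux
  Fermat.Agent.T1 Fermat.Agent.T3

/-- positivity of a push-forward of a finitely supported function -/
theorem mlt3_mapDomain_pos {α β : Type*} (r : α → β) (D : α →₀ ℤ) (Q : β) (P₀ : α)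
    (h0 : r P₀ = Q) (hpos : 0 < D P₀) (hnn : ∀ P, r P = Q → 0 ≤ D P) :
    0 < Finsupp.mapDomain r D Q := by
  classical
  rw [Finsupp.mapDomain, Finsupp.sum, Finsupp.finset_sum_apply]
  have hmem : P₀ ∈ D.support := Finsupp.mem_support_iff.mpr hpos.ne'
  refine Finset.sum_pos' ?_ ⟨P₀, hmem, ?_⟩
  · intro P _
    rw [Finsupp.single_apply]
    split_ifs with h
    · exact hnn P h
    · exact le_rfl
  · rw [Finsupp.single_apply, if_pos h0]
    exact hpos

variable {K F k Fb : Type*} [Field K] [Field F] [Algebra K F] [Field k] [Field Fb] [Algebra k Fb]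
variable {d : TbBase K F k Fb} {ℓ : ℕ} {x : F}
variable [IsAlgClosed K] [IsAlgClosed k]

/-- **evaluation by conservation** -/
theorem mlt3_eval_pos (hg : T3aGood d ℓ x) {f : F} (hf : f ∈ d.Ov) (hres : d.res ⟨f, hf⟩ ≠ 0)
    (P₀ : Place K F) (hpos : 0 < P₀.ord f)
    (hnn : ∀ P : Place K F, t3aR hg P = t3aR hg P₀ → 0 ≤ P.ord f) :
    0 < (t3aR hg P₀).ord (d.res ⟨f, hf⟩) := by
  haveI := hg.sep
  have hf0 : f ≠ 0 := t3a_ne_zero_of_res_ne_zero d hf hres
  have hD : ∀ P : Place K F, CurveP.divOf hg.gen f P = P.ord f :=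
    fun P => CurveP.divOf_apply hg.gen hf0 P
  rw [← t3a_conservation hg hf hres (CurveP.divOf hg.gen f) hD (t3aR hg P₀)]
  refine mlt3_mapDomain_pos _ _ _ P₀ rfl ?_ ?_
  · rw [hD]
    exact hpos
  · intro P hP
    rw [hD]
    exact hnn P hP

/-- a pole of `x` reduces to a pole of `x̄` -/
theorem mlt3_red_pole (hg : T3aGood d ℓ x) (P : Place K F) (hP : P.ord x < 0) :
    (t3aR hg P).ord hg.xb < 0 := by
  have hx0 : x ≠ 0 := hg.x_ne_zero
  have hch : T3aChartPlace d x⁻¹ P := by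
    refine ⟨0, ?_⟩
    rw [ZeroMemClass.coe_zero, map_zero, sub_zero, ordGE_iff]
    right
    rw [P.ord_inv]
    omega
  obtain ⟨a, ha⟩ := id hch
  have h1 := (t3aR_isRed hg).eval2 P hch x⁻¹ (t3a_x_mem_C hg.inv) 0 (by
    rw [ZeroMemClass.coe_zero, map_zero, sub_zero, ordGE_iff]
    right
    rw [P.ord_inv]
    omega)
  rw [map_zero, map_zero, sub_zero, hg.res_inv] at h1
  rcases (ordGE_iff (t3aR hg P)).mp h1 with h0 | h0
  · exact absurd (inv_eq_zero.mp h0) hg.xb_ne_zero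
  · rw [(t3aR hg P).ord_inv] at h0
    omega

/-- a chart place reduces to a place where `x̄` is regular -/
theorem mlt3_red_chart (hg : T3aGood d ℓ x) (P : Place K F) (hP : T3aChartPlace d x P) :
    0 ≤ (t3aR hg P).ord hg.xb :=
  (t3aR_isRed hg).ord_nonneg_of_chartPlace hg hP

/-- if `x` is integral over the ring of the functions with a value in `A` at `P`, then `P` is a chart
place -/
theorem mlt3_chart_of_isIntegral (hg : T3aGood d ℓ x) (P : Place K F)
    (hint : IsIntegral ↥(t3aComp hg.gen d P) x) : T3aChartPlace d x P := by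
  have h : x ∈ t3aComp hg.gen d P :=
    t3a_mem_of_isIntegral (t3aComp hg.gen d P) (fun r => r.2) hint
  exact (mem_t3aComp hg.gen d P).mp h

/-- the functions vanishing at `P` have a value in `A` at `P` -/
theorem mlt3_mem_comp_of_pos (hg : T3aGood d ℓ x) (P : Place K F) (y : F) (hy : 0 < P.ord y) :
    y ∈ t3aComp hg.gen d P := by
  rw [mem_t3aComp]
  refine ⟨0, ?_⟩
  rw [ZeroMemClass.coe_zero, map_zero, sub_zero, ordGE_iff]
  right
  omega


omit [IsAlgClosed K] [IsAlgClosed k] in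
/-- the residue of a quotient `a / b³` of Gauss elements, `b` a Gauss unit -/
theorem mlt3_res_quot (d : TbBase K F k Fb) {a b : F} (ha : a ∈ d.Ov) (hb : b ∈ d.Ov)
    (hbi : b⁻¹ ∈ d.Ov) (hb0 : b ≠ 0) :
    ∃ h : a * (b ^ 3)⁻¹ ∈ d.Ov,
      d.res ⟨a * (b ^ 3)⁻¹, h⟩ = d.res ⟨a, ha⟩ * ((d.res ⟨b, hb⟩) ^ 3)⁻¹ := by
  have hmem : a * (b ^ 3)⁻¹ ∈ d.Ov := by
    rw [← inv_pow]
    exact d.Ov.mul_mem ha (d.Ov.pow_mem hbi 3)
  refine ⟨hmem, ?_⟩
  have h1 : (⟨a * (b ^ 3)⁻¹, hmem⟩ : ↥d.Ov) = ⟨a, ha⟩ * ⟨b⁻¹, hbi⟩ ^ 3 := by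
    apply Subtype.ext
    show a * (b ^ 3)⁻¹ = a * (b⁻¹) ^ 3
    rw [inv_pow]
  have h2 : d.res ⟨b, hb⟩ * d.res ⟨b⁻¹, hbi⟩ = 1 := by
    rw [← map_mul]
    have : (⟨b, hb⟩ : ↥d.Ov) * ⟨b⁻¹, hbi⟩ = 1 := Subtype.ext (mul_inv_cancel₀ hb0)
    rw [this, map_one]
  have h3 : d.res ⟨b⁻¹, hbi⟩ = (d.res ⟨b, hb⟩)⁻¹ := eq_inv_of_mul_eq_one_right h2
  rw [h1, map_mul, map_pow, h3, inv_pow]

end Fermat.Agent.MLT
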