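/-
MLT / L1 / Three (helper4), part 3: **the cubic Galois cover `X₀(3N) → X₀(N)`, `3 ∣ N`**, in characteristic `0`.

`K = N * 3`, `3 ∣ N`.  The matrix `u = (1 0; N 1)` normalises `Γ₀(K)` (`a ≡ d mod 3` on `Γ₀(3)`), so
`modRep u` restricts to an automorphism `g̃` of the function field `F_K = barField 𝕜 K` of `X₀(K)`:
* `mlt3Aut 𝕜 K γ hγ` : the automorphism of `barField 𝕜 K` induced by `γ ∈ N(Γ₀(K))`,
  `coe_modIso_mlt3Aut : modIso (mlt3Aut γ x) = modRep γ (modIso x)`;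
* `mlt3G 𝕜 N h3 := mlt3Aut 𝕜 (N * 3) (mlt3U N) _`; it fixes the generators `j(q^d)`, `d ∣ N`
  (`mlt3G_jd`), `g̃³ = 1` (`mlt3G_cube`), and `g̃ (j(q^K)) ≠ j(q^K)` (`mlt3G_jK_ne`).
-/
import Mathlib
import Fermat.Agent.Lib.T2.AL.Field
import Fermat.Agent.Lib.T1.Dict.StabCount

set_option autoImplicit false
set_option linter.unusedSectionVars false
set_option linter.unusedVariables false
set_option linter.style.haveILetI false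

namespace Fermat.Agent.MLT

open Fermat.Agent.S24Lib Fermat.Agent.T1 Fermat.Agent.T1.KMod Fermat.Agent.T2
open UpperHalfPlane Matrix MatrixGroups CongruenceSubgroup ModularCurve

/-! ### The lower unipotent matrices -/

/-- the matrix `(1 0; t 1)` -/
def mlt3U (t : ℤ) : SL(2, ℤ) := ⟨!![1, 0; t, 1], by simp [Matrix.det_fin_two_of]⟩

theorem mlt3U_coe (t : ℤ) : ((mlt3U t : SL(2, ℤ)) : Matrix (Fin 2) (Fin 2) ℤ) = !![1, 0; t, 1] := rfl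

theorem mlt3U_mul (t s : ℤ) : mlt3U t * mlt3U s = mlt3U (t + s) := by
  apply Subtype.ext
  rw [Matrix.SpecialLinearGroup.coe_mul, mlt3U_coe, mlt3U_coe, mlt3U_coe]
  ext i j
  fin_cases i <;> fin_cases j <;> simp [Matrix.mul_apply, Fin.sum_univ_two]

theorem mlt3U_zero : mlt3U 0 = 1 := by
  apply Subtype.ext
  rw [mlt3U_coe, Matrix.SpecialLinearGroup.coe_one]
  ext i j
  fin_cases i <;> fin_cases j <;> simp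

theorem mlt3U_inv (t : ℤ) : (mlt3U t)⁻¹ = mlt3U (-t) := by
  rw [inv_eq_iff_mul_eq_one, mlt3U_mul, add_neg_cancel, mlt3U_zero]

theorem mlt3U_mem_Gamma0 (n : ℕ) (t : ℤ) : mlt3U t ∈ Gamma0 n ↔ (n : ℤ) ∣ t := by
  rw [Gamma0_mem, ZMod.intCast_zmod_eq_zero_iff_dvd]
  rfl

theorem mlt3_mem_Gamma0_iff (n : ℕ) (γ : SL(2, ℤ)) : γ ∈ Gamma0 n ↔ (n : ℤ) ∣ γ 1 0 := by
  rw [Gamma0_mem, ZMod.intCast_zmod_eq_zero_iff_dvd]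

/-- on `Γ₀(3)` the diagonal entries are congruent modulo `3` -/
theorem mlt3_diag_cong (γ : SL(2, ℤ)) (h : (3 : ℤ) ∣ γ 1 0) : (3 : ℤ) ∣ γ 0 0 - γ 1 1 := by
  have hdet : γ 0 0 * γ 1 1 - γ 0 1 * γ 1 0 = 1 := by
    have := γ.det_coe
    rw [Matrix.det_fin_two] at this
    exact this
  obtain ⟨c, hc⟩ := h
  have h1 : (γ 0 0 * γ 1 1) % 3 = 1 := by
    have : γ 0 0 * γ 1 1 = 1 + 3 * (γ 0 1 * c) := by rw [hc] at hdet; linarith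
    rw [this]
    omega
  have ha := Int.emod_emod_of_dvd (γ 0 0) (dvd_refl (3 : ℤ))
  have h2 : (γ 0 0 % 3) * (γ 1 1 % 3) % 3 = 1 := by
    rw [← Int.mul_emod]
    exact h1
  have ha0 : 0 ≤ γ 0 0 % 3 := Int.emod_nonneg _ (by norm_num)
  have ha3 : γ 0 0 % 3 < 3 := Int.emod_lt_of_pos _ (by norm_num)
  have hd0 : 0 ≤ γ 1 1 % 3 := Int.emod_nonneg _ (by norm_num)
  have hd3 : γ 1 1 % 3 < 3 := Int.emod_lt_of_pos _ (by norm_num)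
  have h3 : γ 0 0 % 3 = γ 1 1 % 3 := by
    interval_cases (γ 0 0 % 3) <;> interval_cases (γ 1 1 % 3) <;> omega
  exact Int.ModEq.dvd (Int.ModEq.symm h3)

/-- the entry `(1, 0)` of `u_t γ u_t⁻¹` -/
theorem mlt3U_conj_entry (t : ℤ) (γ : SL(2, ℤ)) :
    (mlt3U t * γ * (mlt3U t)⁻¹) 1 0 = t * (γ 0 0 - γ 1 1) + γ 1 0 - t ^ 2 * γ 0 1 := by
  rw [mlt3U_inv]
  show ((mlt3U t * γ * mlt3U (-t) : SL(2, ℤ)) : Matrix (Fin 2) (Fin 2) ℤ) 1 0 = _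
  rw [Matrix.SpecialLinearGroup.coe_mul, Matrix.SpecialLinearGroup.coe_mul, mlt3U_coe, mlt3U_coe]
  have h1 : ∀ (A B : Matrix (Fin 2) (Fin 2) ℤ) (i j : Fin 2),
      (A * B) i j = A i 0 * B 0 j + A i 1 * B 1 j := by
    intro A B i j
    rw [Matrix.mul_apply, Fin.sum_univ_two]
  rw [h1, h1, h1]
  simp
  ring

/-- `u_t`, `N ∣ t`, `3 ∣ N`, conjugates `Γ₀(3N)` into itself -/
theorem mlt3U_conj_mem (N : ℕ) (h3 : 3 ∣ N) (t : ℤ) (ht : (N : ℤ) ∣ t) (γ : SL(2, ℤ))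
    (hγ : γ ∈ Gamma0 (N * 3)) : mlt3U t * γ * (mlt3U t)⁻¹ ∈ Gamma0 (N * 3) := by
  rw [mlt3_mem_Gamma0_iff] at hγ ⊢
  rw [mlt3U_conj_entry]
  have hK : ((N * 3 : ℕ) : ℤ) = (N : ℤ) * 3 := by push_cast; ring
  rw [hK] at hγ ⊢
  have h3c : (3 : ℤ) ∣ γ 1 0 := Dvd.dvd.trans (Dvd.intro_left _ rfl) hγ
  obtain ⟨e, he⟩ := mlt3_diag_cong γ h3c
  obtain ⟨t', rfl⟩ := ht
  obtain ⟨n', hn'⟩ := h3
  have hn'' : (N : ℤ) = 3 * n' := by exact_mod_cast hn'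
  refine dvd_sub (dvd_add ?_ hγ) ?_
  · rw [he]
    exact ⟨t' * e, by ring⟩
  · refine ⟨n' * t' ^ 2 * γ 0 1, ?_⟩
    rw [hn'']
    ring

/-- `γ` normalises `Γ₀(K)` -/
def Mlt3Norm (K : ℕ) (γ : SL(2, ℤ)) : Prop := ∀ h : SL(2, ℤ), h ∈ Gamma0 K ↔ γ * h * γ⁻¹ ∈ Gamma0 K

theorem Mlt3Norm.inv {K : ℕ} {γ : SL(2, ℤ)} (hγ : Mlt3Norm K γ) : Mlt3Norm K γ⁻¹ := by
  intro h
  rw [hγ (γ⁻¹ * h * γ⁻¹⁻¹)]
  have : γ * (γ⁻¹ * h * γ⁻¹⁻¹) * γ⁻¹ = h := by group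
  rw [this]

theorem mlt3U_norm (N : ℕ) (h3 : 3 ∣ N) (t : ℤ) (ht : (N : ℤ) ∣ t) :
    Mlt3Norm (N * 3) (mlt3U t) := by
  intro γ
  constructor
  · exact mlt3U_conj_mem N h3 t ht γ
  · intro h
    have h1 := mlt3U_conj_mem N h3 (-t) (Dvd.dvd.neg_right ht) _ h
    rw [← mlt3U_inv, inv_inv] at h1
    have h2 : (mlt3U t)⁻¹ * (mlt3U t * γ * (mlt3U t)⁻¹) * mlt3U t = γ := by group
    rwa [h2] at h1

/-! ### The automorphism of `F_K` induced by an element of the normaliser of `Γ₀(K)` -/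

section Aut

attribute [local instance] charZero_k

variable (𝕜 : Type) [Field 𝕜] [IsAlgClosed 𝕜] [Algebra 𝕜 ℂ] [Algebra ℚ 𝕜] (K : ℕ) [NeZero K]

theorem mlt3_modRep_mem_anField {γ : SL(2, ℤ)} (hγ : Mlt3Norm K γ) {x : ModField 𝕜 K}
    (hx : x ∈ anField 𝕜 K) : modRep 𝕜 K γ x ∈ anField 𝕜 K := by
  rw [anField_eq_fixedField 𝕜 K, IntermediateField.mem_fixedField_iff] at hx ⊢
  rintro g ⟨h, hh, rfl⟩
  have h1 : γ⁻¹ * h * γ⁻¹⁻¹ ∈ Gamma0 K := (hγ.inv h).mp hh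
  have h2 := hx (modRep 𝕜 K (γ⁻¹ * h * γ⁻¹⁻¹)) ⟨_, h1, rfl⟩
  have h3 : h * γ = γ * (γ⁻¹ * h * γ⁻¹⁻¹) := by group
  calc modRep 𝕜 K h (modRep 𝕜 K γ x) = modRep 𝕜 K (h * γ) x := by rw [map_mul]; rfl
    _ = modRep 𝕜 K γ (modRep 𝕜 K (γ⁻¹ * h * γ⁻¹⁻¹) x) := by rw [h3, map_mul]; rfl
    _ = modRep 𝕜 K γ x := by rw [h2]

/-- the endomorphism of the analytic function field induced by `γ` -/
noncomputable def mlt3AnHom {γ : SL(2, ℤ)} (hγ : Mlt3Norm K γ) :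
    ↥(anField 𝕜 K) →ₐ[𝕜] ↥(anField 𝕜 K) :=
  AlgHom.codRestrict (((modRep 𝕜 K γ : ModField 𝕜 K ≃ₐ[𝕜] ModField 𝕜 K) : ModField 𝕜 K →ₐ[𝕜]
    ModField 𝕜 K).comp (anField 𝕜 K).val) (anField 𝕜 K).toSubalgebra
    (fun x => mlt3_modRep_mem_anField 𝕜 K hγ x.2)

theorem coe_mlt3AnHom {γ : SL(2, ℤ)} (hγ : Mlt3Norm K γ) (x : ↥(anField 𝕜 K)) :
    ((mlt3AnHom 𝕜 K hγ x : ↥(anField 𝕜 K)) : ModField 𝕜 K) = modRep 𝕜 K γ (x : ModField 𝕜 K) := rfl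

/-- the endomorphism of `F_K` induced by `γ` -/
noncomputable def mlt3AutHom {γ : SL(2, ℤ)} (hγ : Mlt3Norm K γ) :
    ↥(barField 𝕜 K) →ₐ[𝕜] ↥(barField 𝕜 K) :=
  ((modIso 𝕜 K).symm : ↥(anField 𝕜 K) →ₐ[𝕜] ↥(barField 𝕜 K)).comp
    ((mlt3AnHom 𝕜 K hγ).comp ((modIso 𝕜 K : ↥(barField 𝕜 K) ≃ₐ[𝕜] ↥(anField 𝕜 K)) :
      ↥(barField 𝕜 K) →ₐ[𝕜] ↥(anField 𝕜 K)))

theorem coe_modIso_mlt3AutHom {γ : SL(2, ℤ)} (hγ : Mlt3Norm K γ) (x : ↥(barField 𝕜 K)) :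
    ((modIso 𝕜 K (mlt3AutHom 𝕜 K hγ x) : ↥(anField 𝕜 K)) : ModField 𝕜 K)
      = modRep 𝕜 K γ ((modIso 𝕜 K x : ↥(anField 𝕜 K)) : ModField 𝕜 K) := by
  show (((modIso 𝕜 K) ((modIso 𝕜 K).symm (mlt3AnHom 𝕜 K hγ (modIso 𝕜 K x))) : ↥(anField 𝕜 K)) :
    ModField 𝕜 K) = _
  rw [AlgEquiv.apply_symm_apply, coe_mlt3AnHom]

theorem mlt3_modIso_injective {x y : ↥(barField 𝕜 K)}
    (h : ((modIso 𝕜 K x : ↥(anField 𝕜 K)) : ModField 𝕜 K)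
      = ((modIso 𝕜 K y : ↥(anField 𝕜 K)) : ModField 𝕜 K)) : x = y :=
  (modIso 𝕜 K).injective (Subtype.ext h)

theorem mlt3AutHom_comp {γ δ : SL(2, ℤ)} (hγ : Mlt3Norm K γ) (hδ : Mlt3Norm K δ)
    (hγδ : Mlt3Norm K (γ * δ)) (x : ↥(barField 𝕜 K)) :
    mlt3AutHom 𝕜 K hγ (mlt3AutHom 𝕜 K hδ x) = mlt3AutHom 𝕜 K hγδ x := by
  apply mlt3_modIso_injective
  rw [coe_modIso_mlt3AutHom, coe_modIso_mlt3AutHom, coe_modIso_mlt3AutHom, map_mul]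
  rfl

/-- an element of `Γ₀(K)` induces the identity -/
theorem mlt3AutHom_of_mem {γ : SL(2, ℤ)} (hγ : Mlt3Norm K γ) (hmem : γ ∈ Gamma0 K)
    (x : ↥(barField 𝕜 K)) : mlt3AutHom 𝕜 K hγ x = x := by
  apply mlt3_modIso_injective
  rw [coe_modIso_mlt3AutHom]
  have hx : ((modIso 𝕜 K x : ↥(anField 𝕜 K)) : ModField 𝕜 K)
      ∈ IntermediateField.fixedField ((Gamma0 K).map (modRep 𝕜 K)) := by
    rw [← anField_eq_fixedField 𝕜 K]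
    exact (modIso 𝕜 K x).2
  rw [IntermediateField.mem_fixedField_iff] at hx
  exact hx _ ⟨γ, hmem, rfl⟩

theorem mlt3Norm_one : Mlt3Norm K 1 := by
  intro h
  rw [one_mul, inv_one, mul_one]

/-- **the automorphism of `F_K` induced by `γ ∈ N(Γ₀(K))`** -/
noncomputable def mlt3Aut {γ : SL(2, ℤ)} (hγ : Mlt3Norm K γ) :
    ↥(barField 𝕜 K) ≃ₐ[𝕜] ↥(barField 𝕜 K) :=
  AlgEquiv.ofAlgHom (mlt3AutHom 𝕜 K hγ) (mlt3AutHom 𝕜 K hγ.inv)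
    (AlgHom.ext fun x => by
      have h1 : Mlt3Norm K (γ * γ⁻¹) := by rw [mul_inv_cancel]; exact mlt3Norm_one K
      rw [AlgHom.comp_apply, mlt3AutHom_comp 𝕜 K hγ hγ.inv h1]
      exact mlt3AutHom_of_mem 𝕜 K h1 (by rw [mul_inv_cancel]; exact one_mem _) x)
    (AlgHom.ext fun x => by
      have h1 : Mlt3Norm K (γ⁻¹ * γ) := by rw [inv_mul_cancel]; exact mlt3Norm_one K
      rw [AlgHom.comp_apply, mlt3AutHom_comp 𝕜 K hγ.inv hγ h1]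
      exact mlt3AutHom_of_mem 𝕜 K h1 (by rw [inv_mul_cancel]; exact one_mem _) x)

theorem mlt3Aut_apply {γ : SL(2, ℤ)} (hγ : Mlt3Norm K γ) (x : ↥(barField 𝕜 K)) :
    mlt3Aut 𝕜 K hγ x = mlt3AutHom 𝕜 K hγ x := rfl

theorem coe_modIso_mlt3Aut {γ : SL(2, ℤ)} (hγ : Mlt3Norm K γ) (x : ↥(barField 𝕜 K)) :
    ((modIso 𝕜 K (mlt3Aut 𝕜 K hγ x) : ↥(anField 𝕜 K)) : ModField 𝕜 K)
      = modRep 𝕜 K γ ((modIso 𝕜 K x : ↥(anField 𝕜 K)) : ModField 𝕜 K) :=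
  coe_modIso_mlt3AutHom 𝕜 K hγ x

/-- the action on the generators -/
theorem mlt3Aut_jd {γ : SL(2, ℤ)} (hγ : Mlt3Norm K γ) (d : ℕ) (hd : d ∣ K)
    (hγd : γ ∈ Gamma0 d) : mlt3Aut 𝕜 K hγ (t2wJd 𝕜 K d hd) = t2wJd 𝕜 K d hd := by
  apply mlt3_modIso_injective
  rw [coe_modIso_mlt3Aut, t2w_modIso_jd, KMod.modRep_jGenL, one_mul]
  have h0 : γ⁻¹ ∈ Gamma0 ((t2wPN K d hd : ℕ+) : ℕ) := inv_mem hγd
  have h1 := jGen_Gamma0_mul (t2wPN K d hd) h0 1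
  rw [mul_one] at h1
  have h2 : jGenR 𝕜 K (t2wPN_dvd K d hd) γ⁻¹ = jGenR 𝕜 K (t2wPN_dvd K d hd) 1 := Subtype.ext h1
  unfold KMod.jGenL
  rw [h2]

/-- the generator `j(q^K)` is moved by every `γ ∉ Γ₀(K)` -/
theorem mlt3Aut_jK_ne {γ : SL(2, ℤ)} (hγ : Mlt3Norm K γ) (hγK : γ ∉ Gamma0 K) :
    mlt3Aut 𝕜 K hγ (t2wJd 𝕜 K K dvd_rfl) ≠ t2wJd 𝕜 K K dvd_rfl := by
  intro h
  have h1 : ((modIso 𝕜 K (mlt3Aut 𝕜 K hγ (t2wJd 𝕜 K K dvd_rfl)) : ↥(anField 𝕜 K)) : ModField 𝕜 K)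
      = ((modIso 𝕜 K (t2wJd 𝕜 K K dvd_rfl) : ↥(anField 𝕜 K)) : ModField 𝕜 K) := by rw [h]
  rw [coe_modIso_mlt3Aut, t2w_modIso_jd, KMod.modRep_jGenL, one_mul] at h1
  apply hγK
  have h2 := KMod.mem_Gamma0_of_jGenL_eq 𝕜 K γ⁻¹ h1
  simpa using inv_mem h2

end Aut

/-! ### The cubic automorphism `g̃` -/

section G

attribute [local instance] charZero_k

variable (𝕜 : Type) [Field 𝕜] [IsAlgClosed 𝕜] [Algebra 𝕜 ℂ] [Algebra ℚ 𝕜] (N : ℕ) [NeZero N]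
  (h3 : 3 ∣ N)

/-- **the generator `g̃` of the Galois group of `F_{3N} / F_N`**, `3 ∣ N` -/
noncomputable def mlt3G : ↥(barField 𝕜 (N * 3)) ≃ₐ[𝕜] ↥(barField 𝕜 (N * 3)) :=
  mlt3Aut 𝕜 (N * 3) (mlt3U_norm N h3 N dvd_rfl)

theorem mlt3_alpha_jd (d : ℕ) (hd : d ∣ N) :
    heckeAlphaBar 𝕜 N 3 (t2wJd 𝕜 N d hd) = t2wJd 𝕜 (N * 3) d (hd.mul_right 3) :=
  Subtype.ext rfl

theorem mlt3G_jd (d : ℕ) (hd : d ∣ N) :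
    mlt3G 𝕜 N h3 (t2wJd 𝕜 (N * 3) d (hd.mul_right 3)) = t2wJd 𝕜 (N * 3) d (hd.mul_right 3) :=
  mlt3Aut_jd 𝕜 (N * 3) _ d _ ((mlt3U_mem_Gamma0 d N).mpr (by exact_mod_cast hd))

/-- `g̃` fixes the functions of the level `N` -/
theorem mlt3G_alpha (x : ↥(barField 𝕜 N)) :
    mlt3G 𝕜 N h3 (heckeAlphaBar 𝕜 N 3 x) = heckeAlphaBar 𝕜 N 3 x := by
  have key : ((mlt3G 𝕜 N h3 : ↥(barField 𝕜 (N * 3)) →+* ↥(barField 𝕜 (N * 3))).comp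
      (heckeAlphaBar 𝕜 N 3 : ↥(barField 𝕜 N) →+* ↥(barField 𝕜 (N * 3))))
      = (heckeAlphaBar 𝕜 N 3 : ↥(barField 𝕜 N) →+* ↥(barField 𝕜 (N * 3))) := by
    apply t2w_ringHom_ext
    · intro c
      show mlt3G 𝕜 N h3 (heckeAlphaBar 𝕜 N 3 (algebraMap 𝕜 _ c)) = heckeAlphaBar 𝕜 N 3 (algebraMap 𝕜 _ c)
      rw [AlgHom.commutes, AlgEquiv.commutes]
    · intro d hd
      show mlt3G 𝕜 N h3 (heckeAlphaBar 𝕜 N 3 (t2wJd 𝕜 N d hd)) = heckeAlphaBar 𝕜 N 3 (t2wJd 𝕜 N d hd)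
      rw [mlt3_alpha_jd, mlt3G_jd 𝕜 N h3 d hd]
  exact RingHom.congr_fun key x

/-- `g̃³ = 1` -/
theorem mlt3G_cube (x : ↥(barField 𝕜 (N * 3))) :
    mlt3G 𝕜 N h3 (mlt3G 𝕜 N h3 (mlt3G 𝕜 N h3 x)) = x := by
  have hn := mlt3U_norm N h3 N dvd_rfl
  have h2 : Mlt3Norm (N * 3) (mlt3U N * mlt3U N) := by
    rw [mlt3U_mul]
    exact mlt3U_norm N h3 _ (dvd_add dvd_rfl dvd_rfl)
  have h3' : Mlt3Norm (N * 3) (mlt3U N * mlt3U N * mlt3U N) := by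
    rw [mlt3U_mul, mlt3U_mul]
    exact mlt3U_norm N h3 _ (dvd_add (dvd_add dvd_rfl dvd_rfl) dvd_rfl)
  unfold mlt3G
  rw [mlt3Aut_apply, mlt3Aut_apply, mlt3Aut_apply]
  rw [mlt3AutHom_comp 𝕜 (N * 3) hn hn h2, mlt3AutHom_comp 𝕜 (N * 3) h2 hn h3']
  refine mlt3AutHom_of_mem 𝕜 (N * 3) h3' ?_ x
  rw [mlt3U_mul, mlt3U_mul, mlt3U_mem_Gamma0]
  refine ⟨1, ?_⟩
  push_cast
  ring

/-- `g̃` moves `j(q^{3N})` -/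
theorem mlt3G_jK_ne :
    mlt3G 𝕜 N h3 (t2wJd 𝕜 (N * 3) (N * 3) dvd_rfl) ≠ t2wJd 𝕜 (N * 3) (N * 3) dvd_rfl := by
  refine mlt3Aut_jK_ne 𝕜 (N * 3) _ ?_
  rw [mlt3U_mem_Gamma0]
  rintro ⟨c, hc⟩
  have hN : (0 : ℤ) < N := by exact_mod_cast Nat.pos_of_ne_zero (NeZero.ne N)
  have : (N : ℤ) * 1 = N * (3 * c) := by
    rw [mul_one]
    conv_lhs => rw [hc]
    push_cast
    ring
  have h1 := mul_left_cancel₀ hN.ne' this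
  omega

end G

end Fermat.Agent.MLT
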