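/-
MLT / L1 / Three (helper4), part 4: **automorphisms which move the coordinate to another Gauss-generic
function preserve the Gauss ring**.

`d : TbBase K F k Fb`, `x ∈ 𝒪` with transcendental residue, `[F : K(x)] = [F̄ : k(x̄)]`, `𝒪` has the unit
property.  Lead's `ihbt_stable` treats the automorphisms `g` of `F / K` with `g x = x`.  Here:
`g x ∈ 𝒪` with a TRANSCENDENTAL residue suffices (`mlt3_stable_gen`): every `r ∈ 𝒪 ∩ K(x)` is a
quotient `P(x) / Q(x)` of polynomials over `A` with `Q̄ ≠ 0`, so `g r = P(g x) / Q(g x) ∈ 𝒪`; and `𝒪` is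
integral over `𝒪 ∩ K(x)`.  (Used for the Atkin–Lehner involutions `w_9`, `w_3`: `g j = j(q^9)`, `j(q^3)`.)
-/
import Mathlib
import Fermat.Agent.Lib.Ihara.B.Tau.Compat

set_option autoImplicit false
set_option linter.unusedSectionVars false
set_option linter.unusedVariables false
set_option linter.style.haveILetI false

namespace Fermat.Agent.MLT

open IntermediateField Polynomial Fermat.Agent.T1 Fermat.Agent.Ihara

variable {K F k Fb : Type*} [Field K] [Field F] [Algebra K F] [Field k] [Field Fb] [Algebra k Fb]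
variable {d : TbBase K F k Fb}

/-- an element of `𝒪 ∩ K(x)` is mapped into `𝒪` by every automorphism `g` such that `g x` is
Gauss-generic -/
theorem mlt3_adjoin_stable (hV : IhbtUnit d) {x : F} (hxO : x ∈ d.Ov)
    (hxb : Transcendental k (d.res ⟨x, hxO⟩)) (g : F ≃ₐ[K] F) (hgx : g x ∈ d.Ov)
    (hgxb : Transcendental k (d.res ⟨g x, hgx⟩)) {r : F} (hrO : r ∈ d.Ov) (hrx : r ∈ K⟮x⟯) :
    g r ∈ d.Ov := by
  classical
  obtain ⟨P, Q, hr⟩ := (IntermediateField.mem_adjoin_simple_iff K r).mp hrx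
  by_cases hQ0 : Polynomial.aeval x Q = 0
  · rw [hr, hQ0, div_zero, map_zero]
    exact d.Ov.zero_mem
  have hQne : Q ≠ 0 := by
    rintro rfl
    exact hQ0 (map_zero _)
  obtain ⟨a, Ps, ha0, hPs, i₁, hi₁⟩ := d.exists_scale_polys (![P, Q] : Fin 2 → Polynomial K)
    ⟨1, by simpa using hQne⟩
  have hP' : (Ps 0).map d.A.subtype = Polynomial.C a * P := hPs 0
  have hQ' : (Ps 1).map d.A.subtype = Polynomial.C a * Q := hPs 1
  have ha1 : algebraMap K F a ≠ 0 := (_root_.map_ne_zero _).mpr ha0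
  -- the relation in `𝒪`
  have hrel : (⟨r, hrO⟩ : ↥d.Ov) * Polynomial.eval₂ d.toOv (⟨x, hxO⟩ : ↥d.Ov) (Ps 1)
      = Polynomial.eval₂ d.toOv (⟨x, hxO⟩ : ↥d.Ov) (Ps 0) := by
    apply Subtype.ext
    rw [Subring.coe_mul, d.coe_eval₂_toOv, d.coe_eval₂_toOv, hP', hQ', map_mul, map_mul,
      Polynomial.aeval_C]
    show r * (algebraMap K F a * Polynomial.aeval x Q) = algebraMap K F a * Polynomial.aeval x P
    rw [hr]
    field_simp
  have hrelb := congrArg d.res hrel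
  rw [map_mul, d.res_eval₂_toOv, d.res_eval₂_toOv] at hrelb
  -- the denominator has a nonzero reduction
  have hQb : (Ps 1).map d.resA ≠ 0 := by
    intro h0
    rw [h0, map_zero, mul_zero] at hrelb
    have h1 : (Ps 0).map d.resA = 0 := (transcendental_iff.mp hxb) _ hrelb.symm
    fin_cases i₁
    · exact hi₁ h1
    · exact hi₁ h0
  -- the images
  have hq' : d.res (Polynomial.eval₂ d.toOv (⟨g x, hgx⟩ : ↥d.Ov) (Ps 1)) ≠ 0 := by
    rw [d.res_eval₂_toOv]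
    exact fun h => hQb ((transcendental_iff.mp hgxb) _ h)
  have hqinv := hV _ (Polynomial.eval₂ d.toOv (⟨g x, hgx⟩ : ↥d.Ov) (Ps 1)).2 hq'
  have hgP : g (Polynomial.aeval x ((Ps 0).map d.A.subtype))
      = Polynomial.aeval (g x) ((Ps 0).map d.A.subtype) :=
    (Polynomial.aeval_algHom_apply (g : F →ₐ[K] F) x _).symm
  have hgQ : g (Polynomial.aeval x ((Ps 1).map d.A.subtype))
      = Polynomial.aeval (g x) ((Ps 1).map d.A.subtype) :=
    (Polynomial.aeval_algHom_apply (g : F →ₐ[K] F) x _).symm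
  have hrelF : r * Polynomial.aeval x ((Ps 1).map d.A.subtype)
      = Polynomial.aeval x ((Ps 0).map d.A.subtype) := by
    have := congrArg (Subtype.val : ↥d.Ov → F) hrel
    rwa [Subring.coe_mul, d.coe_eval₂_toOv, d.coe_eval₂_toOv] at this
  have hgrel := congrArg g hrelF
  rw [map_mul, hgP, hgQ] at hgrel
  have hq0 : Polynomial.aeval (g x) ((Ps 1).map d.A.subtype) ≠ 0 := by
    intro h0
    apply hq'
    have : Polynomial.eval₂ d.toOv (⟨g x, hgx⟩ : ↥d.Ov) (Ps 1) = 0 := by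
      apply Subtype.ext
      rw [d.coe_eval₂_toOv]
      exact h0
    rw [this, map_zero]
  have hfin : g r = ((Polynomial.eval₂ d.toOv (⟨g x, hgx⟩ : ↥d.Ov) (Ps 0) : ↥d.Ov) : F)
      * ((Polynomial.eval₂ d.toOv (⟨g x, hgx⟩ : ↥d.Ov) (Ps 1) : ↥d.Ov) : F)⁻¹ := by
    rw [d.coe_eval₂_toOv, d.coe_eval₂_toOv, ← hgrel, mul_assoc, mul_inv_cancel₀ hq0, mul_one]
  rw [hfin]
  exact d.Ov.mul_mem (Polynomial.eval₂ d.toOv (⟨g x, hgx⟩ : ↥d.Ov) (Ps 0)).2 hqinv

/-- **an automorphism which maps the coordinate to a Gauss-generic function preserves the Gauss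
ring** -/
theorem mlt3_stable_gen (hV : IhbtUnit d) {x : F} (hxO : x ∈ d.Ov)
    (hxb : Transcendental k (d.res ⟨x, hxO⟩)) [FiniteDimensional ↥K⟮x⟯ F]
    (hdeg : Module.finrank ↥K⟮x⟯ F = Module.finrank ↥k⟮d.res ⟨x, hxO⟩⟯ Fb)
    (g : F ≃ₐ[K] F) (hgx : g x ∈ d.Ov) (hgxb : Transcendental k (d.res ⟨g x, hgx⟩))
    {f : F} (hf : f ∈ d.Ov) : g f ∈ d.Ov := by
  have hint := ihbt_isIntegral hxO hV hxb hdeg hf
  let φ : ↥(d.Ov ⊓ K⟮x⟯.toSubring) →+* ↥d.Ov :=
    { toFun := fun r => ⟨g (r : F), mlt3_adjoin_stable hV hxO hxb g hgx hgxb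
        (Subring.mem_inf.mp r.2).1 (Subring.mem_inf.mp r.2).2⟩
      map_one' := Subtype.ext (map_one g)
      map_mul' := fun a b => Subtype.ext (map_mul g (a : F) (b : F))
      map_zero' := Subtype.ext (map_zero g)
      map_add' := fun a b => Subtype.ext (map_add g (a : F) (b : F)) }
  have hint' : IsIntegral ↥d.Ov (g f) := by
    refine IsIntegral.map_of_comp_eq φ (g : F →+* F) ?_ hint
    ext r
    rfl
  exact ihbt_mem_of_isIntegral hV (fun r => r.2) hint'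

/-- **the induced automorphism of the residue field**, for `g` and `g⁻¹` Gauss-generic at `x` -/
theorem mlt3_exists_bar (hV : IhbtUnit d) {x : F} (hxO : x ∈ d.Ov)
    (hxb : Transcendental k (d.res ⟨x, hxO⟩)) [FiniteDimensional ↥K⟮x⟯ F]
    (hdeg : Module.finrank ↥K⟮x⟯ F = Module.finrank ↥k⟮d.res ⟨x, hxO⟩⟯ Fb)
    (g : F ≃ₐ[K] F) (hgx : g x ∈ d.Ov) (hgxb : Transcendental k (d.res ⟨g x, hgx⟩))
    (hgx' : g.symm x ∈ d.Ov) (hgxb' : Transcendental k (d.res ⟨g.symm x, hgx'⟩)) :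
    ∃ (hg : ∀ f ∈ d.Ov, g f ∈ d.Ov) (gb : Fb ≃ₐ[k] Fb),
      (∀ f ∈ d.Ov, g.symm f ∈ d.Ov) ∧
      ∀ (f : F) (hf : f ∈ d.Ov), gb (d.res ⟨f, hf⟩) = d.res ⟨g f, hg f hf⟩ := by
  have hg : ∀ f ∈ d.Ov, g f ∈ d.Ov := fun f hf => mlt3_stable_gen hV hxO hxb hdeg g hgx hgxb hf
  have hg' : ∀ f ∈ d.Ov, g.symm f ∈ d.Ov :=
    fun f hf => mlt3_stable_gen hV hxO hxb hdeg g.symm hgx' hgxb' hf
  obtain ⟨gb, hgb⟩ := ihbt_exists_bar hV g hg hg'
  exact ⟨hg, gb, hg', fun f hf => hgb f hf⟩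

end Fermat.Agent.MLT
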