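/-
MLT / L1 / Three (helper4), part 6: **the reductions of the automorphisms `w_9`, `w_3`, `g̃`** at a
place `𝔓` (any level `M` prime to `𝔓.p`; no rigidity needed for the Gauss-compatibility).

* `mlt3_jd_mem_Ov`, `mlt3_res_jd` : `j(q^D) ∈ 𝒪`, with residue `j̄(q^D)`, transcendental;
* `mlt3_exists_bar_modular` : an automorphism `σ` of `F_M / ℚ̄` with `σ j = j(q^D)`,
  `σ⁻¹ j = j(q^{D'})` preserves the Gauss ring and induces an automorphism `σ̄` of `F̄_M`.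
-/
import Mathlib
import Fermat.Agent.Lib.MLT.L1.Three.Gauss
import Fermat.Agent.Lib.MLT.L1.Three.AL
import Fermat.Agent.Lib.Ihara.B.Tau.Modular
import Fermat.Agent.Lib.T1.S18.Final

set_option autoImplicit false
set_option linter.unusedSectionVars false
set_option linter.unusedVariables false
set_option linter.style.haveILetI false
set_option synthInstance.maxHeartbeats 400000

namespace Fermat.Agent.MLT

open ModularCurve Fermat.Agent.T1 Fermat.Agent.T2 Fermat.Agent.T3 Fermat.Agent.Ihara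
  Fermat.Agent.S24Lib Fermat.Agent.T1.KMod HahnSeries IntermediateField AlgebraicCurve
  Fermat.Agent.Curve Fermat.Agent.TW

local notation "Qb" => AlgebraicClosure ℚ

noncomputable section

theorem mlt3_coeffMap_qExpand {R S : Type*} [CommRing R] [CommRing S] (φ : R →+* S) (r : ℕ)
    [NeZero r] (f : LaurentSeries R) :
    coeffMap φ (qExpand R r f) = qExpand S r (coeffMap φ f) := by
  ext n
  rw [coeffMap_coeff]
  by_cases hd : (r : ℤ) ∣ n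
  · obtain ⟨k, rfl⟩ := hd
    rw [qExpand_coeff_mul, qExpand_coeff_mul, coeffMap_coeff]
  · rw [qExpand_coeff_of_not_dvd r _ hd, qExpand_coeff_of_not_dvd r _ hd, map_zero]

section Gen

variable (𝔓 : FFPlace) (M : ℕ) [NeZero M] (hM : ¬ 𝔓.p ∣ M)

theorem mlt3_jd_frac (D : ℕ) [NeZero D] (hD : D ∣ M) :
    ((t2wJd Qb M D hD : ↥(modularFunctionFieldBar M)) : LaurentSeries Qb)
        * coeffMap 𝔓.P.subtype (1 : LaurentSeries ↥𝔓.P)
      = coeffMap 𝔓.P.subtype (qExpand ↥𝔓.P D (jqModC ↥𝔓.P)) := by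
  rw [map_one, mul_one, mlt3_coeffMap_qExpand, coeffMap_jqModC]
  rfl

theorem mlt3_one_red_ne_zero :
    coeffMap (IsLocalRing.residue ↥𝔓.P) (1 : LaurentSeries ↥𝔓.P) ≠ 0 := by
  rw [map_one]
  exact one_ne_zero

/-- `j(q^D)` lies in the Gauss ring -/
theorem mlt3_jd_mem_Ov (D : ℕ) (hD : D ∣ M) :
    t2wJd Qb M D hD ∈ (t3aBase 𝔓 M hM).Ov := by
  haveI : NeZero D := t2w_neZero_of_dvd M hD
  exact tbq_mem_of_frac (mlt3_one_red_ne_zero 𝔓) (mlt3_jd_frac 𝔓 M D hD)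

/-- the residue of `j(q^D)` is `j̄(q^D)` -/
theorem mlt3_coe_res_jd (D : ℕ) [NeZero D] (hD : D ∣ M) :
    (((t3aBase 𝔓 M hM).res ⟨t2wJd Qb M D hD, mlt3_jd_mem_Ov 𝔓 M hM D hD⟩ : ↥(tbBarF 𝔓 M)) :
      LaurentSeries (IsLocalRing.ResidueField ↥𝔓.P))
      = qExpand (IsLocalRing.ResidueField ↥𝔓.P) D (jqModC (IsLocalRing.ResidueField ↥𝔓.P)) := by
  have h := tbResQ_of_frac (t3aOK 𝔓 M hM) (mlt3_one_red_ne_zero 𝔓) (mlt3_jd_frac 𝔓 M D hD)
  rw [map_one, div_one, mlt3_coeffMap_qExpand, coeffMap_jqModC] at h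
  exact h

/-- `j̄(q^D)` is transcendental over the residue field -/
theorem mlt3_res_jd_transcendental (D : ℕ) (hD : D ∣ M) :
    Transcendental (IsLocalRing.ResidueField ↥𝔓.P)
      ((t3aBase 𝔓 M hM).res ⟨t2wJd Qb M D hD, mlt3_jd_mem_Ov 𝔓 M hM D hD⟩) := by
  haveI : NeZero D := t2w_neZero_of_dvd M hD
  haveI : IsAlgClosed (IsLocalRing.ResidueField ↥𝔓.P) := tb_isAlgClosed_residueField 𝔓.P
  intro halg
  have h1 : IsAlgebraic (IsLocalRing.ResidueField ↥𝔓.P)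
      (qExpand (IsLocalRing.ResidueField ↥𝔓.P) D (jqModC (IsLocalRing.ResidueField ↥𝔓.P))) := by
    rw [← mlt3_coe_res_jd 𝔓 M hM D hD]
    exact halg.algHom (tbBarF 𝔓 M).val
  have h2 : IsAlgebraic (IsLocalRing.ResidueField ↥𝔓.P)
      (jqModC (IsLocalRing.ResidueField ↥𝔓.P)) := by
    have hinj : Function.Injective (qExpandAlgHomC (IsLocalRing.ResidueField ↥𝔓.P) D) :=
      RingHom.injective _
    exact (isAlgebraic_algHom_iff (qExpandAlgHomC (IsLocalRing.ResidueField ↥𝔓.P) D) hinj).mp h1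
  have h3 : IsAlgebraic (IsLocalRing.ResidueField ↥𝔓.P) (tbBarJ 𝔓 M) := by
    have hinj : Function.Injective (tbBarF 𝔓 M).val := Subtype.val_injective
    exact (isAlgebraic_algHom_iff (tbBarF 𝔓 M).val hinj).mp h2
  exact (tbq_bar_isFunctionFieldGen 𝔓 M).transcendental h3

theorem mlt3_tbJ_eq : tbJ M = t2wJd Qb M 1 (one_dvd M) := by
  apply Subtype.ext
  show jqModC Qb = qExpand Qb 1 (jqModC Qb)
  rw [qExpand_one_apply]

/-- the degrees of `F_M / ℚ̄(j)` and `F̄_M / k(j̄)` agree -/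
theorem mlt3_deg_eq :
    Module.finrank ↥(Qb⟮tbJ M⟯) ↥(modularFunctionFieldBar M)
      = Module.finrank ↥((IsLocalRing.ResidueField ↥𝔓.P)⟮(t3aBase 𝔓 M hM).res
          ⟨tbJ M, tbJ_mem_tbOvQ⟩⟯) ↥(tbBarF 𝔓 M) := by
  rw [t3aBase_res_tbJ 𝔓 M hM, tbq_finrank_bar (t3aOK 𝔓 M hM) hM]
  exact Fermat.Agent.S24Lib.finrank_jBar M

/-- **an automorphism which maps `j` to `j(q^D)` and whose inverse maps `j` to `j(q^{D'})`
preserves the Gauss ring and induces an automorphism of the reduced function field** -/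
theorem mlt3_exists_bar_modular
    (σ : ↥(modularFunctionFieldBar M) ≃ₐ[Qb] ↥(modularFunctionFieldBar M))
    (D D' : ℕ) (hD : D ∣ M) (hD' : D' ∣ M) (hσ : σ (tbJ M) = t2wJd Qb M D hD)
    (hσ' : σ.symm (tbJ M) = t2wJd Qb M D' hD') :
    ∃ (hOv : ∀ f ∈ (t3aBase 𝔓 M hM).Ov, σ f ∈ (t3aBase 𝔓 M hM).Ov)
      (σb : ↥(tbBarF 𝔓 M) ≃ₐ[IsLocalRing.ResidueField ↥𝔓.P] ↥(tbBarF 𝔓 M)),
      (∀ f ∈ (t3aBase 𝔓 M hM).Ov, σ.symm f ∈ (t3aBase 𝔓 M hM).Ov) ∧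
      ∀ (f : ↥(modularFunctionFieldBar M)) (hf : f ∈ (t3aBase 𝔓 M hM).Ov),
        σb ((t3aBase 𝔓 M hM).res ⟨f, hf⟩) = (t3aBase 𝔓 M hM).res ⟨σ f, hOv f hf⟩ := by
  have hgen : IsFunctionFieldGen Qb ↥(modularFunctionFieldBar M) (tbJ M) :=
    Fermat.Agent.S24Lib.isFunctionFieldGen_jBar M
  haveI := hgen.finite
  have hxb : Transcendental (IsLocalRing.ResidueField ↥𝔓.P)
      ((t3aBase 𝔓 M hM).res ⟨tbJ M, tbJ_mem_tbOvQ⟩) := by
    rw [t3aBase_res_tbJ 𝔓 M hM]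
    exact (tbq_bar_isFunctionFieldGen 𝔓 M).transcendental
  have h1 : σ (tbJ M) ∈ (t3aBase 𝔓 M hM).Ov := by rw [hσ]; exact mlt3_jd_mem_Ov 𝔓 M hM D hD
  have h2 : σ.symm (tbJ M) ∈ (t3aBase 𝔓 M hM).Ov := by
    rw [hσ']; exact mlt3_jd_mem_Ov 𝔓 M hM D' hD'
  have h1b : Transcendental (IsLocalRing.ResidueField ↥𝔓.P)
      ((t3aBase 𝔓 M hM).res ⟨σ (tbJ M), h1⟩) := by
    have := mlt3_res_jd_transcendental 𝔓 M hM D hD
    rwa [(t3aBase 𝔓 M hM).res_congr h1 hσ]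
  have h2b : Transcendental (IsLocalRing.ResidueField ↥𝔓.P)
      ((t3aBase 𝔓 M hM).res ⟨σ.symm (tbJ M), h2⟩) := by
    have := mlt3_res_jd_transcendental 𝔓 M hM D' hD'
    rwa [(t3aBase 𝔓 M hM).res_congr h2 hσ']
  exact mlt3_exists_bar (ihbt_unit_modular 𝔓 M hM) tbJ_mem_tbOvQ hxb (mlt3_deg_eq 𝔓 M hM) σ
    h1 h1b h2 h2b

end Gen

end

end Fermat.Agent.MLT
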