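/-
MLT / L1 / Three (helper4), part 10: **the values of `Ḡ = j̄₃ / j̄³` and `H̄ = j̄ / j̄₃³` at the
reductions of the cusps with `3 ∤ c`** (level `K = 9 N''`, rigid).

A `g̃`-fixed place `Q̃` of `F_K` has `ord j < 0`, `ord G > 0`, `ord (H - 1) > 0`
(`Three/Fixed/Main.lean`).  By the conservation law the residues `Ḡ`, `H̄ - 1` vanish at the reduction
of `Q̃`: a pole of `G` is a zero of `j`, a pole of `H` is a zero of `j₃`, where `j` is integral (modular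
polynomial), and such places do not reduce to a pole of `j̄`.
-/
import Mathlib
import Fermat.Agent.Lib.MLT.L1.Three.Eval
import Fermat.Agent.Lib.MLT.L1.Three.Red
import Fermat.Agent.Lib.MLT.L1.Three.Fixed.Main
import Fermat.Agent.Lib.Mazur.Red.R5.Inst

set_option autoImplicit false
set_option linter.unusedSectionVars false
set_option linter.unusedVariables false
set_option linter.style.haveILetI false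
set_option synthInstance.maxHeartbeats 400000

namespace Fermat.Agent.MLT

open ModularCurve Fermat.Agent.T1 Fermat.Agent.T2 Fermat.Agent.T3 Fermat.Agent.Ihara
  Fermat.Agent.S24Lib Fermat.Agent.T1.KMod HahnSeries IntermediateField AlgebraicCurve
  Fermat.Agent.Curve Fermat.Agent.Curve.PlaceAux Fermat.Agent.TW Fermat.Agent.Mazur

local notation "Qb" => AlgebraicClosure ℚ

noncomputable section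

/-- `j̄ ≠ j̄(q³)³` as series -/
theorem mlt3_series_ne_cube (R : Type*) [Field R] :
    jqModC R ≠ qExpand R 3 (jqModC R) ^ 3 := by
  intro h2
  have hne : qExpand R 3 (jqModC R) ≠ 0 := by
    intro h4
    have h3 := S24Lib.order_qExpand 3 (jqModC_ne_zero_of_nontrivial R)
    rw [h4, HahnSeries.order_zero, S24Lib.order_jqModC] at h3
    omega
  have h3 := congrArg HahnSeries.order h2
  rw [S24Lib.order_jqModC, HahnSeries.order_pow,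
    S24Lib.order_qExpand 3 (jqModC_ne_zero_of_nontrivial R), S24Lib.order_jqModC] at h3
  simp at h3

theorem mlt3_eq_cube_of {F : Type*} [Field F] (X Y : F) (hY : Y ≠ 0)
    (h : X * (Y ^ 3)⁻¹ - 1 = 0) : X = Y ^ 3 := by
  have h3 := pow_ne_zero 3 hY
  have h1 := sub_eq_zero.mp h
  field_simp at h1
  exact h1

section Level

variable (𝔓 : FFPlace) (N'' : ℕ) [NeZero N''] (hK : ¬ 𝔓.p ∣ N'' * 3 * 3)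

theorem mlt3_h49 : 4 ∣ N'' * 3 * 3 ∨ 9 ∣ N'' * 3 * 3 := Or.inr ⟨N'', by ring⟩

theorem mlt3_Jb_eq_tbJ : mlt3Jb Qb N'' = tbJ (N'' * 3 * 3) := Subtype.ext rfl

theorem mlt3_J3b_eq_beta :
    mlt3J3b Qb N'' = heckeBetaBar Qb (N'' * 3) 3 (tbJ (N'' * 3)) := Subtype.ext rfl

theorem mlt3_Jb_mem_Ov : mlt3Jb Qb N'' ∈ (t3aBase 𝔓 (N'' * 3 * 3) hK).Ov := by
  rw [mlt3_Jb_eq_tbJ]
  exact tbJ_mem_tbOvQ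

theorem mlt3_Jb_inv_mem_Ov : (mlt3Jb Qb N'')⁻¹ ∈ (t3aBase 𝔓 (N'' * 3 * 3) hK).Ov := by
  rw [mlt3_Jb_eq_tbJ]
  exact (t3a_good_modular 𝔓 (N'' * 3 * 3) (mlt3_h49 N'') hK).hxiO

theorem mlt3_J3b_mem_Ov : mlt3J3b Qb N'' ∈ (t3aBase 𝔓 (N'' * 3 * 3) hK).Ov :=
  mlt3_jd_mem_Ov 𝔓 (N'' * 3 * 3) hK 3 (mlt3_three_dvd_K N'')

theorem mlt3_coe_res_J3b :
    (((t3aBase 𝔓 (N'' * 3 * 3) hK).res ⟨mlt3J3b Qb N'', mlt3_J3b_mem_Ov 𝔓 N'' hK⟩ :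
        ↥(tbBarF 𝔓 (N'' * 3 * 3))) : LaurentSeries (IsLocalRing.ResidueField ↥𝔓.P))
      = qExpand (IsLocalRing.ResidueField ↥𝔓.P) 3 (jqModC (IsLocalRing.ResidueField ↥𝔓.P)) :=
  mlt3_coe_res_jd 𝔓 (N'' * 3 * 3) hK 3 (mlt3_three_dvd_K N'')

theorem mlt3_coe_res_Jb :
    (((t3aBase 𝔓 (N'' * 3 * 3) hK).res ⟨mlt3Jb Qb N'', mlt3_Jb_mem_Ov 𝔓 N'' hK⟩ :
        ↥(tbBarF 𝔓 (N'' * 3 * 3))) : LaurentSeries (IsLocalRing.ResidueField ↥𝔓.P))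
      = jqModC (IsLocalRing.ResidueField ↥𝔓.P) := by
  have h := t3aBase_res_tbJ 𝔓 (N'' * 3 * 3) hK
  have h1 : (t3aBase 𝔓 (N'' * 3 * 3) hK).res ⟨mlt3Jb Qb N'', mlt3_Jb_mem_Ov 𝔓 N'' hK⟩
      = (t3aBase 𝔓 (N'' * 3 * 3) hK).res ⟨tbJ (N'' * 3 * 3), tbJ_mem_tbOvQ⟩ := by
    congr 1
  rw [h1, h]
  rfl

theorem mlt3_res_J3b_ne_zero :
    (t3aBase 𝔓 (N'' * 3 * 3) hK).res ⟨mlt3J3b Qb N'', mlt3_J3b_mem_Ov 𝔓 N'' hK⟩ ≠ 0 := by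
  intro h
  have h1 := mlt3_coe_res_J3b 𝔓 N'' hK
  rw [h] at h1
  have h3 := S24Lib.order_qExpand 3 (jqModC_ne_zero_of_nontrivial (IsLocalRing.ResidueField ↥𝔓.P))
  rw [← h1, S24Lib.order_jqModC] at h3
  have h4 : ((0 : ↥(tbBarF 𝔓 (N'' * 3 * 3))) : LaurentSeries (IsLocalRing.ResidueField ↥𝔓.P)) = 0 :=
    rfl
  rw [h4, HahnSeries.order_zero] at h3
  omega

theorem mlt3_J3b_inv_mem_Ov : (mlt3J3b Qb N'')⁻¹ ∈ (t3aBase 𝔓 (N'' * 3 * 3) hK).Ov :=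
  ihbt_unit_modular 𝔓 (N'' * 3 * 3) hK _ (mlt3_J3b_mem_Ov 𝔓 N'' hK) (mlt3_res_J3b_ne_zero 𝔓 N'' hK)

end Level


section Eval

variable (𝔓 : FFPlace) (N'' : ℕ) [NeZero N''] (hK : ¬ 𝔓.p ∣ N'' * 3 * 3)

theorem mlt3_Gb_mem_Ov : mlt3Gb Qb N'' ∈ (t3aBase 𝔓 (N'' * 3 * 3) hK).Ov :=
  (mlt3_res_quot (t3aBase 𝔓 (N'' * 3 * 3) hK) (mlt3_J3b_mem_Ov 𝔓 N'' hK) (mlt3_Jb_mem_Ov 𝔓 N'' hK)
    (mlt3_Jb_inv_mem_Ov 𝔓 N'' hK) (mlt3_Jb_ne_zero Qb N'')).1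

theorem mlt3_res_Gb :
    (t3aBase 𝔓 (N'' * 3 * 3) hK).res ⟨mlt3Gb Qb N'', mlt3_Gb_mem_Ov 𝔓 N'' hK⟩
      = (t3aBase 𝔓 (N'' * 3 * 3) hK).res ⟨mlt3J3b Qb N'', mlt3_J3b_mem_Ov 𝔓 N'' hK⟩
        * (((t3aBase 𝔓 (N'' * 3 * 3) hK).res ⟨mlt3Jb Qb N'', mlt3_Jb_mem_Ov 𝔓 N'' hK⟩) ^ 3)⁻¹ :=
  (mlt3_res_quot (t3aBase 𝔓 (N'' * 3 * 3) hK) (mlt3_J3b_mem_Ov 𝔓 N'' hK) (mlt3_Jb_mem_Ov 𝔓 N'' hK)
    (mlt3_Jb_inv_mem_Ov 𝔓 N'' hK) (mlt3_Jb_ne_zero Qb N'')).2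

theorem mlt3_Hb_mem_Ov : mlt3Hb Qb N'' ∈ (t3aBase 𝔓 (N'' * 3 * 3) hK).Ov :=
  (mlt3_res_quot (t3aBase 𝔓 (N'' * 3 * 3) hK) (mlt3_Jb_mem_Ov 𝔓 N'' hK) (mlt3_J3b_mem_Ov 𝔓 N'' hK)
    (mlt3_J3b_inv_mem_Ov 𝔓 N'' hK) (mlt3_J3b_ne_zero Qb N'')).1

theorem mlt3_res_Hb :
    (t3aBase 𝔓 (N'' * 3 * 3) hK).res ⟨mlt3Hb Qb N'', mlt3_Hb_mem_Ov 𝔓 N'' hK⟩
      = (t3aBase 𝔓 (N'' * 3 * 3) hK).res ⟨mlt3Jb Qb N'', mlt3_Jb_mem_Ov 𝔓 N'' hK⟩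
        * (((t3aBase 𝔓 (N'' * 3 * 3) hK).res ⟨mlt3J3b Qb N'', mlt3_J3b_mem_Ov 𝔓 N'' hK⟩) ^ 3)⁻¹ :=
  (mlt3_res_quot (t3aBase 𝔓 (N'' * 3 * 3) hK) (mlt3_Jb_mem_Ov 𝔓 N'' hK) (mlt3_J3b_mem_Ov 𝔓 N'' hK)
    (mlt3_J3b_inv_mem_Ov 𝔓 N'' hK) (mlt3_J3b_ne_zero Qb N'')).2

theorem mlt3_Hb_sub_one_mem_Ov : mlt3Hb Qb N'' - 1 ∈ (t3aBase 𝔓 (N'' * 3 * 3) hK).Ov :=
  sub_mem (mlt3_Hb_mem_Ov 𝔓 N'' hK) (one_mem _)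

theorem mlt3_res_Hb_sub_one :
    (t3aBase 𝔓 (N'' * 3 * 3) hK).res ⟨mlt3Hb Qb N'' - 1, mlt3_Hb_sub_one_mem_Ov 𝔓 N'' hK⟩
      = (t3aBase 𝔓 (N'' * 3 * 3) hK).res ⟨mlt3Hb Qb N'', mlt3_Hb_mem_Ov 𝔓 N'' hK⟩ - 1 := by
  have h : (⟨mlt3Hb Qb N'' - 1, mlt3_Hb_sub_one_mem_Ov 𝔓 N'' hK⟩ :
      ↥(t3aBase 𝔓 (N'' * 3 * 3) hK).Ov) = ⟨mlt3Hb Qb N'', mlt3_Hb_mem_Ov 𝔓 N'' hK⟩ - 1 := rfl
  rw [h, map_sub, map_one]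

theorem mlt3_res_Jb_ne_zero :
    (t3aBase 𝔓 (N'' * 3 * 3) hK).res ⟨mlt3Jb Qb N'', mlt3_Jb_mem_Ov 𝔓 N'' hK⟩ ≠ 0 := by
  intro h
  have h1 := mlt3_coe_res_Jb 𝔓 N'' hK
  rw [h] at h1
  exact jqModC_ne_zero_of_nontrivial (IsLocalRing.ResidueField ↥𝔓.P) h1.symm

theorem mlt3_res_Gb_ne_zero :
    (t3aBase 𝔓 (N'' * 3 * 3) hK).res ⟨mlt3Gb Qb N'', mlt3_Gb_mem_Ov 𝔓 N'' hK⟩ ≠ 0 := by
  rw [mlt3_res_Gb]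
  exact mul_ne_zero (mlt3_res_J3b_ne_zero 𝔓 N'' hK)
    (inv_ne_zero (pow_ne_zero 3 (mlt3_res_Jb_ne_zero 𝔓 N'' hK)))

theorem mlt3_res_Hb_sub_one_ne_zero :
    (t3aBase 𝔓 (N'' * 3 * 3) hK).res ⟨mlt3Hb Qb N'' - 1, mlt3_Hb_sub_one_mem_Ov 𝔓 N'' hK⟩ ≠ 0 := by
  rw [mlt3_res_Hb_sub_one, mlt3_res_Hb]
  intro h
  have h2 : (t3aBase 𝔓 (N'' * 3 * 3) hK).res ⟨mlt3Jb Qb N'', mlt3_Jb_mem_Ov 𝔓 N'' hK⟩
      = ((t3aBase 𝔓 (N'' * 3 * 3) hK).res ⟨mlt3J3b Qb N'', mlt3_J3b_mem_Ov 𝔓 N'' hK⟩) ^ 3 :=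
    mlt3_eq_cube_of _ _ (mlt3_res_J3b_ne_zero 𝔓 N'' hK) h
  have h4 := congrArg (fun y : ↥(tbBarF 𝔓 (N'' * 3 * 3)) =>
    (y : LaurentSeries (IsLocalRing.ResidueField ↥𝔓.P))) h2
  change ((_ : ↥(tbBarF 𝔓 (N'' * 3 * 3))) : LaurentSeries (IsLocalRing.ResidueField ↥𝔓.P))
    = ((_ : ↥(tbBarF 𝔓 (N'' * 3 * 3))) : LaurentSeries (IsLocalRing.ResidueField ↥𝔓.P)) at h4
  rw [mlt3_coe_res_Jb] at h4
  have h5 : ((((t3aBase 𝔓 (N'' * 3 * 3) hK).res ⟨mlt3J3b Qb N'', mlt3_J3b_mem_Ov 𝔓 N'' hK⟩) ^ 3 :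
      ↥(tbBarF 𝔓 (N'' * 3 * 3))) : LaurentSeries (IsLocalRing.ResidueField ↥𝔓.P))
      = (qExpand (IsLocalRing.ResidueField ↥𝔓.P) 3
          (jqModC (IsLocalRing.ResidueField ↥𝔓.P))) ^ 3 := by
    rw [← mlt3_coe_res_J3b 𝔓 N'' hK]
    rfl
  rw [h5] at h4
  exact mlt3_series_ne_cube _ h4

/-- the places reducing to a pole of `j̄` are not chart places -/
theorem mlt3_not_chart (Q P : Place Qb ↥(modularFunctionFieldBar (N'' * 3 * 3)))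
    (hj : Q.ord (mlt3Jb Qb N'') < 0)
    (hPQ : t3aR (t3a_good_modular 𝔓 (N'' * 3 * 3) (mlt3_h49 N'') hK) P
      = t3aR (t3a_good_modular 𝔓 (N'' * 3 * 3) (mlt3_h49 N'') hK) Q)
    (hP : T3aChartPlace (t3aBase 𝔓 (N'' * 3 * 3) hK) (tbJ (N'' * 3 * 3)) P) : False := by
  haveI : IsAlgClosed (IsLocalRing.ResidueField ↥𝔓.P) := tb_isAlgClosed_residueField 𝔓.P
  have h1 := mlt3_red_chart (t3a_good_modular 𝔓 (N'' * 3 * 3) (mlt3_h49 N'') hK) P hP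
  rw [mlt3_Jb_eq_tbJ] at hj
  have h2 := mlt3_red_pole (t3a_good_modular 𝔓 (N'' * 3 * 3) (mlt3_h49 N'') hK) Q hj
  rw [hPQ] at h1
  omega

/-- **`Ḡ` vanishes at the reduction of a place where `j = ∞`, `G = 0`** -/
theorem mlt3_eval_Gb (Q : Place Qb ↥(modularFunctionFieldBar (N'' * 3 * 3)))
    (hj : Q.ord (mlt3Jb Qb N'') < 0) (hG : 0 < Q.ord (mlt3Gb Qb N'')) :
    0 < (t3aR (t3a_good_modular 𝔓 (N'' * 3 * 3) (mlt3_h49 N'') hK) Q).ord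
      ((t3aBase 𝔓 (N'' * 3 * 3) hK).res ⟨mlt3Gb Qb N'', mlt3_Gb_mem_Ov 𝔓 N'' hK⟩) := by
  haveI : IsAlgClosed (IsLocalRing.ResidueField ↥𝔓.P) := tb_isAlgClosed_residueField 𝔓.P
  refine mlt3_eval_pos (t3a_good_modular 𝔓 (N'' * 3 * 3) (mlt3_h49 N'') hK)
    (mlt3_Gb_mem_Ov 𝔓 N'' hK) (mlt3_res_Gb_ne_zero 𝔓 N'' hK) Q hG ?_
  intro P hPQ
  by_contra hneg
  push Not at hneg
  have h1 := mlt3_Gb_pole Qb N'' P hneg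
  refine mlt3_not_chart 𝔓 N'' hK Q P hj hPQ ⟨0, ?_⟩
  rw [ZeroMemClass.coe_zero, map_zero, sub_zero, ← mlt3_Jb_eq_tbJ, ordGE_iff]
  right
  omega

/-- **`H̄ - 1` vanishes at the reduction of a place where `j = ∞`, `H = 1`** -/
theorem mlt3_eval_Hb (Q : Place Qb ↥(modularFunctionFieldBar (N'' * 3 * 3)))
    (hj : Q.ord (mlt3Jb Qb N'') < 0) (hH : 0 < Q.ord (mlt3Hb Qb N'' - 1)) :
    0 < (t3aR (t3a_good_modular 𝔓 (N'' * 3 * 3) (mlt3_h49 N'') hK) Q).ord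
      ((t3aBase 𝔓 (N'' * 3 * 3) hK).res
        ⟨mlt3Hb Qb N'' - 1, mlt3_Hb_sub_one_mem_Ov 𝔓 N'' hK⟩) := by
  haveI : IsAlgClosed (IsLocalRing.ResidueField ↥𝔓.P) := tb_isAlgClosed_residueField 𝔓.P
  refine mlt3_eval_pos (t3a_good_modular 𝔓 (N'' * 3 * 3) (mlt3_h49 N'') hK)
    (mlt3_Hb_sub_one_mem_Ov 𝔓 N'' hK) (mlt3_res_Hb_sub_one_ne_zero 𝔓 N'' hK) Q hH ?_
  intro P hPQ
  by_contra hneg
  push Not at hneg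
  have h1 := mlt3_Hb_pole Qb N'' P hneg
  refine mlt3_not_chart 𝔓 N'' hK Q P hj hPQ ?_
  apply mlt3_chart_of_isIntegral (t3a_good_modular 𝔓 (N'' * 3 * 3) (mlt3_h49 N'') hK) P
  have hmem := mlt3_mem_comp_of_pos (t3a_good_modular 𝔓 (N'' * 3 * 3) (mlt3_h49 N'') hK) P
    (mlt3J3b Qb N'') h1
  have h0 := mzr5i_modPhi_right (N'' * 3) 3 Nat.prime_three
  exact mzr5i_isIntegral_of_modPhi 3 Nat.prime_three (tbJ (N'' * 3 * 3))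
    (heckeBetaBar Qb (N'' * 3) 3 (tbJ (N'' * 3))) h0
    (⟨mlt3J3b Qb N'', hmem⟩ : ↥(t3aComp (t3a_good_modular 𝔓 (N'' * 3 * 3) (mlt3_h49 N'') hK).gen
      (t3aBase 𝔓 (N'' * 3 * 3) hK) P)) (mlt3_J3b_eq_beta N'')

end Eval

end

end Fermat.Agent.MLT
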