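/-
MLT / L1 / Three (helper4), part 11: **the fixed point lifting with the Kummer generator constructed by
a Lagrange resolvent**.

`σ` an automorphism of order `3` of `F / K`, compatible with the Gauss ring, with reduction `σb`;
`ζ ∈ A` a primitive cube root of unity, `3 ≠ 0` in `k`; `f` with `σ f ≠ f`.  Then one of the resolvents
`f + ζ² σf + ζ σ²f`, `f + ζ σf + ζ² σ²f` is a nonzero eigenvector of `σ`; scaled to a Gauss unit it is a
Kummer generator with a Kummer generator as residue, and `mlt3_fpl` applies: every `σb`-fixed place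
of `Fb` is the reduction of a `σ`-fixed place of `F`.
-/
import Mathlib
import Fermat.Agent.Lib.MLT.L1.Three.Cubic

set_option autoImplicit false
set_option linter.unusedSectionVars false
set_option linter.unusedVariables false
set_option linter.style.haveILetI false

namespace Fermat.Agent.MLT

open AlgebraicCurve IntermediateField Fermat.Agent.Curve Fermat.Agent.Curve.PlaceAux
  Fermat.Agent.T1 Fermat.Agent.T3

variable {K F k Fb : Type*} [Field K] [Field F] [Algebra K F] [Field k] [Field Fb] [Algebra k Fb]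
variable {d : TbBase K F k Fb} {ℓ : ℕ} {x : F}

/-- one of the two Lagrange resolvents is a nonzero eigenvector -/
theorem mlt3_exists_resolvent (σ : F ≃ₐ[K] F) (hσ3 : ∀ f : F, σ (σ (σ f)) = f) (f : F)
    (hf : σ f ≠ f) (ζ : K) (hζ : ζ ^ 2 + ζ + 1 = 0) (h3K : (3 : K) ≠ 0) :
    ∃ (s : F) (ζ' : K), s ≠ 0 ∧ ζ' ^ 2 + ζ' + 1 = 0 ∧ (ζ' = ζ ∨ ζ' = ζ ^ 2) ∧ σ s = ζ' • s := by
  have hζ3 : ζ ^ 3 = 1 := by linear_combination (ζ - 1) * hζ
  have hζ4 : ζ ^ 4 = ζ := by rw [pow_succ, hζ3, one_mul]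
  have hζ0 : ζ ≠ 0 := by
    rintro rfl
    simp at hζ3
  have hζ1 : ζ ≠ 1 := by
    rintro rfl
    apply h3K
    linear_combination hζ
  by_cases h1 : f + ζ ^ 2 • σ f + ζ • σ (σ f) = 0
  · -- the second resolvent
    refine ⟨f + ζ • σ f + ζ ^ 2 • σ (σ f), ζ ^ 2, ?_, ?_, Or.inr rfl, ?_⟩
    · intro h2
      apply hf
      have h3 : (ζ ^ 2 - ζ) • (σ f - σ (σ f)) = 0 := by
        have : (ζ ^ 2 - ζ) • (σ f - σ (σ f))
            = (f + ζ ^ 2 • σ f + ζ • σ (σ f)) - (f + ζ • σ f + ζ ^ 2 • σ (σ f)) := by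
          simp only [sub_smul, smul_sub]
          abel
        rw [this, h1, h2, sub_zero]
      have hne : ζ ^ 2 - ζ ≠ 0 := by
        intro h4
        have h5 : ζ * (ζ - 1) = 0 := by linear_combination h4
        rcases mul_eq_zero.mp h5 with h6 | h6
        · exact hζ0 h6
        · exact hζ1 (by linear_combination h6)
      have h4 : σ f - σ (σ f) = 0 := (smul_eq_zero.mp h3).resolve_left hne
      have h5 : σ f = σ (σ f) := sub_eq_zero.mp h4
      exact (σ.injective h5.symm)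
    · linear_combination (ζ ^ 2 - ζ + 1) * hζ
    · rw [map_add, map_add, map_smul, map_smul, hσ3, smul_add, smul_add, smul_smul, smul_smul]
      have e1 : ζ ^ 2 * ζ = 1 := by rw [← pow_succ]; exact hζ3
      have e2 : ζ ^ 2 * ζ ^ 2 = ζ := by rw [← pow_add]; exact hζ4
      rw [e1, e2, one_smul]
      abel
  · refine ⟨f + ζ ^ 2 • σ f + ζ • σ (σ f), ζ, h1, hζ, Or.inl rfl, ?_⟩
    rw [map_add, map_add, map_smul, map_smul, hσ3, smul_add, smul_add, smul_smul, smul_smul]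
    have e1 : ζ * ζ ^ 2 = 1 := by rw [← pow_succ']; exact hζ3
    have e2 : ζ * ζ = ζ ^ 2 := (pow_two ζ).symm
    rw [e1, e2, one_smul]
    abel


section FPL

variable [IsAlgClosed K] [IsAlgClosed k]

/-- **fixed point lifting**, the Kummer generator being a Lagrange resolvent -/
theorem mlt3_fpl_resolvent (hg : T3aGood d ℓ x) (σ : F ≃ₐ[K] F) (σb : Fb ≃ₐ[k] Fb)
    (hOv : ∀ f : F, f ∈ d.Ov → σ f ∈ d.Ov)
    (hres : ∀ (f : F) (hf : f ∈ d.Ov), d.res ⟨σ f, hOv f hf⟩ = σb (d.res ⟨f, hf⟩))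
    (hσ3 : ∀ f : F, σ (σ (σ f)) = f) (hσb3 : ∀ f : Fb, σb (σb (σb f)) = f)
    (f : F) (hf : σ f ≠ f) (ζ : ↥d.A) (hζ : (ζ : K) ^ 2 + (ζ : K) + 1 = 0)
    (h3K : (3 : K) ≠ 0) (h3k : (3 : k) ≠ 0)
    (Q : Place k Fb) (hQ : σb • Q = Q) :
    ∃ P : Place K F, σ • P = P ∧ t3aR hg P = Q := by
  obtain ⟨s, ζ', hs0, hζ', hcases, hσs⟩ := mlt3_exists_resolvent σ hσ3 f hf (ζ : K) hζ h3K
  -- `ζ'` lies in `A`
  obtain ⟨ζA, hζA⟩ : ∃ ζA : ↥d.A, (ζA : K) = ζ' := by
    rcases hcases with h | h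
    · exact ⟨ζ, h.symm⟩
    · exact ⟨ζ ^ 2, by rw [h]; rfl⟩
  -- scale `s` to a Gauss unit
  obtain ⟨c, hc0, hcs, hcres⟩ := d.normalize s hs0
  have hσcs : σ (c • s) = ζ' • (c • s) := by
    rw [map_smul, hσs, smul_comm]
  have hζ0 : ζ' ≠ 0 := by
    rintro rfl
    simp at hζ'
  -- the residue of `ζ'`
  have hζb : (d.resA ζA) ^ 2 + d.resA ζA + 1 = 0 := by
    have h1 : (ζA ^ 2 + ζA + 1 : ↥d.A) = 0 := by
      apply Subtype.ext
      show ((ζA : K)) ^ 2 + (ζA : K) + 1 = 0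
      rw [hζA]
      exact hζ'
    have h2 := congrArg d.resA h1
    rwa [map_add, map_add, map_pow, map_one, map_zero] at h2
  have hζb1 : d.resA ζA ≠ 1 := by
    intro h1
    apply h3k
    rw [h1] at hζb
    linear_combination hζb
  refine mlt3_fpl hg σ σb hOv hres hσ3 hσb3 (c • s) hcs hcres ζ' hζ0 hσcs (d.resA ζA) hζb1 ?_ Q hQ
  rw [← hres (c • s) hcs]
  have h1 := d.res_smul' ζA hcs
  rw [← h1]
  exact d.res_congr _ (by rw [hσcs, hζA])

end FPL

end Fermat.Agent.MLT
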