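/-
MLT / L1 / Three (helper4), part 12: **the modular instance of the cubic lemma**: the reductions
`ḡ`, `w̄₃`, `w̄₉` of `g̃`, `w₃`, `w₉` at a place `𝔓` prime to the level `K = 9 N''`, and their properties:

* `ḡ` has order `3` and fixes `F̄_N`, `N = 3 N''`;
* at a `ḡ`-fixed place of `F̄_K` the functions `Ḡ = j̄₃ / j̄³` and `H̄ - 1 = j̄ / j̄₃³ - 1` vanish;
* `w̄₃ H̄ = Ḡ`;
* `B̄₃ = w̄₉ ∘ ι ∘ w̄₃`.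
-/
import Mathlib
import Fermat.Agent.Lib.MLT.L1.Three.EvalMod
import Fermat.Agent.Lib.MLT.L1.Three.Kummer
import Fermat.Agent.Lib.MLT.L1.Nine.Inst
import Fermat.Agent.Lib.Delta.Hecke.Gauss

set_option autoImplicit false
set_option linter.unusedSectionVars false
set_option linter.unusedVariables false
set_option linter.style.haveILetI false
set_option synthInstance.maxHeartbeats 400000

namespace Fermat.Agent.MLT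

open ModularCurve Fermat.Agent.T1 Fermat.Agent.T2 Fermat.Agent.T3 Fermat.Agent.Ihara
  Fermat.Agent.S24Lib Fermat.Agent.T1.KMod HahnSeries IntermediateField AlgebraicCurve
  Fermat.Agent.Curve Fermat.Agent.Curve.PlaceAux Fermat.Agent.TW Fermat.Agent.Mazur
  Fermat.Agent.Delta

local notation "Qb" => AlgebraicClosure ℚ

noncomputable section

attribute [local instance 5000] dlhAlgK

/-! ### A primitive cube root of unity -/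

theorem mlt3_exists_zeta (𝔓 : FFPlace) :
    ∃ ζ : ↥𝔓.P, ((ζ : ↥𝔓.P) : Qb) ^ 2 + ((ζ : ↥𝔓.P) : Qb) + 1 = 0 := by
  obtain ⟨z, hz⟩ := IsAlgClosed.exists_root (Polynomial.X ^ 2 + Polynomial.X + 1 : Polynomial Qb)
    (by
      have : (Polynomial.X ^ 2 + Polynomial.X + 1 : Polynomial Qb).degree = 2 := by
        compute_degree!
      rw [this]
      norm_num)
  have hz' : z ^ 2 + z + 1 = 0 := by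
    simpa using hz
  have hint : IsIntegral ℤ z := by
    refine ⟨Polynomial.X ^ 2 + Polynomial.X + 1, ?_, ?_⟩
    · monicity!
    · simp [hz']
  have hmem : z ∈ 𝔓.P :=
    t3a_mem_of_isIntegral 𝔓.P (R := ℤ) (fun r => by
      rw [eq_intCast]
      exact intCast_mem _ r) hint
  exact ⟨⟨z, hmem⟩, hz'⟩

theorem mlt3_three_ne_zero_Qb : (3 : Qb) ≠ 0 := by norm_num

theorem mlt3_three_ne_zero_res (𝔓 : FFPlace) (h3 : ¬ 𝔓.p ∣ 3) :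
    (3 : IsLocalRing.ResidueField ↥𝔓.P) ≠ 0 := by
  have := tbq_natCast_ne_zero (𝔓 := 𝔓) (N := 3) h3
  exact_mod_cast this


/-! ### The reduction `ḡ` of `g̃` -/

section G

variable (𝔓 : FFPlace) (N'' : ℕ) [NeZero N''] (hK : ¬ 𝔓.p ∣ N'' * 3 * 3)

theorem mlt3_three_dvd_N : 3 ∣ N'' * 3 := Dvd.intro_left _ rfl

theorem mlt3G_tbJ :
    mlt3G Qb (N'' * 3) (mlt3_three_dvd_N N'') (tbJ (N'' * 3 * 3))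
      = t2wJd Qb (N'' * 3 * 3) 1 (one_dvd _) := by
  rw [mlt3_tbJ_eq]
  exact mlt3G_jd Qb (N'' * 3) (mlt3_three_dvd_N N'') 1 (one_dvd _)

/-- **the reduction `ḡ` of `g̃`** -/
theorem mlt3_exists_gbar :
    ∃ (hOv : ∀ f ∈ (t3aBase 𝔓 (N'' * 3 * 3) hK).Ov,
        mlt3G Qb (N'' * 3) (mlt3_three_dvd_N N'') f ∈ (t3aBase 𝔓 (N'' * 3 * 3) hK).Ov)
      (gb : ↥(tbBarF 𝔓 (N'' * 3 * 3)) ≃ₐ[IsLocalRing.ResidueField ↥𝔓.P] ↥(tbBarF 𝔓 (N'' * 3 * 3))),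
      ∀ (f : ↥(modularFunctionFieldBar (N'' * 3 * 3))) (hf : f ∈ (t3aBase 𝔓 (N'' * 3 * 3) hK).Ov),
        gb ((t3aBase 𝔓 (N'' * 3 * 3) hK).res ⟨f, hf⟩)
          = (t3aBase 𝔓 (N'' * 3 * 3) hK).res
              ⟨mlt3G Qb (N'' * 3) (mlt3_three_dvd_N N'') f, hOv f hf⟩ := by
  have h1 := mlt3G_tbJ N''
  have h2 : (mlt3G Qb (N'' * 3) (mlt3_three_dvd_N N'')).symm (tbJ (N'' * 3 * 3))
      = t2wJd Qb (N'' * 3 * 3) 1 (one_dvd _) := by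
    rw [AlgEquiv.symm_apply_eq, ← mlt3_tbJ_eq, h1, ← mlt3_tbJ_eq]
  obtain ⟨hOv, gb, -, hres⟩ := mlt3_exists_bar_modular 𝔓 (N'' * 3 * 3) hK
    (mlt3G Qb (N'' * 3) (mlt3_three_dvd_N N'')) 1 1 (one_dvd _) (one_dvd _) h1 h2
  exact ⟨hOv, gb, hres⟩

end G


section GProps

variable (𝔓 : FFPlace) (N'' : ℕ) [NeZero N''] (hK : ¬ 𝔓.p ∣ N'' * 3 * 3)
  (hOv : ∀ f ∈ (t3aBase 𝔓 (N'' * 3 * 3) hK).Ov,
    mlt3G Qb (N'' * 3) (mlt3_three_dvd_N N'') f ∈ (t3aBase 𝔓 (N'' * 3 * 3) hK).Ov)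
  (gb : ↥(tbBarF 𝔓 (N'' * 3 * 3)) ≃ₐ[IsLocalRing.ResidueField ↥𝔓.P] ↥(tbBarF 𝔓 (N'' * 3 * 3)))
  (hres : ∀ (f : ↥(modularFunctionFieldBar (N'' * 3 * 3)))
    (hf : f ∈ (t3aBase 𝔓 (N'' * 3 * 3) hK).Ov),
    gb ((t3aBase 𝔓 (N'' * 3 * 3) hK).res ⟨f, hf⟩)
      = (t3aBase 𝔓 (N'' * 3 * 3) hK).res
          ⟨mlt3G Qb (N'' * 3) (mlt3_three_dvd_N N'') f, hOv f hf⟩)

include hres in
/-- `ḡ` has order `3` -/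
theorem mlt3_gbar_cube (y : ↥(tbBarF 𝔓 (N'' * 3 * 3))) : gb (gb (gb y)) = y := by
  obtain ⟨⟨f, hf⟩, rfl⟩ := (t3aBase 𝔓 (N'' * 3 * 3) hK).res_surj y
  rw [hres f hf, hres _ (hOv f hf), hres _ (hOv _ (hOv f hf))]
  exact ((t3aBase 𝔓 (N'' * 3 * 3) hK).res_congr _
    (mlt3G_cube Qb (N'' * 3) (mlt3_three_dvd_N N'') f))

include hres in
/-- `ḡ` fixes the functions of the level `N = 3 N''` -/
theorem mlt3_gbar_phib (y : ↥(tbBarF 𝔓 (N'' * 3))) :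
    gb (mltl9Phib 𝔓 (N'' * 3) 3 y) = mltl9Phib 𝔓 (N'' * 3) 3 y := by
  have hc := mltl9_compat 𝔓 (N'' * 3) 3 hK
  obtain ⟨⟨f, hf⟩, rfl⟩ := (t3aBase 𝔓 (N'' * 3) (mltl9_not_dvd_left hK)).res_surj y
  rw [← hc.res_map f hf, hres _ (hc.map_mem f hf)]
  exact ((t3aBase 𝔓 (N'' * 3 * 3) hK).res_congr _
    (mlt3G_alpha Qb (N'' * 3) (mlt3_three_dvd_N N'') f))

include hres in
/-- **at a `ḡ`-fixed place, `Ḡ` and `H̄ - 1` vanish** -/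
theorem mlt3_gbar_fixed (hcop : Nat.Coprime 3 N'') (r0 : ℕ) (hr0 : r0.Prime) (hr3 : r0 % 3 = 2)
    (hr0N : r0 ∣ N'') (Q : Place (IsLocalRing.ResidueField ↥𝔓.P) ↥(tbBarF 𝔓 (N'' * 3 * 3)))
    (hQ : gb • Q = Q) :
    0 < Q.ord ((t3aBase 𝔓 (N'' * 3 * 3) hK).res ⟨mlt3Gb Qb N'', mlt3_Gb_mem_Ov 𝔓 N'' hK⟩) ∧
    0 < Q.ord ((t3aBase 𝔓 (N'' * 3 * 3) hK).res
      ⟨mlt3Hb Qb N'' - 1, mlt3_Hb_sub_one_mem_Ov 𝔓 N'' hK⟩) := by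
  haveI : IsAlgClosed (IsLocalRing.ResidueField ↥𝔓.P) := tb_isAlgClosed_residueField 𝔓.P
  obtain ⟨ζ, hζ⟩ := mlt3_exists_zeta 𝔓
  have h3p : ¬ 𝔓.p ∣ 3 := fun h => hK (Dvd.dvd.mul_left h _)
  obtain ⟨P, hP, hPQ⟩ := mlt3_fpl_resolvent
    (t3a_good_modular 𝔓 (N'' * 3 * 3) (mlt3_h49 N'') hK)
    (mlt3G Qb (N'' * 3) (mlt3_three_dvd_N N'')) gb hOv (fun f hf => (hres f hf).symm)
    (mlt3G_cube Qb (N'' * 3) (mlt3_three_dvd_N N''))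
    (mlt3_gbar_cube 𝔓 N'' hK hOv gb hres)
    (t2wJd Qb (N'' * 3 * 3) (N'' * 3 * 3) dvd_rfl)
    (mlt3G_jK_ne Qb (N'' * 3) (mlt3_three_dvd_N N'')) ζ hζ mlt3_three_ne_zero_Qb
    (mlt3_three_ne_zero_res 𝔓 h3p) Q hQ
  obtain ⟨δ, hδ, rfl⟩ := mlt3_fixed_place Qb N'' hcop r0 hr0 hr3 hr0N (mlt3_three_dvd_N N'') P hP
  rw [← hPQ]
  exact ⟨mlt3_eval_Gb 𝔓 N'' hK _ (mlt3_cusp_Jb Qb N'' δ) (mlt3_cusp_Gb Qb N'' δ hδ),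
    mlt3_eval_Hb 𝔓 N'' hK _ (mlt3_cusp_Jb Qb N'' δ) (mlt3_cusp_Hb Qb N'' δ hδ)⟩

end GProps


/-! ### The reductions `w̄₃`, `w̄₉` of the Atkin–Lehner involutions -/

section W

variable (𝔓 : FFPlace) (N'' : ℕ) [NeZero N''] (hcop : Nat.Coprime 3 N'')

theorem mlt3_nine_dvd_K : 9 ∣ N'' * 3 * 3 := ⟨N'', by ring⟩

theorem mlt3W3_j1 :
    mlt3W3 Qb N'' hcop (t2wJd Qb (N'' * 3) 1 (one_dvd _))
      = t2wJd Qb (N'' * 3) 3 (mlt3_three_dvd_N N'') := by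
  have h := mlt3W3_jd Qb N'' hcop (d := 1) (e := 1) (e' := 3) (one_dvd N'') (by norm_num)
  rw [← Fermat.Agent.T4.t4w_jd_congr Qb (N'' * 3) (one_dvd _) _ (by norm_num : 1 = 1 * 1)] at h
  rw [h]

theorem mlt3W3_j3 :
    mlt3W3 Qb N'' hcop (t2wJd Qb (N'' * 3) 3 (mlt3_three_dvd_N N''))
      = t2wJd Qb (N'' * 3) 1 (one_dvd _) := by
  rw [← mlt3W3_j1 N'' hcop, mlt3W3_W3]

theorem mlt3W9_j1 :
    mlt3W9 Qb N'' hcop (t2wJd Qb (N'' * 3 * 3) 1 (one_dvd _))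
      = t2wJd Qb (N'' * 3 * 3) 9 (mlt3_nine_dvd_K N'') := by
  have h := mlt3W9_jd Qb N'' hcop (d := 1) (e := 1) (e' := 9) (one_dvd N'') (by norm_num)
  rw [← Fermat.Agent.T4.t4w_jd_congr Qb (N'' * 3 * 3) (one_dvd _) _ (by norm_num : 1 = 1 * 1)] at h
  rw [h]

variable (hN : ¬ 𝔓.p ∣ N'' * 3) (hK : ¬ 𝔓.p ∣ N'' * 3 * 3)

/-- **the reduction `w̄₃` of `w₃`** -/
theorem mlt3_exists_w3bar :
    ∃ (hOv : ∀ f ∈ (t3aBase 𝔓 (N'' * 3) hN).Ov,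
        mlt3W3 Qb N'' hcop f ∈ (t3aBase 𝔓 (N'' * 3) hN).Ov)
      (wb : ↥(tbBarF 𝔓 (N'' * 3)) ≃ₐ[IsLocalRing.ResidueField ↥𝔓.P] ↥(tbBarF 𝔓 (N'' * 3))),
      ∀ (f : ↥(modularFunctionFieldBar (N'' * 3))) (hf : f ∈ (t3aBase 𝔓 (N'' * 3) hN).Ov),
        wb ((t3aBase 𝔓 (N'' * 3) hN).res ⟨f, hf⟩)
          = (t3aBase 𝔓 (N'' * 3) hN).res ⟨mlt3W3 Qb N'' hcop f, hOv f hf⟩ := by
  have h1 : mlt3W3 Qb N'' hcop (tbJ (N'' * 3))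
      = t2wJd Qb (N'' * 3) 3 (mlt3_three_dvd_N N'') := by
    rw [mlt3_tbJ_eq]
    exact mlt3W3_j1 N'' hcop
  have h2 : (mlt3W3 Qb N'' hcop).symm (tbJ (N'' * 3))
      = t2wJd Qb (N'' * 3) 3 (mlt3_three_dvd_N N'') := by
    rw [mlt3W3_symm]
    exact h1
  obtain ⟨hOv, wb, -, hres⟩ := mlt3_exists_bar_modular 𝔓 (N'' * 3) hN
    (mlt3W3 Qb N'' hcop) 3 3 (mlt3_three_dvd_N N'') (mlt3_three_dvd_N N'') h1 h2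
  exact ⟨hOv, wb, hres⟩

/-- **the reduction `w̄₉` of `w₉`** -/
theorem mlt3_exists_w9bar :
    ∃ (hOv : ∀ f ∈ (t3aBase 𝔓 (N'' * 3 * 3) hK).Ov,
        mlt3W9 Qb N'' hcop f ∈ (t3aBase 𝔓 (N'' * 3 * 3) hK).Ov)
      (wb : ↥(tbBarF 𝔓 (N'' * 3 * 3)) ≃ₐ[IsLocalRing.ResidueField ↥𝔓.P] ↥(tbBarF 𝔓 (N'' * 3 * 3))),
      ∀ (f : ↥(modularFunctionFieldBar (N'' * 3 * 3)))
        (hf : f ∈ (t3aBase 𝔓 (N'' * 3 * 3) hK).Ov),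
        wb ((t3aBase 𝔓 (N'' * 3 * 3) hK).res ⟨f, hf⟩)
          = (t3aBase 𝔓 (N'' * 3 * 3) hK).res ⟨mlt3W9 Qb N'' hcop f, hOv f hf⟩ := by
  have h1 : mlt3W9 Qb N'' hcop (tbJ (N'' * 3 * 3))
      = t2wJd Qb (N'' * 3 * 3) 9 (mlt3_nine_dvd_K N'') := by
    rw [mlt3_tbJ_eq]
    exact mlt3W9_j1 N'' hcop
  have h2 : (mlt3W9 Qb N'' hcop).symm (tbJ (N'' * 3 * 3))
      = t2wJd Qb (N'' * 3 * 3) 9 (mlt3_nine_dvd_K N'') := by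
    rw [mlt3W9_symm]
    exact h1
  obtain ⟨hOv, wb, -, hres⟩ := mlt3_exists_bar_modular 𝔓 (N'' * 3 * 3) hK
    (mlt3W9 Qb N'' hcop) 9 9 (mlt3_nine_dvd_K N'') (mlt3_nine_dvd_K N'') h1 h2
  exact ⟨hOv, wb, hres⟩

end W


/-! ### The bundle -/

section Bundle

variable (𝔓 : FFPlace) (N'' : ℕ) [NeZero N''] (hcop : Nat.Coprime 3 N'')
  (hK : ¬ 𝔓.p ∣ N'' * 3 * 3)

/-- `ι` of a residue is the residue of `α` -/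
theorem mlt3_phib_res (f : ↥(modularFunctionFieldBar (N'' * 3)))
    (hf : f ∈ (t3aBase 𝔓 (N'' * 3) (mltl9_not_dvd_left hK)).Ov)
    (f' : ↥(modularFunctionFieldBar (N'' * 3 * 3))) (hf' : f' ∈ (t3aBase 𝔓 (N'' * 3 * 3) hK).Ov)
    (h : heckeAlphaBar Qb (N'' * 3) 3 f = f') :
    mltl9Phib 𝔓 (N'' * 3) 3 ((t3aBase 𝔓 (N'' * 3) (mltl9_not_dvd_left hK)).res ⟨f, hf⟩)
      = (t3aBase 𝔓 (N'' * 3 * 3) hK).res ⟨f', hf'⟩ := by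
  subst h
  exact ((mltl9_compat 𝔓 (N'' * 3) 3 hK).res_map f hf).symm

include hcop hK in
/-- **the modular instance of the hypotheses of the cubic lemma** -/
theorem mlt3_inst (r0 : ℕ) (hr0 : r0.Prime) (hr3 : r0 % 3 = 2) (hr0N : r0 ∣ N'') :
    ∃ (gb : ↥(tbBarF 𝔓 (N'' * 3 * 3)) ≃ₐ[IsLocalRing.ResidueField ↥𝔓.P]
        ↥(tbBarF 𝔓 (N'' * 3 * 3)))
      (w3 : ↥(tbBarF 𝔓 (N'' * 3)) ≃ₐ[IsLocalRing.ResidueField ↥𝔓.P] ↥(tbBarF 𝔓 (N'' * 3)))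
      (w9 : ↥(tbBarF 𝔓 (N'' * 3 * 3)) ≃ₐ[IsLocalRing.ResidueField ↥𝔓.P]
        ↥(tbBarF 𝔓 (N'' * 3 * 3)))
      (G H : ↥(tbBarF 𝔓 (N'' * 3))),
      (∀ y : ↥(tbBarF 𝔓 (N'' * 3)),
        gb (mltl9Phib 𝔓 (N'' * 3) 3 y) = mltl9Phib 𝔓 (N'' * 3) 3 y) ∧
      (∀ f : ↥(tbBarF 𝔓 (N'' * 3 * 3)), gb (gb (gb f)) = f) ∧
      w3 H = G ∧
      (∀ Q : Place (IsLocalRing.ResidueField ↥𝔓.P) ↥(tbBarF 𝔓 (N'' * 3 * 3)), gb • Q = Q →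
        0 < Q.ord (mltl9Phib 𝔓 (N'' * 3) 3 G) ∧ 0 < Q.ord (mltl9Phib 𝔓 (N'' * 3) 3 H - 1)) ∧
      (∀ u : ↥(tbBarF 𝔓 (N'' * 3)),
        dlhBetaC (IsLocalRing.ResidueField ↥𝔓.P) (N'' * 3) 3 u
          = w9 (mltl9Phib 𝔓 (N'' * 3) 3 (w3 u))) := by
  have hN : ¬ 𝔓.p ∣ N'' * 3 := mltl9_not_dvd_left hK
  obtain ⟨hOvg, gb, hresg⟩ := mlt3_exists_gbar 𝔓 N'' hK
  obtain ⟨hOv3, w3, hres3⟩ := mlt3_exists_w3bar 𝔓 N'' hcop hN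
  obtain ⟨hOv9, w9, hres9⟩ := mlt3_exists_w9bar 𝔓 N'' hcop hK
  -- the residues of `j`, `j₃` at the level `N`
  have hj1 : t2wJd Qb (N'' * 3) 1 (one_dvd _) ∈ (t3aBase 𝔓 (N'' * 3) hN).Ov :=
    mlt3_jd_mem_Ov 𝔓 (N'' * 3) hN 1 (one_dvd _)
  have hj3 : t2wJd Qb (N'' * 3) 3 (mlt3_three_dvd_N N'') ∈ (t3aBase 𝔓 (N'' * 3) hN).Ov :=
    mlt3_jd_mem_Ov 𝔓 (N'' * 3) hN 3 (mlt3_three_dvd_N N'')
  obtain ⟨jb, hjb⟩ : ∃ jb : ↥(tbBarF 𝔓 (N'' * 3)),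
      jb = (t3aBase 𝔓 (N'' * 3) hN).res ⟨_, hj1⟩ := ⟨_, rfl⟩
  obtain ⟨j3b, hj3b⟩ : ∃ j3b : ↥(tbBarF 𝔓 (N'' * 3)),
      j3b = (t3aBase 𝔓 (N'' * 3) hN).res ⟨_, hj3⟩ := ⟨_, rfl⟩
  -- `w̄₃` swaps them
  have hw1 : w3 jb = j3b := by
    rw [hjb, hj3b, hres3 _ hj1]
    exact (t3aBase 𝔓 (N'' * 3) hN).res_congr _ (mlt3W3_j1 N'' hcop)
  have hw3 : w3 j3b = jb := by
    rw [hjb, hj3b, hres3 _ hj3]
    exact (t3aBase 𝔓 (N'' * 3) hN).res_congr _ (mlt3W3_j3 N'' hcop)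
  -- `ι` of them
  have hι1 : mltl9Phib 𝔓 (N'' * 3) 3 jb
      = (t3aBase 𝔓 (N'' * 3 * 3) hK).res ⟨mlt3Jb Qb N'', mlt3_Jb_mem_Ov 𝔓 N'' hK⟩ := by
    rw [hjb]
    refine mlt3_phib_res 𝔓 N'' hK _ hj1 _ _ ?_
    rw [mlt3_alpha_jd', mlt3_Jb_eq_tbJ, mlt3_tbJ_eq]
  have hι3 : mltl9Phib 𝔓 (N'' * 3) 3 j3b
      = (t3aBase 𝔓 (N'' * 3 * 3) hK).res ⟨mlt3J3b Qb N'', mlt3_J3b_mem_Ov 𝔓 N'' hK⟩ := by
    rw [hj3b]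
    refine mlt3_phib_res 𝔓 N'' hK _ hj3 _ _ ?_
    rw [mlt3_alpha_jd']
    rfl
  refine ⟨gb, w3, w9, j3b * (jb ^ 3)⁻¹, jb * (j3b ^ 3)⁻¹,
    mlt3_gbar_phib 𝔓 N'' hK hOvg gb hresg, mlt3_gbar_cube 𝔓 N'' hK hOvg gb hresg, ?_, ?_, ?_⟩
  · rw [map_mul, map_inv₀, map_pow, hw1, hw3]
  · intro Q hQ
    have h := mlt3_gbar_fixed 𝔓 N'' hK hOvg gb hresg hcop r0 hr0 hr3 hr0N Q hQ
    rw [mlt3_res_Gb, mlt3_res_Hb_sub_one, mlt3_res_Hb] at h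
    rw [map_mul, map_inv₀, map_pow, map_mul, map_inv₀, map_pow, hι1, hι3]
    exact h
  · intro u
    obtain ⟨⟨f, hf⟩, rfl⟩ := (t3aBase 𝔓 (N'' * 3) hN).res_surj u
    rw [hres3 f hf]
    have hc := mltl9_compat 𝔓 (N'' * 3) 3 hK
    rw [← hc.res_map _ (hOv3 f hf), hres9 _ (hc.map_mem _ (hOv3 f hf))]
    have hb := dlh_res_beta 𝔓 (N'' * 3) hN 3 hK ⟨f, hf⟩
    refine hb.symm.trans ?_
    exact (t3aBase 𝔓 (N'' * 3 * 3) hK).res_congr _ (mlt3_beta_eq Qb N'' hcop f)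

end Bundle

end

end Fermat.Agent.MLT
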