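/-
MLT (project S59) / [L1], `p = 3` core, sub-task (D3) of helper4's h4-m14 (lead): **the wiring of Mazur's
principle for `p = 3`, with the comparison (B3) strengthened by the `3`-divisibility of the divisor of
`ȳ(q³)`**.

For `p = 3` the comparison step (B3) needs one more input than for `p ≥ 5`: that the divisor of `ȳ(q³)`
(at the level `M e`, `3 ∣ e`) is divisible by `3` too.  This is supplied by a SECOND application of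
(B1)+(B2), to the Kummer function `Y(q³)` of the class `β₃^*[x]`.

* `MltL1Cmp3 𝔓 M e W` : the literal body of `MltL1Cmp 𝔓 M e 3 W` with this one extra hypothesis;
* `MltL1ToricC` : the abstract toric criterion (what `mltl1_toric` proves);
* `mltl1c_V_toric`, `mltl1c_V_frob_sq`, `mltl1c_V_frob_w`, `mltl1c_core`, `mltl1c_mazur_gen_bad`:
  the ports of `mltl1_V_toric … mltl1_mazur_gen_bad` with the toric criterion as the input;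
* `mlt3_toric` : (B1)+(B2) at the level `M e`, `MltL1Cmp3` and `3 ∣ e` give the toric criterion;
* `mlt3_mazur_gen` : Mazur's principle for `p = 3` through an auxiliary level `M e`, `3 ∣ e`.
-/
import Mathlib
import Fermat.Agent.Lib.MLT.L1.Two.Wire
import Fermat.Agent.Lib.MLT.L1.Three.Beta

set_option autoImplicit false
set_option linter.unusedSectionVars false
set_option linter.unusedVariables false
set_option linter.style.haveILetI false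
set_option synthInstance.maxHeartbeats 400000
set_option maxHeartbeats 2000000

open WeierstrassCurve WeierstrassCurve.Affine WeierstrassCurve.Affine.Point

namespace Fermat.Agent.MLT

open ModularCurve HahnSeries Fermat.Agent.T1 Fermat.Agent.T2 Fermat.Agent.TW Fermat.Agent.Delta
  Fermat.Agent.S33 Fermat.Agent.S33Q Fermat.Agent.S05Lib AlgebraicCurve Fermat.Agent.Curve
  Fermat.Agent.T3 Fermat.Agent.Alpha ModularFormClass CongruenceSubgroup Fermat.Agent.S24Lib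
  Fermat.Agent.S13Lib Fermat.Agent.S58 Fermat.Agent.Ihara

local notation "Qb" => AlgebraicClosure ℚ
local notation "GQ" => (AlgebraicClosure ℚ ≃ₐ[ℚ] AlgebraicClosure ℚ)

noncomputable section

attribute [local instance] s33g_neZero
attribute [local instance] t2gp_fact

/-- **(B3) for `p = 3`**: the body of `MltL1Cmp 𝔓 M e 3 W` with ONE extra hypothesis: the divisor of
`ȳ(q³)` at the level `M e` is divisible by `3` too -/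
def MltL1Cmp3 (𝔓 : FFPlace) (M e : ℕ) [NeZero M] [NeZero e] (W : WeierstrassCurve ℤ) :
    Prop :=
  dlwEig M 3 W = ⊥ →
  ∀ yb : (↥(tbBarF 𝔓 (M * e)))ˣ,
    (((yb : ↥(tbBarF 𝔓 (M * e))) : LaurentSeries (IsLocalRing.ResidueField ↥𝔓.P)) ∈ tbBarF 𝔓 M) →
    (∀ s : Place (IsLocalRing.ResidueField ↥𝔓.P) ↥(tbBarF 𝔓 (M * e)),
      ((3 : ℕ) : ℤ) ∣ s.ord (yb : ↥(tbBarF 𝔓 (M * e)))) →
    (∀ yb3 : ↥(tbBarF 𝔓 (M * e)),
      (yb3 : LaurentSeries (IsLocalRing.ResidueField ↥𝔓.P)) =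
        qExpand (IsLocalRing.ResidueField ↥𝔓.P) 3
          ((yb : ↥(tbBarF 𝔓 (M * e))) : LaurentSeries (IsLocalRing.ResidueField ↥𝔓.P)) →
      ∀ s : Place (IsLocalRing.ResidueField ↥𝔓.P) ↥(tbBarF 𝔓 (M * e)), ((3 : ℕ) : ℤ) ∣ s.ord yb3) →
    (∀ (ℓ : ℕ) [NeZero ℓ], ℓ.Prime → ¬ ℓ ∣ M * e * 𝔓.p → W.IsGoodPrimeFor ℓ → ℓ ≠ 3 →
      ∀ (ζ : (↥𝔓.P)ˣ)
        (hζK : IsPrimitiveRoot ((Units.map (𝔓.P.subtype : ↥𝔓.P →* Qb) ζ : Qbˣ) : Qb) ℓ)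
        (hζk : IsPrimitiveRoot ((Units.map ((IsLocalRing.residue ↥𝔓.P : ↥𝔓.P →+*
          IsLocalRing.ResidueField ↥𝔓.P) : ↥𝔓.P →* IsLocalRing.ResidueField ↥𝔓.P) ζ :
          (IsLocalRing.ResidueField ↥𝔓.P)ˣ) : IsLocalRing.ResidueField ↥𝔓.P) ℓ),
        ∃ (c : IsLocalRing.ResidueField ↥𝔓.P) (ub : (↥(tbBarF 𝔓 (M * e)))ˣ), c ≠ 0 ∧
          tkrTilde ℓ hζk ((yb : ↥(tbBarF 𝔓 (M * e))) :
              LaurentSeries (IsLocalRing.ResidueField ↥𝔓.P)) =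
            HahnSeries.C c *
              (((yb ^ (W.apOfModel ℓ) * ub ^ 3 : (↥(tbBarF 𝔓 (M * e)))ˣ) :
                ↥(tbBarF 𝔓 (M * e))) : LaurentSeries (IsLocalRing.ResidueField ↥𝔓.P))) →
    ∃ (c : IsLocalRing.ResidueField ↥𝔓.P) (gb : (↥(tbBarF 𝔓 (M * e)))ˣ), c ≠ 0 ∧
      ((yb : ↥(tbBarF 𝔓 (M * e))) : LaurentSeries (IsLocalRing.ResidueField ↥𝔓.P)) =
        HahnSeries.C c * (((gb ^ 3 : (↥(tbBarF 𝔓 (M * e)))ˣ) : ↥(tbBarF 𝔓 (M * e))) :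
          LaurentSeries (IsLocalRing.ResidueField ↥𝔓.P))

/-- the comparison `MltL1Cmp 𝔓 M e 3 W` implies the comparison `MltL1Cmp3 𝔓 M e W` -/
theorem mlt3_cmp3_of_cmp (𝔓 : FFPlace) (M e : ℕ) [NeZero M] [NeZero e] (W : WeierstrassCurve ℤ)
    (h : MltL1Cmp 𝔓 M e 3 W) : MltL1Cmp3 𝔓 M e W :=
  fun hE yb hyb hord _ heig => h hE yb hyb hord heig

/-- **the toric criterion, as a contract**: what `mltl1_toric` proves from (B1)+(B2) and (B3) -/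
def MltL1ToricC (𝔓 : FFPlace) (M e : ℕ) [NeZero M] [NeZero e] (p : ℕ) (hp : p.Prime)
    (W : WeierstrassCurve ℤ) : Prop :=
  dlwEig M p W = ⊥ →
  ∀ (ℓ₀ : ℕ) (hℓ₀ : ℓ₀.Prime), ¬ ℓ₀ ∣ M * e * 𝔓.p → ℓ₀ ≠ p → W.IsGoodPrimeFor ℓ₀ →
    ¬ (p : ℤ) ∣ (ℓ₀ : ℤ) + 1 - W.apOfModel ℓ₀ →
  ∀ (Y : (↥(modularFunctionFieldBar (M * 𝔓.p)))ˣ)
    (hY : ∀ v : Place Qb ↥(modularFunctionFieldBar (M * 𝔓.p)),
      (p : ℤ) ∣ v.ord (Y : ↥(modularFunctionFieldBar (M * 𝔓.p)))),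
    (∀ σ ∈ 𝔓.I, σ • alpfClass hp.ne_zero Y hY = alpfClass hp.ne_zero Y hY) →
    (∀ (ℓ : ℕ) (hℓ : ℓ.Prime), ¬ ℓ ∣ M * 𝔓.p → W.IsGoodPrimeFor ℓ → ℓ ≠ p →
      heckeOperatorBar (M * 𝔓.p) ⟨ℓ, hℓ⟩ (alpfClass hp.ne_zero Y hY) =
        W.apOfModel ℓ • alpfClass hp.ne_zero Y hY) →
    ∃ s : (↥(modularFunctionFieldBar (M * e * 𝔓.p)))ˣ,
      T2fInf (M * e * 𝔓.p) 𝔓.P
        (dlwInclU (Nat.mul_dvd_mul_right (Dvd.intro e rfl : M ∣ M * e) 𝔓.p) Y * s ^ p)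

/-- `mltl1_toric` gives the toric criterion -/
theorem mltl1c_toric_of (𝔓 : FFPlace) (M e : ℕ) [NeZero M] [NeZero e] (hK : ¬ 𝔓.p ∣ M * e)
    (p : ℕ) (hp : p.Prime) (W : WeierstrassCurve ℤ)
    (h1 : IhbRedDiv 𝔓 (M * e) hK p hp.ne_zero) (h3 : MltL1Cmp 𝔓 M e p W) :
    MltL1ToricC 𝔓 M e p hp W :=
  fun hEig ℓ₀ hℓ₀ hℓ₀N hℓ₀p hgood₀ hne Y hY hI heig =>
    mltl1_toric 𝔓 M e hK p hp W h1 h3 hEig ℓ₀ hℓ₀ hℓ₀N hℓ₀p hgood₀ hne Y hY hI heig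

section Core

variable (𝔓 : FFPlace) (M e : ℕ) [NeZero M] [NeZero e]
  (hK : ¬ 𝔓.p ∣ M * e)
  (p : ℕ) (hp : p.Prime) (hpq : p ≠ 𝔓.p)
  (W : WeierstrassCurve ℤ)
  (hT : MltL1ToricC 𝔓 M e p hp W)
  (hEig : dlwEig M p W = ⊥)
  (ℓ₀ : ℕ) (hℓ₀ : ℓ₀.Prime) (hℓ₀N : ¬ ℓ₀ ∣ M * e * 𝔓.p) (hℓ₀p : ℓ₀ ≠ p)
  (hgood₀ : W.IsGoodPrimeFor ℓ₀)
  (hne : ¬ (p : ℤ) ∣ (ℓ₀ : ℤ) + 1 - W.apOfModel ℓ₀)
  (V₀ : AddSubgroup (JZero (M * 𝔓.p))) (htor : ∀ x ∈ V₀, p • x = 0)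
  (hI : ∀ σ ∈ 𝔓.I, ∀ x ∈ V₀, σ • x = x)
  (heig : ∀ (ℓ : ℕ) (hℓ : ℓ.Prime), ¬ ℓ ∣ M * 𝔓.p → W.IsGoodPrimeFor ℓ → ℓ ≠ p →
    ∀ x ∈ V₀, heckeOperatorBar (M * 𝔓.p) ⟨ℓ, hℓ⟩ x = W.apOfModel ℓ • x)

include hK hpq hT hEig hℓ₀ hℓ₀N hℓ₀p hgood₀ hne htor hI heig

/-- both `Y''` and `w_q Y''` are toric, for a Kummer function of a point of `V₀` -/
theorem mltl1c_V_toric (x : JZero (M * 𝔓.p)) (hx : x ∈ V₀)
    (Y : (↥(modularFunctionFieldBar (M * 𝔓.p)))ˣ)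
    (hY : ∀ v : Place Qb ↥(modularFunctionFieldBar (M * 𝔓.p)),
      (p : ℤ) ∣ v.ord (Y : ↥(modularFunctionFieldBar (M * 𝔓.p))))
    (hYx : alpfClass hp.ne_zero Y hY = x) :
    (∃ s : (↥(modularFunctionFieldBar (M * e * 𝔓.p)))ˣ, T2fInf (M * e * 𝔓.p) 𝔓.P
      (dlwInclU (Nat.mul_dvd_mul_right (Dvd.intro e rfl : M ∣ M * e) 𝔓.p) Y * s ^ p)) ∧
    (∃ s : (↥(modularFunctionFieldBar (M * e * 𝔓.p)))ˣ, T2fInf (M * e * 𝔓.p) 𝔓.P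
      (dleWU (M * e) 𝔓.p hK
        (dlwInclU (Nat.mul_dvd_mul_right (Dvd.intro e rfl : M ∣ M * e) 𝔓.p) Y) * s ^ p)) := by
  have hp0 := hp.ne_zero
  have hM : ¬ 𝔓.p ∣ M := fun h => hK (h.mul_right e)
  have hMK : M ∣ M * e := Dvd.intro e rfl
  have hdvd : M * 𝔓.p ∣ M * e * 𝔓.p := Nat.mul_dvd_mul_right hMK 𝔓.p
  constructor
  · refine hT hEig ℓ₀ hℓ₀ hℓ₀N hℓ₀p hgood₀ hne Y hY ?_ ?_
    · intro σ hσ
      rw [hYx]
      exact hI σ hσ x hx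
    · intro ℓ hℓ hℓN hgood hℓp
      rw [hYx]
      exact heig ℓ hℓ hℓN hgood hℓp x hx
  · rw [ihb_w_incl M e 𝔓.p hM hK Y]
    have hYw := dle_dvd_ord_w M 𝔓.p hM Y hY
    have hcl : alpfClass hp0 (dleWU M 𝔓.p hM Y) hYw = dleWJ M 𝔓.p hM x := by
      rw [← hYx]
      exact (dleWJ_class M 𝔓.p hM hp0 Y hY).symm
    refine hT hEig ℓ₀ hℓ₀ hℓ₀N hℓ₀p hgood₀ hne (dleWU M 𝔓.p hM Y) hYw ?_ ?_
    · intro σ hσ
      rw [hcl, ← dleWJ_galois M 𝔓.p hM σ x, hI σ hσ x hx]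
    · intro ℓ hℓ hℓN hgood hℓp
      haveI : Fact ℓ.Prime := ⟨hℓ⟩
      have h0 := heig ℓ hℓ hℓN hgood hℓp x hx
      rw [← hYx] at h0
      exact dle_class_w_eigen_int M 𝔓.p ℓ hM hp0 hℓN Y hY (W.apOfModel ℓ) h0

/-- **`φ² = q²` on `V₀`** -/
theorem mltl1c_V_frob_sq {φ : GQ} (hφ : 𝔓.P.IsFrobeniusAt φ 𝔓.p) (x : JZero (M * 𝔓.p))
    (hx : x ∈ V₀) : φ • φ • x = (𝔓.p ^ 2) • x := by
  have hp0 := hp.ne_zero
  have hMK : M ∣ M * e := Dvd.intro e rfl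
  have hdvd : M * 𝔓.p ∣ M * e * 𝔓.p := Nat.mul_dvd_mul_right hMK 𝔓.p
  obtain ⟨Y, hY, hYx⟩ := alpf_exists_class hp0 x (by rw [natCast_zsmul]; exact htor x hx)
  obtain ⟨T1, T2⟩ := mltl1c_V_toric 𝔓 M e hK p hp hpq W hT hEig ℓ₀ hℓ₀
    hℓ₀N hℓ₀p hgood₀ hne V₀ htor hI heig x hx Y hY hYx
  have hY'' := dlw_dvd_ord_incl hdvd Y hY
  have h := ihb_frob_sq 𝔓 (M * e) hK hφ hp hpq (dlwInclU hdvd Y) hY'' T1 T2
  rw [← dlwPullDvd_class hdvd hp0 Y hY, hYx, ← dlwPullDvd_galois, ← dlwPullDvd_galois,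
    ← map_nsmul] at h
  have h0 : dlwPullDvd hdvd (φ • φ • x - (𝔓.p ^ 2) • x) = 0 := by
    rw [map_sub, h, sub_self]
  have htor' : p • (φ • φ • x - (𝔓.p ^ 2) • x) = 0 := by
    have a1 : p • (φ • x) = 0 := by
      rw [smul_comm p φ x, htor x hx]
      exact smul_zero (A := JZero (M * 𝔓.p)) φ
    have e1 : p • (φ • φ • x) = 0 := by
      rw [smul_comm p φ (φ • x), a1]
      exact smul_zero (A := JZero (M * 𝔓.p)) φ
    have e2 : p • ((𝔓.p ^ 2) • x) = 0 := by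
      rw [smul_comm p (𝔓.p ^ 2) x, htor x hx]
      exact smul_zero (A := JZero (M * 𝔓.p)) (𝔓.p ^ 2)
    rw [nsmul_sub, e1, e2, sub_zero]
  exact sub_eq_zero.mp (dlwPullDvd_eq_zero hdvd hp0 _ htor' h0)

/-- **`φ = - q w_q` on (the pull-back of) `V₀`** -/
theorem mltl1c_V_frob_w (h4 : IhbToricFrob) {φ : GQ} (hφ : 𝔓.P.IsFrobeniusAt φ 𝔓.p)
    (x : JZero (M * 𝔓.p)) (hx : x ∈ V₀) :
    dlwPullDvd (Nat.mul_dvd_mul_right (Dvd.intro e rfl : M ∣ M * e) 𝔓.p) (φ • x) +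
      𝔓.p • dleWJ (M * e) 𝔓.p hK
        (dlwPullDvd (Nat.mul_dvd_mul_right (Dvd.intro e rfl : M ∣ M * e) 𝔓.p) x) = 0 := by
  have hp0 := hp.ne_zero
  have hMK : M ∣ M * e := Dvd.intro e rfl
  have hdvd : M * 𝔓.p ∣ M * e * 𝔓.p := Nat.mul_dvd_mul_right hMK 𝔓.p
  obtain ⟨Y, hY, hYx⟩ := alpf_exists_class hp0 x (by rw [natCast_zsmul]; exact htor x hx)
  obtain ⟨T1, T2⟩ := mltl1c_V_toric 𝔓 M e hK p hp hpq W hT hEig ℓ₀ hℓ₀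
    hℓ₀N hℓ₀p hgood₀ hne V₀ htor hI heig x hx Y hY hYx
  have hY'' := dlw_dvd_ord_incl hdvd Y hY
  have h := ihb_frob_w 𝔓 (M * e) hK h4 hφ hp hpq (dlwInclU hdvd Y) hY'' T1 T2
  rw [← dlwPullDvd_class hdvd hp0 Y hY, hYx, ← dlwPullDvd_galois] at h
  exact h

end Core

/-- **the core of Mazur's principle**, general `W`, from the toric criterion -/
theorem mltl1c_core (𝔓 : FFPlace) (M e : ℕ) [NeZero M] [NeZero e] (hK : ¬ 𝔓.p ∣ M * e)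
    (p : ℕ) (hp : p.Prime) (hp2 : p ≠ 2) (hpq : p ≠ 𝔓.p)
    (W : WeierstrassCurve ℤ) (hΔ : W.Δ ≠ 0) (hirrW : W.ModRepIsIrreducible p)
    (hT : MltL1ToricC 𝔓 M e p hp W) (h4 : IhbToricFrob)
    (hunr : MltL1Unram W p 𝔓.p)
    (hres : W.IsResiduallyModularOfLevel p (M * 𝔓.p))
    (hnot : ¬ W.IsResiduallyModularOfLevel p M)
    (φ : GQ) (hφ : 𝔓.P.IsFrobeniusAt φ 𝔓.p) :
    p ∣ 𝔓.p - 1 ∧ ∃ c : ℤ, ∀ x : Submodule.torsionBy ℤ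
      ((W.map (Int.castRingHom ℚ)).toAffine⁄Qb).Point p, φ • x = c • x := by
  classical
  haveI : Fact p.Prime := ⟨hp⟩
  have hq : 𝔓.p.Prime := 𝔓.hp
  have hA : 𝔓.P.LiesOverPrime 𝔓.p := 𝔓.hP
  have hp0 : p ≠ 0 := hp.ne_zero
  have hMpos : 0 < M := Nat.pos_of_ne_zero (NeZero.ne M)
  have hepos : 0 < e := Nat.pos_of_ne_zero (NeZero.ne e)
  haveI : (W.map (Int.castRingHom ℚ)).IsElliptic := by
    refine ⟨?_⟩
    rw [WeierstrassCurve.map_Δ]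
    refine isUnit_iff_ne_zero.mpr ?_
    rw [eq_intCast]
    exact_mod_cast hΔ
  -- the copy of `W[p]` in `J₀(M q)[p]`
  obtain ⟨f, 𝔪, hf, hmax, hpm, hcong⟩ := hres
  obtain ⟨x₀, hx₀, hx₀p, hx₀e⟩ :=
    dlw_exists_eigen (N := M * 𝔓.p) (p := p) (W := W) f 𝔪 hf hmax hpm hcong
  obtain ⟨V₀, ψ, hle, hstab, hψ⟩ := dlw_exists_iso (M * 𝔓.p) hp2 W hΔ hirrW x₀ hx₀ ⟨hx₀p, hx₀e⟩
  have htor : ∀ x ∈ V₀, p • x = 0 := fun x hx => (hle hx).1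
  have heig : ∀ (ℓ : ℕ) (hℓ : ℓ.Prime), ¬ ℓ ∣ M * 𝔓.p → W.IsGoodPrimeFor ℓ → ℓ ≠ p →
      ∀ x ∈ V₀, heckeOperatorBar (M * 𝔓.p) ⟨ℓ, hℓ⟩ x = W.apOfModel ℓ • x :=
    fun ℓ hℓ hℓN hgood hℓp x hx => (hle hx).2 ℓ hℓ hℓN hgood hℓp
  -- the eigensystem does not occur at the level `M`
  have hEig : dlwEig M p W = ⊥ := by
    rw [AddSubgroup.eq_bot_iff_forall]
    intro y hy
    by_contra hy0
    exact hnot (dlw_D0 M p W y hy0 hy.1 hy.2)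
  -- a non-Eisenstein prime
  obtain ⟨ℓ₀, hℓ₀, hℓ₀T, hgood₀, hne⟩ := Fermat.Agent.LR.lre_exists_prime_not_eisenstein
    (W.map (Int.castRingHom ℚ)) (mltl1_model_self W) hp hp2 hirrW
    (insert p (M * e * 𝔓.p).primeFactors)
  rw [Finset.mem_insert, not_or] at hℓ₀T
  have hℓ₀p : ℓ₀ ≠ p := hℓ₀T.1
  have hℓ₀N : ¬ ℓ₀ ∣ M * e * 𝔓.p := fun h =>
    hℓ₀T.2 (Nat.mem_primeFactors.mpr ⟨hℓ₀, h,
      Nat.mul_ne_zero (Nat.mul_ne_zero hMpos.ne' hepos.ne') hq.ne_zero⟩)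
  -- the inertia group acts trivially on `V₀`
  have hI : ∀ σ ∈ 𝔓.I, ∀ x ∈ V₀, σ • x = x := by
    intro σ hσ x hx
    obtain ⟨Q, hQ⟩ : ∃ Q, ((ψ Q : ↥V₀) : JZero (M * 𝔓.p)) = x :=
      ⟨ψ.symm ⟨x, hx⟩, by rw [AddEquiv.apply_symm_apply]⟩
    have h0 : σ • Q = Q := hunr 𝔓.P hA σ hσ Q
    rw [← hQ, ← hψ, h0]
  -- the Frobenius relations on `V₀`
  have hsqV : ∀ x ∈ V₀, φ • φ • x = (𝔓.p ^ 2) • x := fun x hx =>
    mltl1c_V_frob_sq 𝔓 M e hK p hp hpq W hT hEig ℓ₀ hℓ₀ hℓ₀N hℓ₀p hgood₀ hne V₀ htor hI heig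
      hφ x hx
  have hwV := fun x hx =>
    mltl1c_V_frob_w 𝔓 M e hK p hp hpq W hT hEig ℓ₀ hℓ₀ hℓ₀N hℓ₀p hgood₀ hne V₀ htor hI heig
      h4 hφ x hx
  -- linear algebra on `W[p]`
  obtain ⟨hfree, hfin, hrank⟩ := s58m_free W hΔ hp (pow_one p).symm
  haveI := hfree
  haveI := hfin
  have h2 : Module.finrank (ZMod p) (S58Tors W p) = 2 := hrank one_ne_zero
  obtain ⟨g, hg⟩ : ∃ g : Module.End (ZMod p) (S58Tors W p), g = s58Gal W p φ := ⟨_, rfl⟩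
  have hgapp : ∀ Q : S58Tors W p, g Q = φ • Q := by
    intro Q
    rw [hg]
    exact galoisRepModuleEnd_apply _ _ _ _
  have hq0 : ((𝔓.p : ℕ) : ZMod p) ≠ 0 := by
    rw [Ne, ZMod.natCast_eq_zero_iff]
    intro h
    exact hpq ((Nat.prime_dvd_prime_iff_eq hp hq).mp h)
  have hψinj : ∀ Q Q' : S58Tors W p,
      ((ψ Q : ↥V₀) : JZero (M * 𝔓.p)) = ((ψ Q' : ↥V₀) : JZero (M * 𝔓.p)) → Q = Q' :=
    fun Q Q' h => ψ.injective (Subtype.ext h)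
  have hgsq : g * g =
      (((𝔓.p : ℕ) : ZMod p) ^ 2) • (1 : Module.End (ZMod p) (S58Tors W p)) := by
    apply LinearMap.ext
    intro Q
    apply hψinj
    rw [Module.End.mul_apply, hgapp, hgapp, hψ, hψ, hsqV _ (ψ Q).2, LinearMap.smul_apply,
      Module.End.one_apply, ← Nat.cast_pow, Nat.cast_smul_eq_nsmul, map_nsmul,
      AddSubgroup.coe_nsmul]
  have hdet : LinearMap.det g = ((𝔓.p : ℕ) : ZMod p) := by
    rw [hg]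
    exact ihb_det_frob W hΔ hp hq hpq hA hφ
  -- `φ` is a scalar
  have hscal : ∃ c : ZMod p, g = c • (1 : Module.End (ZMod p) (S58Tors W p)) := by
    rcases ihb_scalar_or h2 g _ hq0 hgsq hdet with hc | ⟨hqm1, hgg⟩
    · exact hc
    · -- `q ≡ -1 mod p`: `φ = w_q` on `V₀`
      have hMK : M ∣ M * e := Dvd.intro e rfl
      have hdvd : M * 𝔓.p ∣ M * e * 𝔓.p := Nat.mul_dvd_mul_right hMK 𝔓.p
      have hpdvd : p ∣ 𝔓.p + 1 := by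
        rw [← ZMod.natCast_eq_zero_iff]
        push_cast
        rw [hqm1]
        ring
      have key : ∀ x ∈ V₀, dlwPullDvd hdvd (φ • x) =
          dleWJ (M * e) 𝔓.p hK (dlwPullDvd hdvd x) := by
        intro x hx
        have h0 := hwV x hx
        have h5 : (𝔓.p + 1) • dleWJ (M * e) 𝔓.p hK (dlwPullDvd hdvd x) = 0 := by
          obtain ⟨k, hk⟩ := hpdvd
          have h7 : p • dleWJ (M * e) 𝔓.p hK (dlwPullDvd hdvd x) = 0 := by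
            rw [← map_nsmul, ← map_nsmul, htor x hx, _root_.map_zero, _root_.map_zero]
          rw [hk, mul_nsmul, h7, nsmul_zero]
        rw [add_nsmul, one_nsmul] at h5
        have h6 := h0.trans h5.symm
        rw [add_comm] at h6
        exact add_left_cancel h6
      have comm : ∀ (σ : GQ), ∀ x ∈ V₀, φ • σ • x = σ • φ • x := by
        intro σ x hx
        have e1 : dlwPullDvd hdvd (φ • σ • x) = dlwPullDvd hdvd (σ • φ • x) := by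
          rw [key (σ • x) (hstab σ x hx), dlwPullDvd_galois, dleWJ_galois, ← key x hx,
            ← dlwPullDvd_galois]
        have hmem : φ • σ • x - σ • φ • x ∈ V₀ :=
          V₀.sub_mem (hstab φ _ (hstab σ x hx)) (hstab σ _ (hstab φ x hx))
        have e2 : dlwPullDvd hdvd (φ • σ • x - σ • φ • x) = 0 := by
          rw [map_sub, e1, sub_self]
        exact sub_eq_zero.mp (dlwPullDvd_eq_zero hdvd hp0 _ (htor _ hmem) e2)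
      have hcomm : ∀ σ' ∈ Set.range (s58Gal W p), σ' * g = g * σ' := by
        rintro _ ⟨σ, rfl⟩
        apply LinearMap.ext
        intro Q
        apply hψinj
        rw [Module.End.mul_apply, Module.End.mul_apply, hgapp, hgapp]
        have e3 : ∀ Q' : S58Tors W p, (s58Gal W p σ) Q' = σ • Q' :=
          fun Q' => galoisRepModuleEnd_apply _ _ _ _
        rw [e3, e3, hψ, hψ, hψ, hψ]
        exact (comm σ _ (ψ Q).2).symm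
      have hirr' : ∀ N : Submodule (ZMod p) (S58Tors W p),
          (∀ σ' ∈ Set.range (s58Gal W p), ∀ x ∈ N, σ' x ∈ N) → N = ⊥ ∨ N = ⊤ := by
        intro N hN
        refine hirrW.2 N (fun σ x hx => ?_)
        have := hN (s58Gal W p σ) ⟨σ, rfl⟩ x hx
        rwa [galoisRepModuleEnd_apply] at this
      rcases ihb_scalar_of_commute g hgg (Set.range (s58Gal W p)) hirr' hcomm with h | h
      · exact ⟨1, by rw [h, one_smul]⟩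
      · exact ⟨-1, by rw [h, neg_smul, one_smul]⟩
  obtain ⟨c, hc⟩ := hscal
  have hq1 : ((𝔓.p : ℕ) : ZMod p) = 1 := ihb_eq_one_of_scalar h2 g _ hq0 hgsq hdet c hc
  constructor
  · have h3' : ((𝔓.p : ℕ) : ZMod p) = ((1 : ℕ) : ZMod p) := by rw [hq1, Nat.cast_one]
    have hmod := (ZMod.natCast_eq_natCast_iff _ _ _).mp h3'
    exact (Nat.modEq_iff_dvd' hq.one_lt.le).mp hmod.symm
  · refine ⟨((c.val : ℕ) : ℤ), fun x => ?_⟩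
    have h5 : g x = c • x := by rw [hc, LinearMap.smul_apply, Module.End.one_apply]
    rw [← hgapp, h5, natCast_zsmul, ← Nat.cast_smul_eq_nsmul (ZMod p), ZMod.natCast_zmod_val]


/-! ### Mazur's principle from the toric criterion -/

/-- **Mazur's principle through an auxiliary level `M e`, `q ∣ Δ_W`**, from the toric criterion -/
theorem mltl1c_mazur_gen_bad (p : ℕ) (hp : p.Prime) (hp2 : p ≠ 2)
    (W : WeierstrassCurve ℤ) (hΔ : W.Δ ≠ 0) (hirr : W.ModRepIsIrreducible p)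
    (M e q : ℕ) (hMpos : 0 < M) (hepos : 0 < e) (hq : q.Prime) (hqp : q ≠ p)
    (hqMe : ¬ q ∣ M * e)
    (hT : ∀ (𝔓 : FFPlace),
      haveI : NeZero M := ⟨hMpos.ne'⟩
      haveI : NeZero e := ⟨hepos.ne'⟩
      𝔓.p = q → MltL1ToricC 𝔓 M e p hp W)
    (hunr : MltL1Unram W p q) (hnC : ¬ (p ∣ q - 1 ∧ MltL1FrobScalar W p q))
    (hres : W.IsResiduallyModularOfLevel p (M * q)) :
    W.IsResiduallyModularOfLevel p M := by
  by_contra hnot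
  haveI : NeZero M := ⟨hMpos.ne'⟩
  haveI : NeZero e := ⟨hepos.ne'⟩
  have hpq : p ≠ q := fun h => hqp h.symm
  have hcore : ∀ (A : ValuationSubring Qb) (hA : A.LiesOverPrime q) (φ : GQ)
      (hφ : A.IsFrobeniusAt φ q),
      p ∣ q - 1 ∧ ∃ c : ℤ, ∀ x : Submodule.torsionBy ℤ
        ((W.map (Int.castRingHom ℚ)).toAffine⁄Qb).Point p, φ • x = c • x := by
    intro A hA φ hφ
    obtain ⟨𝔓, h𝔓P, h𝔓p⟩ : ∃ 𝔓 : FFPlace, 𝔓.P = A ∧ 𝔓.p = q := ⟨⟨A, q, hq, hA⟩, rfl, rfl⟩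
    subst h𝔓P
    subst h𝔓p
    exact mltl1c_core 𝔓 M e hqMe p hp hp2 hpq W hΔ hirr (hT 𝔓 rfl)
      ihb_toricFrob hunr hres hnot φ hφ
  obtain ⟨A, φ, hA, hφ⟩ := Fermat.Agent.Lib.Helper6.exists_frobenius q hq
  exact hnC ⟨(hcore A hA φ hφ).1, fun A' hA' φ' hφ' => (hcore A' hA' φ' hφ').2⟩

/-- **Mazur's principle through an auxiliary level `M e`** (general `W`, `p` odd), from the toric
criterion for the models with bad reduction at `q` -/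
theorem mltl1c_mazur_gen (p : ℕ) (hp : p.Prime) (hp2 : p ≠ 2)
    (W : WeierstrassCurve ℤ) (hΔ : W.Δ ≠ 0) (hirr : W.ModRepIsIrreducible p)
    (M e q : ℕ) (hMpos : 0 < M) (hepos : 0 < e) (hq : q.Prime) (hqp : q ≠ p)
    (hqMe : ¬ q ∣ M * e)
    (hT : ∀ (𝔓 : FFPlace) (W' : WeierstrassCurve ℤ),
      haveI : NeZero M := ⟨hMpos.ne'⟩
      haveI : NeZero e := ⟨hepos.ne'⟩
      𝔓.p = q → W'.Δ ≠ 0 → (q : ℤ) ∣ W'.Δ → W'.ModRepIsIrreducible p →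
        MltL1ToricC 𝔓 M e p hp W')
    (hunr : MltL1Unram W p q) (hnC : ¬ (p ∣ q - 1 ∧ MltL1FrobScalar W p q))
    (hres : W.IsResiduallyModularOfLevel p (M * q)) :
    W.IsResiduallyModularOfLevel p M := by
  have hqM : ¬ q ∣ M := fun h => hqMe (h.mul_right e)
  by_cases hqΔ : (q : ℤ) ∣ W.Δ
  · exact mltl1c_mazur_gen_bad p hp hp2 W hΔ hirr M e q hMpos hepos hq hqp hqMe
      (fun 𝔓 h𝔓 => hT 𝔓 W h𝔓 hΔ hqΔ hirr) hunr hnC hres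
  -- `q` is a prime of good reduction: pass to the scaled model
  have hq0 : q ≠ 0 := hq.ne_zero
  have hlow := mltl1c_mazur_gen_bad p hp hp2 (mltl1Scale W q) (mltl1Scale_Δ_ne_zero W hq0 hΔ)
    (mltl1Scale_irr W hq0 p hirr) M e q hMpos hepos hq hqp hqMe
    (fun 𝔓 h𝔓 => hT 𝔓 (mltl1Scale W q) h𝔓 (mltl1Scale_Δ_ne_zero W hq0 hΔ) (mltl1Scale_dvd_Δ W q)
      (mltl1Scale_irr W hq0 p hirr))
    (mltl1Scale_unram W hq0 p q hunr)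
    (fun h => hnC ⟨h.1, mltl1Scale_frobScalar W hq0 p q h.2⟩)
    (mltl1Scale_resid W hΔ hq0 p (M * q) hres)
  obtain ⟨f, 𝔪, hf, hmax, hpm, hcong⟩ := hlow
  have hcong' : ∀ ℓ : ℕ, ℓ.Prime → W.IsGoodPrimeFor ℓ → ¬ ℓ ∣ M → ℓ ≠ p → ℓ ≠ q →
      ∃ a : integralClosure ℤ ℂ, (a : ℂ) = ModularFormClass.qCoeff f ℓ ∧
        a - ((W.apOfModel ℓ : ℤ) : integralClosure ℤ ℂ) ∈ 𝔪 := by
    intro ℓ hℓ hgood hℓM hℓp hℓq
    have hg' := mltl1Scale_good_of W hq hℓ hgood hℓq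
    have h := hcong ℓ hℓ hg' hℓM hℓp
    rwa [mltl1Scale_ap W hΔ hq0 hℓ hg'] at h
  refine ⟨f, 𝔪, hf, hmax, hpm, fun ℓ hℓ hgood hℓM hℓp => ?_⟩
  by_cases hℓq : ℓ = q
  · subst hℓq
    exact mltl1_congAt p hp W hΔ hirr M ℓ hMpos hq hqp hqM hqΔ f 𝔪 hf hmax hpm hcong'
  · exact hcong' ℓ hℓ hgood hℓM hℓp hℓq

/-! ### The toric criterion for `p = 3` -/

section Toric3

variable (𝔓 : FFPlace) (M e : ℕ) [NeZero M] [NeZero e]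
  (hK : ¬ 𝔓.p ∣ M * e) (h3e : 3 ∣ e)
  (W : WeierstrassCurve ℤ)
  (h1 : IhbRedDiv 𝔓 (M * e) hK 3 Nat.prime_three.ne_zero) (h3 : MltL1Cmp3 𝔓 M e W)

include h3e h1 h3 in
/-- **the toric criterion for `p = 3`**: (B1)+(B2) at the level `M e` (`3 ∣ e`), applied to `Y` AND to
`Y(q³)`, and the comparison `MltL1Cmp3` -/
theorem mlt3_toric : MltL1ToricC 𝔓 M e 3 Nat.prime_three W := by
  classical
  intro hEig ℓ₀ hℓ₀ hℓ₀N hℓ₀p hgood₀ hne Y hY hI heig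
  have hp : Nat.Prime 3 := Nat.prime_three
  have hp0 : (3 : ℕ) ≠ 0 := hp.ne_zero
  have hMK : M ∣ M * e := Dvd.intro e rfl
  have hdvd : M * 𝔓.p ∣ M * e * 𝔓.p := Nat.mul_dvd_mul_right hMK 𝔓.p
  have hM : ¬ 𝔓.p ∣ M := fun h => hK (h.mul_right e)
  obtain ⟨Y'', hY''def⟩ : ∃ Y'' : (↥(modularFunctionFieldBar (M * e * 𝔓.p)))ˣ,
      Y'' = dlwInclU hdvd Y := ⟨_, rfl⟩
  have hY'' : ∀ v : Place Qb ↥(modularFunctionFieldBar (M * e * 𝔓.p)),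
      ((3 : ℕ) : ℤ) ∣ v.ord (Y'' : ↥(modularFunctionFieldBar (M * e * 𝔓.p))) := by
    rw [hY''def]; exact dlw_dvd_ord_incl hdvd Y hY
  have hcls : alpfClass hp0 Y'' hY'' = dlwPullDvd hdvd (alpfClass hp0 Y hY) := by
    subst hY''def
    exact (dlwPullDvd_class hdvd hp0 Y hY).symm
  -- eigenvalues at the rigid level
  have hT'' : ∀ (ℓ : ℕ) (hℓ : ℓ.Prime), ¬ ℓ ∣ M * e * 𝔓.p → W.IsGoodPrimeFor ℓ → ℓ ≠ 3 →
      heckeOperatorBar (M * e * 𝔓.p) ⟨ℓ, hℓ⟩ (alpfClass hp0 Y'' hY'') =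
        W.apOfModel ℓ • alpfClass hp0 Y'' hY'' := by
    intro ℓ hℓ hℓN hgood hℓp
    rw [hcls, ← dlwPullDvd_hecke hdvd hℓ hℓN,
      heig ℓ hℓ (fun h => hℓN (h.trans hdvd)) hgood hℓp, map_zsmul]
  -- (B1)+(B2)
  have hord := h1 Y'' hY''
    (by
      intro σ hσ
      rw [hcls, ← dlwPullDvd_galois hdvd σ, hI σ hσ])
    ⟨ℓ₀, hℓ₀, W.apOfModel ℓ₀, hℓ₀N, hℓ₀p, hT'' ℓ₀ hℓ₀ hℓ₀N hgood₀ hℓ₀p, hne⟩
  -- the reduction computed at the level `M`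
  have hy₀ := dlsRed_spec 𝔓 M hM Y
  have hle : tbBarF 𝔓 M ≤ tbBarF 𝔓 (M * e) :=
    full_degeneracyC_le (IsLocalRing.ResidueField ↥𝔓.P) hMK
  obtain ⟨yb', hyb'⟩ : ∃ yb' : ↥(tbBarF 𝔓 (M * e)),
      (yb' : LaurentSeries (IsLocalRing.ResidueField ↥𝔓.P)) =
        ((dlsRed 𝔓 M hM Y : ↥(tbBarF 𝔓 M)) : LaurentSeries (IsLocalRing.ResidueField ↥𝔓.P)) :=
    ⟨⟨_, hle (dlsRed 𝔓 M hM Y).2⟩, rfl⟩
  have hred : DlsRedTo 𝔓.P (IsLocalRing.residue ↥𝔓.P)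
      ((Y'' : ↥(modularFunctionFieldBar (M * e * 𝔓.p))) : LaurentSeries Qb)
      (yb' : LaurentSeries (IsLocalRing.ResidueField ↥𝔓.P)) := by
    rw [hY''def, coe_dlwInclU, hyb']
    exact hy₀
  have hyb0 : yb' ≠ 0 := by
    rintro rfl
    exact hred.ne_zero_right rfl
  have hordyb : ∀ s : Place (IsLocalRing.ResidueField ↥𝔓.P) ↥(tbBarF 𝔓 (M * e)),
      ((3 : ℕ) : ℤ) ∣ s.ord yb' := by
    intro s
    rw [← dls_ord_red_eq 𝔓 (M * e) hK Y'' yb' hred s]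
    exact hord s
  obtain ⟨yb, hyb⟩ : ∃ yb : (↥(tbBarF 𝔓 (M * e)))ˣ, (yb : ↥(tbBarF 𝔓 (M * e))) = yb' :=
    ⟨Units.mk0 yb' hyb0, rfl⟩
  -- **the second application of (B1)+(B2): to `Y(q³)`**
  have hd3 : M * 𝔓.p * 3 ∣ M * e * 𝔓.p := by
    obtain ⟨e', rfl⟩ := h3e
    exact ⟨e', by ring⟩
  have hordyb3 : ∀ yb3 : ↥(tbBarF 𝔓 (M * e)),
      (yb3 : LaurentSeries (IsLocalRing.ResidueField ↥𝔓.P)) =
        qExpand (IsLocalRing.ResidueField ↥𝔓.P) 3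
          ((yb : ↥(tbBarF 𝔓 (M * e))) : LaurentSeries (IsLocalRing.ResidueField ↥𝔓.P)) →
      ∀ s : Place (IsLocalRing.ResidueField ↥𝔓.P) ↥(tbBarF 𝔓 (M * e)),
        ((3 : ℕ) : ℤ) ∣ s.ord yb3 := by
    intro yb3 hyb3 s
    obtain ⟨Yβ, hYβdef⟩ : ∃ Yβ : (↥(modularFunctionFieldBar (M * 𝔓.p * 3)))ˣ,
        Yβ = Units.map ((heckeBetaBar Qb (M * 𝔓.p) 3 : ↥(modularFunctionFieldBar (M * 𝔓.p)) →ₐ[Qb]
          ↥(modularFunctionFieldBar (M * 𝔓.p * 3))) : ↥(modularFunctionFieldBar (M * 𝔓.p)) →*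
          ↥(modularFunctionFieldBar (M * 𝔓.p * 3))) Y := ⟨_, rfl⟩
    have hYβ : ∀ v : Place Qb ↥(modularFunctionFieldBar (M * 𝔓.p * 3)),
        ((3 : ℕ) : ℤ) ∣ v.ord (Yβ : ↥(modularFunctionFieldBar (M * 𝔓.p * 3))) := by
      rw [hYβdef]
      exact dlw_dvd_ord_map (heckeBetaBar Qb (M * 𝔓.p) 3) (t3h_betaIntegral (M * 𝔓.p) 3) Y hY
    have hclsβ : alpfClass hp0 Yβ hYβ = mlt3PullB (M * 𝔓.p) (alpfClass hp0 Y hY) := by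
      subst hYβdef
      exact (mlt3PullB_class (M * 𝔓.p) hp0 Y hY).symm
    obtain ⟨Z, hZdef⟩ : ∃ Z : (↥(modularFunctionFieldBar (M * e * 𝔓.p)))ˣ,
        Z = dlwInclU hd3 Yβ := ⟨_, rfl⟩
    have hZ : ∀ v : Place Qb ↥(modularFunctionFieldBar (M * e * 𝔓.p)),
        ((3 : ℕ) : ℤ) ∣ v.ord (Z : ↥(modularFunctionFieldBar (M * e * 𝔓.p))) := by
      rw [hZdef]; exact dlw_dvd_ord_incl hd3 Yβ hYβ
    have hclsZ : alpfClass hp0 Z hZ =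
        dlwPullDvd hd3 (mlt3PullB (M * 𝔓.p) (alpfClass hp0 Y hY)) := by
      subst hZdef
      rw [← hclsβ]
      exact (dlwPullDvd_class hd3 hp0 Yβ hYβ).symm
    have hℓ₀N3 : ¬ ℓ₀ ∣ M * 𝔓.p * 3 := fun h => hℓ₀N (h.trans hd3)
    have hℓ₀N1 : ¬ ℓ₀ ∣ M * 𝔓.p := fun h => hℓ₀N (h.trans hdvd)
    have hTZ : heckeOperatorBar (M * e * 𝔓.p) ⟨ℓ₀, hℓ₀⟩ (alpfClass hp0 Z hZ) =
        W.apOfModel ℓ₀ • alpfClass hp0 Z hZ := by
      rw [hclsZ, ← dlwPullDvd_hecke hd3 hℓ₀ hℓ₀N, ← mlt3PullB_hecke (M * 𝔓.p) hℓ₀ hℓ₀N3,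
        heig ℓ₀ hℓ₀ hℓ₀N1 hgood₀ hℓ₀p, map_zsmul, map_zsmul]
    have hordZ := h1 Z hZ
      (by
        intro σ hσ
        rw [hclsZ, ← dlwPullDvd_galois hd3 σ, ← mlt3PullB_galois (M * 𝔓.p) σ, hI σ hσ])
      ⟨ℓ₀, hℓ₀, W.apOfModel ℓ₀, hℓ₀N, hℓ₀p, hTZ, hne⟩
    have hred3 : DlsRedTo 𝔓.P (IsLocalRing.residue ↥𝔓.P)
        ((Z : ↥(modularFunctionFieldBar (M * e * 𝔓.p))) : LaurentSeries Qb)
        (yb3 : LaurentSeries (IsLocalRing.ResidueField ↥𝔓.P)) := by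
      rw [hZdef, coe_dlwInclU, hYβdef, Units.coe_map, hyb3, hyb, hyb']
      show DlsRedTo 𝔓.P (IsLocalRing.residue ↥𝔓.P)
        ((heckeBetaBar Qb (M * 𝔓.p) 3 (Y : ↥(modularFunctionFieldBar (M * 𝔓.p))) :
          ↥(modularFunctionFieldBar (M * 𝔓.p * 3))) : LaurentSeries Qb) _
      rw [coe_heckeBetaBar]
      exact mlt3_redTo_qExpand 𝔓.P (IsLocalRing.residue ↥𝔓.P) 3 hy₀
    rw [← dls_ord_red_eq 𝔓 (M * e) hK Z yb3 hred3 s]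
    exact hordZ s
  -- the eigen-relations after reduction
  have heigb : ∀ (ℓ : ℕ) [NeZero ℓ], ℓ.Prime → ¬ ℓ ∣ M * e * 𝔓.p → W.IsGoodPrimeFor ℓ → ℓ ≠ 3 →
      ∀ (ζ : (↥𝔓.P)ˣ)
        (hζK : IsPrimitiveRoot ((Units.map (𝔓.P.subtype : ↥𝔓.P →* Qb) ζ : Qbˣ) : Qb) ℓ)
        (hζk : IsPrimitiveRoot ((Units.map ((IsLocalRing.residue ↥𝔓.P : ↥𝔓.P →+*
          IsLocalRing.ResidueField ↥𝔓.P) : ↥𝔓.P →* IsLocalRing.ResidueField ↥𝔓.P) ζ :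
          (IsLocalRing.ResidueField ↥𝔓.P)ˣ) : IsLocalRing.ResidueField ↥𝔓.P) ℓ),
        ∃ (c : IsLocalRing.ResidueField ↥𝔓.P) (ub : (↥(tbBarF 𝔓 (M * e)))ˣ), c ≠ 0 ∧
          tkrTilde ℓ hζk ((yb : ↥(tbBarF 𝔓 (M * e))) :
              LaurentSeries (IsLocalRing.ResidueField ↥𝔓.P)) =
            HahnSeries.C c *
              (((yb ^ (W.apOfModel ℓ) * ub ^ 3 : (↥(tbBarF 𝔓 (M * e)))ˣ) :
                ↥(tbBarF 𝔓 (M * e))) : LaurentSeries (IsLocalRing.ResidueField ↥𝔓.P)) := by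
    intro ℓ _ hℓ hℓN hgood hℓp ζ hζK hζk
    have hT := hT'' ℓ hℓ hℓN hgood hℓp
    rw [dle_zsmul_eq_nsmul hp0 _ _ (alpt_class_torsion hp0 Y'' hY'')] at hT
    obtain ⟨u, hu⟩ := dle_hecke_rel (M * e * 𝔓.p) hℓ hℓN hp0 Y'' hY'' _ hT
    -- the two reductions of `T_ℓ Y''`
    have hr1 := hred.tilde ℓ ζ hζK hζk
    rw [tkrTilde_eq_tkrHecke hℓ hℓN hζK, ← tkrHeckeUnits_coe, hu] at hr1
    have hru := dlsRed_spec 𝔓 (M * e) hK u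
    have hr2 := (hred.pow ((W.apOfModel ℓ % ((3 : ℕ) : ℤ)).toNat)).mul (hru.pow 3)
    have hcoe : ((((Y'' ^ (W.apOfModel ℓ % ((3 : ℕ) : ℤ)).toNat * u ^ 3 :
        (↥(modularFunctionFieldBar (M * e * 𝔓.p)))ˣ) : ↥(modularFunctionFieldBar (M * e * 𝔓.p))) :
        LaurentSeries Qb)) =
        ((Y'' : ↥(modularFunctionFieldBar (M * e * 𝔓.p))) : LaurentSeries Qb) ^
          (W.apOfModel ℓ % ((3 : ℕ) : ℤ)).toNat *
        ((u : ↥(modularFunctionFieldBar (M * e * 𝔓.p))) : LaurentSeries Qb) ^ 3 := by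
      rw [Units.val_mul, Units.val_pow_eq_pow_val, Units.val_pow_eq_pow_val, MulMemClass.coe_mul,
        SubmonoidClass.coe_pow, SubmonoidClass.coe_pow]
    rw [hcoe] at hr1
    obtain ⟨c, hc, hcy⟩ := hr2.unique hr1
    have hub0 : dlsRed 𝔓 (M * e) hK u ≠ 0 := dlsRed_ne_zero 𝔓 (M * e) hK u
    refine ⟨c, Units.mk0 _ hub0 * yb ^ (-(W.apOfModel ℓ / ((3 : ℕ) : ℤ))), hc, ?_⟩
    rw [hyb, hcy]
    refine congrArg (fun t => HahnSeries.C c * t) ?_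
    -- the unit identity
    have hunit := ihb_unit_identity yb (Units.mk0 _ hub0) (W.apOfModel ℓ) hp0
    rw [hunit, Units.val_mul, Units.val_pow_eq_pow_val, Units.val_pow_eq_pow_val, hyb,
      MulMemClass.coe_mul, SubmonoidClass.coe_pow, SubmonoidClass.coe_pow]
    rfl
  -- (B3)
  obtain ⟨c, gb, hc, hyg⟩ := h3 hEig yb
    (by rw [hyb, hyb']; exact (dlsRed 𝔓 M hM Y).2)
    (by intro s; rw [hyb]; exact hordyb s) hordyb3 heigb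
  -- lift the root
  obtain ⟨g, hg⟩ := ihb_exists_lift 𝔓 (M * e) (gb : ↥(tbBarF 𝔓 (M * e))) gb.ne_zero
  refine ⟨g⁻¹, ?_⟩
  rw [← hY''def]
  refine ihb_inf_of_redTo_const 𝔓 (M * e * 𝔓.p) (Y'' * g⁻¹ ^ 3) hc ?_
  have hcoe : ((((Y'' * g⁻¹ ^ 3 : (↥(modularFunctionFieldBar (M * e * 𝔓.p)))ˣ) :
      ↥(modularFunctionFieldBar (M * e * 𝔓.p))) : LaurentSeries Qb)) =
      ((Y'' : ↥(modularFunctionFieldBar (M * e * 𝔓.p))) : LaurentSeries Qb) *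
        (((g : ↥(modularFunctionFieldBar (M * e * 𝔓.p))) : LaurentSeries Qb)⁻¹) ^ 3 := by
    rw [Units.val_mul, Units.val_pow_eq_pow_val, Units.val_inv_eq_inv_val, MulMemClass.coe_mul,
      SubmonoidClass.coe_pow]
    rfl
  rw [hcoe]
  have hr := hred.mul ((hg.inv).pow 3)
  have hconst : (yb' : LaurentSeries (IsLocalRing.ResidueField ↥𝔓.P)) *
      (((gb : ↥(tbBarF 𝔓 (M * e))) : LaurentSeries (IsLocalRing.ResidueField ↥𝔓.P))⁻¹) ^ 3 =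
      HahnSeries.C c := by
    have hgb0 : ((gb : ↥(tbBarF 𝔓 (M * e))) : LaurentSeries (IsLocalRing.ResidueField ↥𝔓.P)) ≠ 0 :=
      fun h0 => gb.ne_zero (Subtype.ext h0)
    rw [← hyb, hyg, Units.val_pow_eq_pow_val, SubmonoidClass.coe_pow, inv_pow, mul_assoc,
      mul_inv_cancel₀ (pow_ne_zero 3 hgb0), mul_one]
  rw [hconst] at hr
  exact hr

end Toric3

/-- **Mazur's principle for `p = 3` through an auxiliary level `M e`, `3 ∣ e`** (general `W`): from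
(B1)+(B2) at the level `M e` and the comparison `MltL1Cmp3` for the cover `X₀(M e) → X₀(M)`, for the
models with bad reduction at `q` -/
theorem mlt3_mazur_gen
    (W : WeierstrassCurve ℤ) (hΔ : W.Δ ≠ 0) (hirr : W.ModRepIsIrreducible 3)
    (M e q : ℕ) (hMpos : 0 < M) (hepos : 0 < e) (h3e : 3 ∣ e) (hq : q.Prime) (hqp : q ≠ 3)
    (hqMe : ¬ q ∣ M * e)
    (h1 : ∀ (𝔓 : FFPlace) (hK : ¬ 𝔓.p ∣ M * e),
      haveI : NeZero M := ⟨hMpos.ne'⟩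
      haveI : NeZero e := ⟨hepos.ne'⟩
      𝔓.p = q → IhbRedDiv 𝔓 (M * e) hK 3 Nat.prime_three.ne_zero)
    (h3 : ∀ (𝔓 : FFPlace) (W' : WeierstrassCurve ℤ),
      haveI : NeZero M := ⟨hMpos.ne'⟩
      haveI : NeZero e := ⟨hepos.ne'⟩
      𝔓.p = q → W'.Δ ≠ 0 → (q : ℤ) ∣ W'.Δ → W'.ModRepIsIrreducible 3 → MltL1Cmp3 𝔓 M e W')
    (hunr : MltL1Unram W 3 q) (hnC : ¬ (3 ∣ q - 1 ∧ MltL1FrobScalar W 3 q))
    (hres : W.IsResiduallyModularOfLevel 3 (M * q)) :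
    W.IsResiduallyModularOfLevel 3 M := by
  haveI : NeZero M := ⟨hMpos.ne'⟩
  haveI : NeZero e := ⟨hepos.ne'⟩
  refine mltl1c_mazur_gen 3 Nat.prime_three (by norm_num) W hΔ hirr M e q hMpos hepos hq hqp hqMe
    ?_ hunr hnC hres
  intro 𝔓 W' h𝔓 hΔ' hqΔ' hirr'
  have hK : ¬ 𝔓.p ∣ M * e := by rw [h𝔓]; exact hqMe
  exact mlt3_toric 𝔓 M e hK h3e W' (h1 𝔓 hK h𝔓) (h3 𝔓 W' h𝔓 hΔ' hqΔ' hirr')

end

end Fermat.Agent.MLT
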