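/-
MLT / L1 / Three (helper4), part 13: **the comparison (B3) for `p = 3`** (`MltL1Cmp3`, lead's
`L1/Three/Wire3.lean`) at the places over `2`, for the levels `M e`, `(e, M) = (9, 3 ∤ M)` or `(3, 3 ∣ M)`,
`M` odd and squarefree with a prime divisor `r0 ≡ 2 mod 3`.

* `mlt3_dvd_lower` : the cubic lemma for `F̄_{9N''} / F̄_{3N''}`: if the divisors of `u ∈ F̄_{3N''}` and of
  `u(q³)` are divisible by `3` on `X₀(9N'')`, the divisor of `u` is divisible by `3` on `X₀(3N'')`;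
* `mlt3_cmp_all` : the literal body of helper6's `Mlt3CmpAll` (`L1/Three/Main.lean`), by the endgame
  `mlt3_cmp_end` (helper6, `L1/Three/End.lean`).
-/
import Mathlib
import Fermat.Agent.Lib.MLT.L1.Three.Inst
import Fermat.Agent.Lib.MLT.L1.Three.CubicLemma
import Fermat.Agent.Lib.MLT.L1.Three.PhiB
import Fermat.Agent.Lib.MLT.L1.Three.End
import Fermat.Agent.Lib.MLT.L1.Three.Wire3

set_option autoImplicit false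
set_option linter.unusedSectionVars false
set_option linter.unusedVariables false
set_option linter.style.haveILetI false
set_option synthInstance.maxHeartbeats 400000

namespace Fermat.Agent.MLT

open ModularCurve Fermat.Agent.T1 Fermat.Agent.T2 Fermat.Agent.T3 Fermat.Agent.Ihara
  HahnSeries IntermediateField AlgebraicCurve
  Fermat.Agent.Curve Fermat.Agent.Curve.PlaceAux Fermat.Agent.TW Fermat.Agent.Mazur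
  Fermat.Agent.Delta

local notation "Qb" => AlgebraicClosure ℚ

noncomputable section

attribute [local instance 5000] dlhAlgK

/-- **the cubic lemma for `F̄_{9N''} / F̄_{3N''}`** -/
theorem mlt3_dvd_lower (𝔓 : FFPlace) (N'' : ℕ) [NeZero N''] (hcop : Nat.Coprime 3 N'')
    (hK : ¬ 𝔓.p ∣ N'' * 3 * 3) (r0 : ℕ) (hr0 : r0.Prime) (hr3 : r0 % 3 = 2) (hr0N : r0 ∣ N'')
    (u : ↥(tbBarF 𝔓 (N'' * 3)))
    (h1 : ∀ Q : Place (IsLocalRing.ResidueField ↥𝔓.P) ↥(tbBarF 𝔓 (N'' * 3 * 3)),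
      (3 : ℤ) ∣ Q.ord (mltl9Phib 𝔓 (N'' * 3) 3 u))
    (h2 : ∀ Q : Place (IsLocalRing.ResidueField ↥𝔓.P) ↥(tbBarF 𝔓 (N'' * 3 * 3)),
      (3 : ℤ) ∣ Q.ord (dlhBetaC (IsLocalRing.ResidueField ↥𝔓.P) (N'' * 3) 3 u))
    (P : Place (IsLocalRing.ResidueField ↥𝔓.P) ↥(tbBarF 𝔓 (N'' * 3))) :
    (3 : ℤ) ∣ P.ord u := by
  haveI := ihbc_hasPrincipalDivisors 𝔓 (N'' * 3 * 3) hK
  obtain ⟨gb, w3, w9, G, H, hgι, hg3, hwH, hfix, hβ⟩ :=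
    mlt3_inst 𝔓 N'' hcop hK r0 hr0 hr3 hr0N
  refine mlt3_cubic_lemma (mltl9Phib 𝔓 (N'' * 3) 3) (mltl9_phib_integral 𝔓 (N'' * 3) 3)
    (mlt3_phib_fundamental 𝔓 (N'' * 3) 3 hK)
    (mlt3_finrank_three 𝔓 (N'' * 3) hK (mlt3_three_dvd_N N''))
    (mlt3_place_deg_one 𝔓 (N'' * 3 * 3)) (mlt3_place_deg_one 𝔓 (N'' * 3))
    gb hgι hg3 w3 G H hwH hfix u h1 ?_ P
  intro Q
  have h := h2 (w9 • Q)
  rw [hβ u, Place.ord_smul] at h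
  exact h


/-- transport of a `3`-divisibility statement between two names of the same level -/
theorem mlt3_level_transport (𝔓 : FFPlace) (a b : ℕ) [NeZero a] [NeZero b] (h : a = b) (m : ℤ)
    (s : LaurentSeries (IsLocalRing.ResidueField ↥𝔓.P))
    (ha : s ∈ tbBarF 𝔓 a) (hb : s ∈ tbBarF 𝔓 b)
    (H : ∀ Q : Place (IsLocalRing.ResidueField ↥𝔓.P) ↥(tbBarF 𝔓 a),
      m ∣ Q.ord (⟨s, ha⟩ : ↥(tbBarF 𝔓 a))) :
    ∀ Q : Place (IsLocalRing.ResidueField ↥𝔓.P) ↥(tbBarF 𝔓 b),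
      m ∣ Q.ord (⟨s, hb⟩ : ↥(tbBarF 𝔓 b)) := by
  subst h
  exact H

/-- **case `3 ∣ M`, `e = 3`** -/
theorem mlt3_cmp_caseB (𝔓 : FFPlace) (N'' : ℕ) [NeZero N''] (h𝔓 : 𝔓.p = 2)
    (h2 : ¬ 2 ∣ N'' * 3 * 3) (hcop : Nat.Coprime 3 N'')
    (r0 : ℕ) (hr0 : r0.Prime) (hr3 : r0 % 3 = 2) (hr0N : r0 ∣ N'')
    (W : WeierstrassCurve ℤ) (hΔ : W.Δ ≠ 0) (hW2 : ((2 : ℕ) : ℤ) ∣ W.Δ)
    (hirr : W.ModRepIsIrreducible 3) : MltL1Cmp3 𝔓 (N'' * 3) 3 W := by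
  unfold MltL1Cmp3
  intro hEig yb hybM hyb hyb3 hT
  have hK : ¬ 𝔓.p ∣ N'' * 3 * 3 := by rw [h𝔓]; exact h2
  obtain ⟨y₀, hy₀def⟩ : ∃ y₀ : ↥(tbBarF 𝔓 (N'' * 3)), y₀ = ⟨_, hybM⟩ := ⟨_, rfl⟩
  have hy₀ : mltl9Phib 𝔓 (N'' * 3) 3 y₀ = (yb : ↥(tbBarF 𝔓 (N'' * 3 * 3))) := by
    apply Subtype.ext
    rw [coe_mltl9Phib, hy₀def]
  have h1 : ∀ Q : Place (IsLocalRing.ResidueField ↥𝔓.P) ↥(tbBarF 𝔓 (N'' * 3 * 3)),
      (3 : ℤ) ∣ Q.ord (mltl9Phib 𝔓 (N'' * 3) 3 y₀) := by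
    intro Q
    rw [hy₀]
    exact_mod_cast hyb Q
  have h2' : ∀ Q : Place (IsLocalRing.ResidueField ↥𝔓.P) ↥(tbBarF 𝔓 (N'' * 3 * 3)),
      (3 : ℤ) ∣ Q.ord (dlhBetaC (IsLocalRing.ResidueField ↥𝔓.P) (N'' * 3) 3 y₀) := by
    intro Q
    have := hyb3 (dlhBetaC (IsLocalRing.ResidueField ↥𝔓.P) (N'' * 3) 3 y₀) (by
      rw [coe_dlhBetaC, hy₀def]) Q
    exact_mod_cast this
  have hy₀3 : ∀ s : Place (IsLocalRing.ResidueField ↥𝔓.P) ↥(tbBarF 𝔓 (N'' * 3)),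
      ((3 : ℕ) : ℤ) ∣ s.ord y₀ := by
    intro P
    have := mlt3_dvd_lower 𝔓 N'' hcop hK r0 hr0 hr3 hr0N y₀ h1 h2' P
    exact_mod_cast this
  exact mlt3_cmp_end 𝔓 (N'' * 3) 3 h𝔓 h2 ⟨N'', by ring⟩ (Or.inl rfl) W hΔ hW2 hirr hEig yb y₀
    hy₀ hy₀3 hyb hT


theorem mlt3_mem_transport (𝔓 : FFPlace) (a b : ℕ) [NeZero a] [NeZero b] (h : a = b)
    (s : LaurentSeries (IsLocalRing.ResidueField ↥𝔓.P)) (ha : s ∈ tbBarF 𝔓 a) :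
    s ∈ tbBarF 𝔓 b := by
  subst h
  exact ha

/-- **case `3 ∤ M`, `e = 9`** -/
theorem mlt3_cmp_caseA (𝔓 : FFPlace) (M : ℕ) [NeZero M] (h𝔓 : 𝔓.p = 2)
    (h2 : ¬ 2 ∣ M * 9) (h3M : ¬ 3 ∣ M)
    (r0 : ℕ) (hr0 : r0.Prime) (hr3 : r0 % 3 = 2) (hr0N : r0 ∣ M)
    (W : WeierstrassCurve ℤ) (hΔ : W.Δ ≠ 0) (hW2 : ((2 : ℕ) : ℤ) ∣ W.Δ)
    (hirr : W.ModRepIsIrreducible 3) : MltL1Cmp3 𝔓 M 9 W := by
  unfold MltL1Cmp3
  intro hEig yb hybM hyb hyb3 hT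
  have hlev : M * 9 = M * 3 * 3 := by ring
  have hK : ¬ 𝔓.p ∣ M * 3 * 3 := by rw [h𝔓, ← hlev]; exact h2
  have hK3 : ¬ 𝔓.p ∣ M * 3 := mltl9_not_dvd_left hK
  have hcop : Nat.Coprime 3 M := (Nat.Prime.coprime_iff_not_dvd Nat.prime_three).mpr h3M
  haveI := ihbc_hasPrincipalDivisors 𝔓 (M * 3) hK3
  obtain ⟨s, hs⟩ : ∃ s : LaurentSeries (IsLocalRing.ResidueField ↥𝔓.P),
      s = ((yb : ↥(tbBarF 𝔓 (M * 9))) : LaurentSeries (IsLocalRing.ResidueField ↥𝔓.P)) := ⟨_, rfl⟩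
  rw [← hs] at hybM
  obtain ⟨y₀, hy₀def⟩ : ∃ y₀ : ↥(tbBarF 𝔓 M), y₀ = ⟨s, hybM⟩ := ⟨_, rfl⟩
  have hy₀ : mltl9Phib 𝔓 M 9 y₀ = (yb : ↥(tbBarF 𝔓 (M * 9))) := by
    apply Subtype.ext
    rw [coe_mltl9Phib, hy₀def, ← hs]
  obtain ⟨u, hu⟩ : ∃ u : ↥(tbBarF 𝔓 (M * 3)), u = mltl9Phib 𝔓 M 3 y₀ := ⟨_, rfl⟩
  have hus : (u : LaurentSeries (IsLocalRing.ResidueField ↥𝔓.P)) = s := by
    rw [hu, coe_mltl9Phib, hy₀def]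
  -- the two hypotheses, transported to the level `M * 3 * 3`
  have hs9 : s ∈ tbBarF 𝔓 (M * 9) := by rw [hs]; exact (yb : ↥(tbBarF 𝔓 (M * 9))).2
  have hs33 : s ∈ tbBarF 𝔓 (M * 3 * 3) := mlt3_mem_transport 𝔓 _ _ hlev s hs9
  have h1 : ∀ Q : Place (IsLocalRing.ResidueField ↥𝔓.P) ↥(tbBarF 𝔓 (M * 3 * 3)),
      (3 : ℤ) ∣ Q.ord (mltl9Phib 𝔓 (M * 3) 3 u) := by
    have e1 : mltl9Phib 𝔓 (M * 3) 3 u = ⟨s, hs33⟩ := by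
      apply Subtype.ext
      rw [coe_mltl9Phib, hus]
    rw [e1]
    refine mlt3_level_transport 𝔓 _ _ hlev 3 s hs9 hs33 ?_
    intro Q
    have h := hyb Q
    have e2 : (yb : ↥(tbBarF 𝔓 (M * 9))) = ⟨s, hs9⟩ := Subtype.ext hs.symm
    rw [e2] at h
    exact_mod_cast h
  have h2' : ∀ Q : Place (IsLocalRing.ResidueField ↥𝔓.P) ↥(tbBarF 𝔓 (M * 3 * 3)),
      (3 : ℤ) ∣ Q.ord (dlhBetaC (IsLocalRing.ResidueField ↥𝔓.P) (M * 3) 3 u) := by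
    have hq33 : qExpand (IsLocalRing.ResidueField ↥𝔓.P) 3 s ∈ tbBarF 𝔓 (M * 3 * 3) := by
      have := (dlhBetaC (IsLocalRing.ResidueField ↥𝔓.P) (M * 3) 3 u).2
      rw [coe_dlhBetaC, hus] at this
      exact this
    have hq9 : qExpand (IsLocalRing.ResidueField ↥𝔓.P) 3 s ∈ tbBarF 𝔓 (M * 9) :=
      mlt3_mem_transport 𝔓 _ _ hlev.symm _ hq33
    have e1 : dlhBetaC (IsLocalRing.ResidueField ↥𝔓.P) (M * 3) 3 u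
        = ⟨qExpand (IsLocalRing.ResidueField ↥𝔓.P) 3 s, hq33⟩ := by
      apply Subtype.ext
      rw [coe_dlhBetaC, hus]
    rw [e1]
    refine mlt3_level_transport 𝔓 _ _ hlev 3 _ hq9 hq33 ?_
    intro Q
    have h := hyb3 ⟨qExpand (IsLocalRing.ResidueField ↥𝔓.P) 3 s, hq9⟩
      (congrArg (qExpand (IsLocalRing.ResidueField ↥𝔓.P) 3) hs) Q
    exact_mod_cast h
  have hu3 : ∀ P : Place (IsLocalRing.ResidueField ↥𝔓.P) ↥(tbBarF 𝔓 (M * 3)),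
      (3 : ℤ) ∣ P.ord (mltl9Phib 𝔓 M 3 y₀) := by
    intro P
    rw [← hu]
    exact mlt3_dvd_lower 𝔓 M hcop hK r0 hr0 hr3 hr0N u h1 h2' P
  have hy₀3 : ∀ P : Place (IsLocalRing.ResidueField ↥𝔓.P) ↥(tbBarF 𝔓 M),
      ((3 : ℕ) : ℤ) ∣ P.ord y₀ := by
    intro P
    have := mlt3_descent (mltl9Phib 𝔓 M 3) (mltl9_phib_integral 𝔓 M 3)
      (mlt3_phib_fundamental 𝔓 M 3 hK3) 4 (mlt3_finrank_four 𝔓 M hK3 h3M) (by norm_num)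
      (mlt3_place_deg_one 𝔓 (M * 3)) (mlt3_place_deg_one 𝔓 M) y₀ hu3 P
    exact_mod_cast this
  exact mlt3_cmp_end 𝔓 M 9 h𝔓 h2 ⟨M, by ring⟩ (Or.inr rfl) W hΔ hW2 hirr hEig yb y₀
    hy₀ hy₀3 hyb hT


/-- **the comparison (B3) for `p = 3` at all the places over `2`** (the literal body of helper6's
`Mlt3CmpAll`) -/
theorem mlt3_cmp_all :
    ∀ (𝔓 : FFPlace) (M e : ℕ) [NeZero M] [NeZero e], 𝔓.p = 2 → ¬ 2 ∣ M * e →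
      (e = 9 ∧ ¬ 3 ∣ M ∨ e = 3 ∧ 3 ∣ M) → (∃ r0 : ℕ, r0.Prime ∧ r0 % 3 = 2 ∧ r0 ∣ M) →
      Squarefree M →
      ∀ W' : WeierstrassCurve ℤ, W'.Δ ≠ 0 → ((2 : ℕ) : ℤ) ∣ W'.Δ → W'.ModRepIsIrreducible 3 →
        MltL1Cmp3 𝔓 M e W' := by
  intro 𝔓 M e _ _ h𝔓 h2 he hr hsq W' hΔ hW2 hirr
  obtain ⟨r0, hr0, hr3, hr0M⟩ := hr
  rcases he with ⟨rfl, h3⟩ | ⟨rfl, h3⟩
  · exact mlt3_cmp_caseA 𝔓 M h𝔓 h2 h3 r0 hr0 hr3 hr0M W' hΔ hW2 hirr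
  · obtain ⟨c, rfl⟩ : ∃ c, M = c * 3 := by
      obtain ⟨c, hc⟩ := h3
      exact ⟨c, by rw [hc, mul_comm]⟩
    haveI : NeZero c := ⟨by
      rintro rfl
      exact NeZero.ne (0 * 3) (by simp)⟩
    have hcop : Nat.Coprime 3 c := by
      rw [Nat.Prime.coprime_iff_not_dvd Nat.prime_three]
      intro hd
      have h9 : 3 * 3 ∣ c * 3 := Nat.mul_dvd_mul hd dvd_rfl
      have := hsq 3 h9
      exact Nat.prime_three.not_isUnit this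
    have hr0c : r0 ∣ c := by
      rcases (Nat.Prime.dvd_mul hr0).mp hr0M with h | h
      · exact h
      · exfalso
        have := (Nat.prime_dvd_prime_iff_eq hr0 Nat.prime_three).mp h
        rw [this] at hr3
        omega
    exact mlt3_cmp_caseB 𝔓 c h𝔓 h2 hcop r0 hr0 hr3 hr0c W' hΔ hW2 hirr

end

end Fermat.Agent.MLT
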