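/-
MLT (project S59) / [L1], `p = 3` core (helper6, lead's m70): **the final wiring of Mazur's principle at
`q = 2`, `p = 3`, with an auxiliary prime `r0 ≡ 2 mod 3` in the level**.

* `Mlt3CmpAll` : the comparison (B3) for `p = 3` (`MltL1Cmp3`, lead's `L1/Three/Wire3.lean`) at all the places
  over `2`, for the levels `M e` with `(e, M) = (9, 3 ∤ M)` or `(3, 3 ∣ M)`, `M` odd and squarefree with a prime
  divisor `r0 ≡ 2 mod 3` (what helper4's `mlt3_cmp` proves);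
* `mlt3_mazurTwoAux_of_cmp : Mlt3CmpAll → MltL1MazurTwoAux` : from lead's `mlt3_mazur_gen` (`q = 2`, `e = 9` or
  `e = 3`) and (B1)+(B2) for `p = 3` at the places over `2` (`mltcv_redDiv_two`, `L1/VertR/RedDiv.lean`).
-/
import Mathlib
import Fermat.Agent.Lib.MLT.L1.Three.Wire3
import Fermat.Agent.Lib.MLT.L1.VertR.RedDiv
import Fermat.Agent.Lib.MLT.Contracts.L1Three

set_option autoImplicit false
set_option linter.unusedSectionVars false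
set_option linter.unusedVariables false
set_option linter.style.haveILetI false
set_option synthInstance.maxHeartbeats 400000

open WeierstrassCurve

namespace Fermat.Agent.MLT

open Fermat.Agent.T1 Fermat.Agent.TW Fermat.Agent.Ihara

/-- **the comparison (B3) for `p = 3` at all the places over `2`** (helper4's `mlt3_cmp`) -/
def Mlt3CmpAll : Prop :=
  ∀ (𝔓 : FFPlace) (M e : ℕ) [NeZero M] [NeZero e], 𝔓.p = 2 → ¬ 2 ∣ M * e →
    (e = 9 ∧ ¬ 3 ∣ M ∨ e = 3 ∧ 3 ∣ M) → (∃ r0 : ℕ, r0.Prime ∧ r0 % 3 = 2 ∧ r0 ∣ M) →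
    Squarefree M →
    ∀ W' : WeierstrassCurve ℤ, W'.Δ ≠ 0 → ((2 : ℕ) : ℤ) ∣ W'.Δ → W'.ModRepIsIrreducible 3 →
      MltL1Cmp3 𝔓 M e W'

/-- **Mazur's principle at `q = 2`, `p = 3`, with an auxiliary prime in the level**, from the comparison -/
theorem mlt3_mazurTwoAux_of_cmp (hCmp : Mlt3CmpAll) : MltL1MazurTwoAux := by
  intro W hΔ _ hirr M r0 hMpos h2M hsq hr0 hr3 hr0M hunr hres
  have hnC : ¬ (3 ∣ 2 - 1 ∧ MltL1FrobScalar W 3 2) := fun h => by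
    have h1 := h.1
    omega
  -- the auxiliary level
  obtain ⟨e, he⟩ : ∃ e : ℕ, e = 9 ∧ ¬ 3 ∣ M ∨ e = 3 ∧ 3 ∣ M := by
    by_cases h3 : 3 ∣ M
    · exact ⟨3, Or.inr ⟨rfl, h3⟩⟩
    · exact ⟨9, Or.inl ⟨rfl, h3⟩⟩
  have hepos : 0 < e := by
    rcases he with ⟨h, _⟩ | ⟨h, _⟩ <;> omega
  have h3e : 3 ∣ e := by
    rcases he with ⟨h, _⟩ | ⟨h, _⟩ <;> rw [h]
    norm_num
  have h2e : ¬ 2 ∣ e := by
    rcases he with ⟨h, _⟩ | ⟨h, _⟩ <;> rw [h] <;> norm_num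
  have h2Me : ¬ 2 ∣ M * e := by
    intro h
    rcases (Nat.Prime.dvd_mul Nat.prime_two).mp h with h | h
    · exact h2M h
    · exact h2e h
  have h9 : 9 ∣ M * e := by
    rcases he with ⟨h, _⟩ | ⟨h, h3⟩
    · rw [h]
      exact Dvd.intro_left M rfl
    · rw [h]
      obtain ⟨m, hm⟩ := h3
      exact ⟨m, by rw [hm]; ring⟩
  refine mlt3_mazur_gen W hΔ hirr M e 2 hMpos hepos h3e Nat.prime_two (by norm_num) h2Me ?_ ?_
    hunr hnC hres
  · intro 𝔓 hK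
    haveI : NeZero M := ⟨hMpos.ne'⟩
    haveI : NeZero e := ⟨hepos.ne'⟩
    intro h𝔓
    exact mltcv_redDiv_two 𝔓 (M * e) hK h𝔓 h9 r0 hr0 hr3 (hr0M.mul_right e)
  · intro 𝔓 W'
    haveI : NeZero M := ⟨hMpos.ne'⟩
    haveI : NeZero e := ⟨hepos.ne'⟩
    intro h𝔓 hΔ' h2Δ' hirr'
    exact hCmp 𝔓 M e h𝔓 h2Me he ⟨r0, hr0, hr3, hr0M⟩ hsq W' hΔ' h2Δ' hirr'

end Fermat.Agent.MLT
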