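/-
MLT (project S59) / [L1], `p = 3` core: **`mltl1_mazurTwoAux : MltL1MazurTwoAux`** (lead's contract
`Lib/MLT/Contracts/L1Three.lean`): Mazur's principle at `q = 2`, `p = 3`, with an auxiliary prime
`r0 ≡ 2 mod 3` in the level.

From helper6's wiring `mlt3_mazurTwoAux_of_cmp : Mlt3CmpAll → MltL1MazurTwoAux` (`L1/Three/Main.lean`: lead's
`mlt3_mazur_gen` + helper6's `mltcv_redDiv_two`) and helper4's comparison `mlt3_cmp_all`
(`L1/Three/Cmp.lean`: the cubic lemma + helper6's endgame `mlt3_cmp_end`).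
-/
import Mathlib
import Fermat.Agent.Lib.MLT.L1.Three.Main
import Fermat.Agent.Lib.MLT.L1.Three.Cmp

set_option autoImplicit false

namespace Fermat.Agent.MLT

/-- **Mazur's principle at `q = 2`, `p = 3`, with an auxiliary prime in the level** -/
theorem mltl1_mazurTwoAux : MltL1MazurTwoAux :=
  mlt3_mazurTwoAux_of_cmp mlt3_cmp_all

end Fermat.Agent.MLT
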